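import Mathlib
import Fermat.Agent.LT.T1.Spec
import Fermat.Agent.LT.T7.H62.RigidStrip

/-!
# Row LT, tower T7, node T7.14 `RigidC`, LEAF `FoldWhitC` (registry 1717) -- CUT, level 1
(helper57, 2nd owner / sub-architect; registry 1860)

OFF-MAIN.  Definitions, frozen Props, PROVED top.  No hole, nothing assumed.
Vocabulary: `LT/T7/H62/RigidStrip.lean` (helper62@3eb009f31, sha256 9f2a8c0428281431).

```
Rigid.FoldWhitC K  ⇐  T1.AdNormC K + FoldC57 K + ParsevalC57 K + ParsBddC57 K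
                        + WhitMeasC57 K + UnfoldXC57 K              (`foldWhitC_of57`, PROVED)
```

* `FoldC57`     : steps (1)+(2)+(3) of the registry row: unfolding `GL₂(K) → B(K)` on the frame,
  Haar measure in Iwasawa coordinates, the integral over the centre.  Output: a measurable
  fundamental domain `FX` of `Kˣ` in the ideles and `c > 0` with
  `∫_F φ₁ φ̄₁' cnt = c ∫_{y ∈ FX, |y| ≥ Y} (∫_D φ₁ φ̄₁'(n(x) a(y)) dν(x)) |y|⁻¹ dτ(y)`,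
  and `∫_{y ∈ FX, |y| ≥ Y} |y|⁻¹ dτ < ∞`.
* `ParsevalC57` : step (4) (= registry 1801, helper91, form (b)).
* `ParsBddC57`  : `∑_α |W₁ W̄₁'(torK α g)| ≤ C` uniformly in `g` (Cauchy--Schwarz + Parseval).
* `WhitMeasC57` : `y ↦ W_φ(a(y))` is Borel measurable on the ideles.
* `UnfoldXC57`  : step (5), unfolding of `Kˣ` on the ideles (Mathlib `IsFundamentalDomain`).
-/

set_option autoImplicit false

open AutomorphicForm IsDedekindDomain NumberField Filter Topology MeasureTheory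
open scoped ComplexConjugate ENNReal

noncomputable section

namespace Fermat.Agent.LT.T7.H57

open Fermat.Agent.LT.H556 Fermat.Agent.LT.H556.A0 Fermat.Agent.LT.T7 Fermat.Agent.LT.T7.Rigid

attribute [local instance] Fermat.Agent.LT.T5.instMeasurableSpaceG

variable (K : Type) [Field K] [NumberField K]

/-! ## Vocabulary -/

/-- The principal ideles (same definition as `T1.ratUnit`). -/
def ratU57 : Kˣ →* (Adl K)ˣ := Units.map (algebraMap K (Adl K)).toMonoidHom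

/-- The module of an idele. -/
def nrm57 (y : (Adl K)ˣ) : ℝ := Fermat.Agent.LT.T5.adNorm (y : Adl K)

/-- The product of the Whittaker functions on the torus. -/
def ww57 {m : MeasurableSpace (Adl K)} (ψ : AddChar (Adl K) Circle) (ν : Measure (Adl K))
    (D : Set (Adl K)) (φ₁ φ₁' : G K → ℂ) (g : G K) : ℂ :=
  whit ψ ν D φ₁ g * conj (whit ψ ν D φ₁' g)

/-- The period of `φ₁ φ̄₁'` over `N(K) \ N(𝔸)`. -/
def per57 {m : MeasurableSpace (Adl K)} (ν : Measure (Adl K))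
    (D : Set (Adl K)) (φ₁ φ₁' : G K → ℂ) (g : G K) : ℂ :=
  ∫ x in D, φ₁ (Fermat.Agent.LT.T3.unip K x * g) * conj (φ₁' (Fermat.Agent.LT.T3.unip K x * g)) ∂ν

/-- The half line `{y : Y ≤ |y|}` in the ideles. -/
def halfX57 (Y : ℝ) : Set (Adl K)ˣ := {y | Y ≤ nrm57 K y}

/-- `φ` is left invariant under `GL₂(K)`. -/
def IsLeftInv57 (φ : G K → ℂ) : Prop :=
  ∀ (γ : GL (Fin 2) K) (g : G K),
    φ (Matrix.GeneralLinearGroup.map (algebraMap K (Adl K)) γ * g) = φ g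

/-! ## The Props -/

/-- **LEAF FOLD** = steps (1), (2), (3). -/
def FoldC57 : Prop :=
  letI : MeasurableSpace (Adl K) := borel (Adl K)
  letI : MeasurableSpace (Adl K)ˣ := borel (Adl K)ˣ
  TotCplx K →
  ∀ (μ : Measure (G K)) (F : Set (G K)), Fermat.Agent.LT.T5.IsFrame μ F →
  ∀ (ν : Measure (Adl K)) (D : Set (Adl K)), ν.IsAddHaarMeasure → MeasurableSet D →
    IsAddFundamentalDomain ((algebraMap K (Adl K)).toAddMonoidHom.range) D ν → ν D < ⊤ →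
  ∀ τ : Measure (Adl K)ˣ, τ.IsHaarMeasure →
  ∀ (S : Finset (HeightOneSpectrum (𝓞 K))) (𝔪 : Ideal (𝓞 K)), IsSupp S 𝔪 →
    ∃ (c : ℝ) (FX : Set (Adl K)ˣ), 0 < c ∧ MeasurableSet FX ∧
      IsFundamentalDomain (ratU57 K).range FX τ ∧
      (∀ Y : ℝ, 0 < Y →
        ∫⁻ y in FX ∩ halfX57 K Y, ENNReal.ofReal ((nrm57 K y)⁻¹) ∂τ < ⊤) ∧
      ∀ (π π' : HeckeEigensystem K ℂ) (φ₁ φ₁' : G K → ℂ),
        IsSForm π S φ₁ → IsSForm π' S φ₁' → IsLevelInv 𝔪 φ₁ → IsLevelInv 𝔪 φ₁' →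
        ∀ Y : ℝ, 0 < Y →
          ∫ g in F, φ₁ g * conj (φ₁' g) * (((cnt 𝔪 Y g : ℕ) : ℝ) : ℂ) ∂μ
            = (c : ℂ) * ∫ y in FX ∩ halfX57 K Y,
                per57 K ν D φ₁ φ₁' (dgA y) * (((nrm57 K y)⁻¹ : ℝ) : ℂ) ∂τ

/-- **LEAF PARSEVAL** = step (4) (registry 1801, form (b)). -/
def ParsevalC57 : Prop :=
  letI : MeasurableSpace (Adl K) := borel (Adl K)
  ∀ ψ : AddChar (Adl K) Circle, Fermat.Agent.LT.T3.IsStdChar K ψ →
    Fermat.Agent.LT.T3.IsNonDeg K ψ →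
  ∀ (ν : Measure (Adl K)) (D : Set (Adl K)), ν.IsAddHaarMeasure → MeasurableSet D →
    IsAddFundamentalDomain ((algebraMap K (Adl K)).toAddMonoidHom.range) D ν → ν D < ⊤ →
  ∀ φ₁ φ₁' : G K → ℂ, Continuous φ₁ → (∃ C : ℝ, ∀ g : G K, ‖φ₁ g‖ ≤ C) → IsLeftInv57 K φ₁ →
    IsCuspidalFn φ₁ →
    Continuous φ₁' → (∃ C : ℝ, ∀ g : G K, ‖φ₁' g‖ ≤ C) → IsLeftInv57 K φ₁' →
    IsCuspidalFn φ₁' →
    ∀ g : G K,
      Summable (fun α : Kˣ => ww57 K ψ ν D φ₁ φ₁' (Fermat.Agent.LT.T3.torK K α * g)) ∧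
      (((ν D).toReal : ℝ) : ℂ) * per57 K ν D φ₁ φ₁' g
        = ∑' α : Kˣ, ww57 K ψ ν D φ₁ φ₁' (Fermat.Agent.LT.T3.torK K α * g)

/-- **LEAF PARS-BDD**: the Parseval series is bounded uniformly in `g`
(Cauchy--Schwarz, and `ParsevalC57` for `(φ₁, φ₁)` and `(φ₁', φ₁')`). -/
def ParsBddC57 : Prop :=
  letI : MeasurableSpace (Adl K) := borel (Adl K)
  ∀ ψ : AddChar (Adl K) Circle, Fermat.Agent.LT.T3.IsStdChar K ψ →
    Fermat.Agent.LT.T3.IsNonDeg K ψ →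
  ∀ (ν : Measure (Adl K)) (D : Set (Adl K)), ν.IsAddHaarMeasure → MeasurableSet D →
    IsAddFundamentalDomain ((algebraMap K (Adl K)).toAddMonoidHom.range) D ν → ν D < ⊤ →
  ∀ φ₁ φ₁' : G K → ℂ, Continuous φ₁ → (∃ C : ℝ, ∀ g : G K, ‖φ₁ g‖ ≤ C) → IsLeftInv57 K φ₁ →
    IsCuspidalFn φ₁ →
    Continuous φ₁' → (∃ C : ℝ, ∀ g : G K, ‖φ₁' g‖ ≤ C) → IsLeftInv57 K φ₁' →
    IsCuspidalFn φ₁' →
    ∃ C : ℝ, ∀ g : G K,
      ∑' α : Kˣ, ‖ww57 K ψ ν D φ₁ φ₁' (Fermat.Agent.LT.T3.torK K α * g)‖ ≤ C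

/-- **LEAF WHIT-MEAS**: the Whittaker function on the torus is Borel measurable. -/
def WhitMeasC57 : Prop :=
  letI : MeasurableSpace (Adl K) := borel (Adl K)
  letI : MeasurableSpace (Adl K)ˣ := borel (Adl K)ˣ
  ∀ (ψ : AddChar (Adl K) Circle), Fermat.Agent.LT.T3.IsStdChar K ψ →
  ∀ (ν : Measure (Adl K)) (D : Set (Adl K)), ν.IsAddHaarMeasure → MeasurableSet D → ν D < ⊤ →
  ∀ φ : G K → ℂ, Continuous φ → (∃ C : ℝ, ∀ g : G K, ‖φ g‖ ≤ C) →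
    Measurable fun y : (Adl K)ˣ => whit ψ ν D φ (dgA y)

/-- **LEAF UNFOLD-X** = step (5): unfolding of `Kˣ` on the ideles. -/
def UnfoldXC57 : Prop :=
  letI : MeasurableSpace (Adl K)ˣ := borel (Adl K)ˣ
  ∀ τ : Measure (Adl K)ˣ, τ.IsHaarMeasure →
  ∀ FX : Set (Adl K)ˣ, IsFundamentalDomain (ratU57 K).range FX τ →
  ∀ u : (Adl K)ˣ → ℂ, Measurable u →
    (∫⁻ y in FX, ∑' α : Kˣ, ‖u (ratU57 K α * y)‖ₑ ∂τ < ⊤) →
    ∫ y in FX, ∑' α : Kˣ, u (ratU57 K α * y) ∂τ = ∫ y, u y ∂τ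

end Fermat.Agent.LT.T7.H57

end
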