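import Mathlib
import Fermat.Agent.LT.T7.H57.FoldSpec

/-!
# Row LT, tower T7, LEAF `FoldWhitC` -- CUT of the node `FoldC57`, level 2 (helper57)

OFF-MAIN.  Definitions, frozen Props.  The PROVED top is in `FoldTop2.lean`.

```
FoldC57 K  ⇐  FundXC57 K + CoreC57 K + BoxIntC57 K + ZInvC57 K        (`foldC_of57`)
```

Coordinates of the Borel subgroup: `P = 𝔸 × 𝔸ˣ × 𝔸ˣ`, `ι(x, y, z) = n(x) · diag(y, 1) · z`,
left Haar measure `|y|⁻¹ dν(x) dτ(y) dτ(z)`.  The box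
`box Y = {x ∈ D, y ∈ FX, z ∈ FX, |y| ≥ Y, 1 ≤ |y| |z|² < 2}` is a fundamental domain of `B(K)` in
the part of `ι⁻¹(slab)` of height `≥ Y`.

* `FundXC57` : a measurable fundamental domain of `Kˣ` in the ideles exists.
* `CoreC57`  : steps (1) + (2): for `Φ` continuous, bounded, left `GL₂(K)`-invariant and right
  invariant under `U(𝔪) K_∞`: `∫_F Φ cnt = c₀ ∫_{box Y} Φ(ι p) |y|⁻¹ dp`.
* `BoxIntC57`: step (3): for `Φ` invariant under the centre the integral over the box is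
  `V ∫_{y ∈ FX, |y| ≥ Y} (∫_D Φ(n(x) a(y)) dν) |y|⁻¹ dτ` (Fubini; the volume of
  `Kˣ \ {z : 1 ≤ t |z|² < 2}` is a constant `V`: Fujisaki + invariance); finiteness of the volumes.
* `ZInvC57`  : `S`-forms of level `𝔪` are invariant under the centre (weak approximation).
-/

set_option autoImplicit false

open AutomorphicForm IsDedekindDomain NumberField Filter Topology MeasureTheory
open scoped ComplexConjugate ENNReal

noncomputable section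

namespace Fermat.Agent.LT.T7.H57

open Fermat.Agent.LT.H556 Fermat.Agent.LT.H556.A0 Fermat.Agent.LT.T7 Fermat.Agent.LT.T7.Rigid

attribute [local instance] Fermat.Agent.LT.T5.instMeasurableSpaceG

variable (K : Type) [Field K] [NumberField K]

/-! ## Vocabulary -/

/-- The scalar matrix of an idele. -/
def zA57 (z : (Adl K)ˣ) : G K :=
  ⟨!![(z : Adl K), 0; 0, (z : Adl K)],
    !![((z⁻¹ : (Adl K)ˣ) : Adl K), 0; 0, ((z⁻¹ : (Adl K)ˣ) : Adl K)],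
    by ext i j; fin_cases i <;> fin_cases j <;> simp [Matrix.mul_apply, Fin.sum_univ_two],
    by ext i j; fin_cases i <;> fin_cases j <;> simp [Matrix.mul_apply, Fin.sum_univ_two]⟩

/-- The coordinates of the Borel subgroup: `ι(x, y, z) = n(x) · diag(y, 1) · z`. -/
def iota57 (p : Adl K × (Adl K)ˣ × (Adl K)ˣ) : G K :=
  Fermat.Agent.LT.T3.unip K p.1 * dgA p.2.1 * zA57 K p.2.2

/-- The box. -/
def box57 (D : Set (Adl K)) (FX : Set (Adl K)ˣ) (Y : ℝ) : Set (Adl K × (Adl K)ˣ × (Adl K)ˣ) :=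
  {p | p.1 ∈ D ∧ p.2.1 ∈ FX ∧ p.2.2 ∈ FX ∧ Y ≤ nrm57 K p.2.1 ∧
    1 ≤ nrm57 K p.2.1 * nrm57 K p.2.2 ^ 2 ∧ nrm57 K p.2.1 * nrm57 K p.2.2 ^ 2 < 2}

/-- `Φ` is right invariant under `U(𝔪)` and under the maximal compact subgroups at the infinite
places. -/
def IsRightC57 (𝔪 : Ideal (𝓞 K)) (Φ : G K → ℂ) : Prop :=
  IsLevelInv 𝔪 Φ ∧ ∀ (w : InfinitePlace K) (k : G K), IsArchCompact w k →
    ∀ g : G K, Φ (g * k) = Φ g

/-- `Φ` is invariant under the centre. -/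
def IsZInv57 (Φ : G K → ℂ) : Prop :=
  ∀ (z : (Adl K)ˣ) (g : G K), Φ (g * zA57 K z) = Φ g

/-! ## The Props -/

/-- **LEAF FUND-X.**  A measurable fundamental domain of `Kˣ` in the ideles. -/
def FundXC57 : Prop :=
  letI : MeasurableSpace (Adl K)ˣ := borel (Adl K)ˣ
  ∀ τ : Measure (Adl K)ˣ, τ.IsHaarMeasure →
    ∃ FX : Set (Adl K)ˣ, MeasurableSet FX ∧ IsFundamentalDomain (ratU57 K).range FX τ

/-- **NODE CORE** = steps (1) + (2): unfolding `GL₂(K) → B(K)` on the frame and the Haar measure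
in Iwasawa coordinates. -/
def CoreC57 : Prop :=
  letI : MeasurableSpace (Adl K) := borel (Adl K)
  letI : MeasurableSpace (Adl K)ˣ := borel (Adl K)ˣ
  TotCplx K →
  ∀ (μ : Measure (G K)) (F : Set (G K)), Fermat.Agent.LT.T5.IsFrame μ F →
  ∀ (ν : Measure (Adl K)) (D : Set (Adl K)), ν.IsAddHaarMeasure → MeasurableSet D →
    IsAddFundamentalDomain ((algebraMap K (Adl K)).toAddMonoidHom.range) D ν → ν D < ⊤ →
  ∀ τ : Measure (Adl K)ˣ, τ.IsHaarMeasure →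
  ∀ (S : Finset (HeightOneSpectrum (𝓞 K))) (𝔪 : Ideal (𝓞 K)), IsSupp S 𝔪 →
  ∀ FX : Set (Adl K)ˣ, MeasurableSet FX → IsFundamentalDomain (ratU57 K).range FX τ →
    (∀ Y : ℝ, 0 < Y →
      ∫⁻ p in box57 K D FX Y, ENNReal.ofReal ((nrm57 K p.2.1)⁻¹) ∂(ν.prod (τ.prod τ)) < ⊤) →
    ∃ c₀ : ℝ, 0 < c₀ ∧
      ∀ Φ : G K → ℂ, Continuous Φ → (∃ C : ℝ, ∀ g : G K, ‖Φ g‖ ≤ C) → IsLeftInv57 K Φ →
        IsRightC57 K 𝔪 Φ →
        ∀ Y : ℝ, 0 < Y →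
          ∫ g in F, Φ g * (((cnt 𝔪 Y g : ℕ) : ℝ) : ℂ) ∂μ
            = (c₀ : ℂ) * ∫ p in box57 K D FX Y,
                Φ (iota57 K p) * (((nrm57 K p.2.1)⁻¹ : ℝ) : ℂ) ∂(ν.prod (τ.prod τ))

/-- **LEAF BOX-INT** = step (3): Fubini on the box, the integral over the centre, the volumes. -/
def BoxIntC57 : Prop :=
  letI : MeasurableSpace (Adl K) := borel (Adl K)
  letI : MeasurableSpace (Adl K)ˣ := borel (Adl K)ˣ
  ∀ (ν : Measure (Adl K)) (D : Set (Adl K)), ν.IsAddHaarMeasure → MeasurableSet D →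
    IsAddFundamentalDomain ((algebraMap K (Adl K)).toAddMonoidHom.range) D ν → ν D < ⊤ →
  ∀ τ : Measure (Adl K)ˣ, τ.IsHaarMeasure →
  ∀ FX : Set (Adl K)ˣ, MeasurableSet FX → IsFundamentalDomain (ratU57 K).range FX τ →
    ∃ V : ℝ, 0 < V ∧
      (∀ Y : ℝ, 0 < Y →
        ∫⁻ y in FX ∩ halfX57 K Y, ENNReal.ofReal ((nrm57 K y)⁻¹) ∂τ < ⊤) ∧
      (∀ Y : ℝ, 0 < Y →
        ∫⁻ p in box57 K D FX Y, ENNReal.ofReal ((nrm57 K p.2.1)⁻¹) ∂(ν.prod (τ.prod τ)) < ⊤) ∧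
      ∀ Φ : G K → ℂ, Continuous Φ → (∃ C : ℝ, ∀ g : G K, ‖Φ g‖ ≤ C) → IsZInv57 K Φ →
        ∀ Y : ℝ, 0 < Y →
          ∫ p in box57 K D FX Y,
              Φ (iota57 K p) * (((nrm57 K p.2.1)⁻¹ : ℝ) : ℂ) ∂(ν.prod (τ.prod τ))
            = (V : ℂ) * ∫ y in FX ∩ halfX57 K Y,
                (∫ x in D, Φ (Fermat.Agent.LT.T3.unip K x * dgA y) ∂ν)
                  * (((nrm57 K y)⁻¹ : ℝ) : ℂ) ∂τ

/-- **LEAF Z-INV.**  An `S`-form of level `𝔪` (`𝔪` supported in `S`) is invariant under the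
centre `𝔸ˣ`. -/
def ZInvC57 : Prop :=
  TotCplx K →
  ∀ (S : Finset (HeightOneSpectrum (𝓞 K))) (𝔪 : Ideal (𝓞 K)), IsSupp S 𝔪 →
  ∀ (π : HeckeEigensystem K ℂ) (φ : G K → ℂ), IsSForm π S φ → IsLevelInv 𝔪 φ →
    ∀ (z : (Adl K)ˣ) (g : G K), φ (g * zA57 K z) = φ g

end Fermat.Agent.LT.T7.H57

end
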