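import Mathlib
import Fermat.Agent.LT.T7.H57.FoldSpec2

/-!
# Row LT, tower T7, LEAF `FoldWhitC` -- CUT of the node `CoreC57`, level 3 (helper57)

OFF-MAIN.  Definitions, frozen Props.

```
CoreC57 K  ⇐  CorePosC57 K  +  CoreOfPosC57 K (= CorePosC57 K → CoreC57 K)
```

* `CorePosC57`  (NODE): the unfolding identity for NON-NEGATIVE measurable `Φ : G → ℝ≥0∞` with the
  extended counting function `encard (cntSet 𝔪 Y g)`; no integrability question.
* `CoreOfPosC57` (LEAF, measure-theoretic glue): `Φ ≡ 1` and the finiteness of the volume of the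
  box give `encard < ∞` a.e. on `F`, hence `cnt = encard` a.e.; a bounded continuous complex `Φ` is
  the combination of the four non-negative functions `(Re Φ)^±`, `(Im Φ)^±`.
-/

set_option autoImplicit false

open AutomorphicForm IsDedekindDomain NumberField Filter Topology MeasureTheory
open scoped ComplexConjugate ENNReal

noncomputable section

namespace Fermat.Agent.LT.T7.H57

open Fermat.Agent.LT.H556 Fermat.Agent.LT.H556.A0 Fermat.Agent.LT.T7 Fermat.Agent.LT.T7.Rigid

attribute [local instance] Fermat.Agent.LT.T5.instMeasurableSpaceG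

variable (K : Type) [Field K] [NumberField K]

/-- Left invariance under `GL₂(K)`, for functions with values in `ℝ≥0∞`. -/
def IsLeftInvE57 (Φ : G K → ℝ≥0∞) : Prop :=
  ∀ (γ : GL (Fin 2) K) (g : G K),
    Φ (Matrix.GeneralLinearGroup.map (algebraMap K (Adl K)) γ * g) = Φ g

/-- Right invariance under `U(𝔪)` and the maximal compact subgroups at the infinite places, for
functions with values in `ℝ≥0∞`. -/
def IsRightCE57 (𝔪 : Ideal (𝓞 K)) (Φ : G K → ℝ≥0∞) : Prop :=
  (∀ u : G K, InLevelGroup 𝔪 u → ∀ g : G K, Φ (g * u) = Φ g) ∧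
    ∀ (w : InfinitePlace K) (k : G K), IsArchCompact w k → ∀ g : G K, Φ (g * k) = Φ g

/-- **NODE CORE-POS.**  The unfolding identity for non-negative functions. -/
def CorePosC57 : Prop :=
  letI : MeasurableSpace (Adl K) := borel (Adl K)
  letI : MeasurableSpace (Adl K)ˣ := borel (Adl K)ˣ
  TotCplx K →
  ∀ (μ : Measure (G K)) (F : Set (G K)), Fermat.Agent.LT.T5.IsFrame μ F →
  ∀ (ν : Measure (Adl K)) (D : Set (Adl K)), ν.IsAddHaarMeasure → MeasurableSet D →
    IsAddFundamentalDomain ((algebraMap K (Adl K)).toAddMonoidHom.range) D ν → ν D < ⊤ →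
  ∀ τ : Measure (Adl K)ˣ, τ.IsHaarMeasure →
  ∀ (S : Finset (HeightOneSpectrum (𝓞 K))) (𝔪 : Ideal (𝓞 K)), IsSupp S 𝔪 →
  ∀ FX : Set (Adl K)ˣ, MeasurableSet FX → IsFundamentalDomain (ratU57 K).range FX τ →
    ∃ c₀ : ℝ, 0 < c₀ ∧
      ∀ Φ : G K → ℝ≥0∞, Measurable Φ → IsLeftInvE57 K Φ → IsRightCE57 K 𝔪 Φ →
        ∀ Y : ℝ, 0 < Y →
          ∫⁻ g in F, Φ g * (((cntSet 𝔪 Y g).encard : ℕ∞) : ℝ≥0∞) ∂μ
            = ENNReal.ofReal c₀ * ∫⁻ p in box57 K D FX Y,
                Φ (iota57 K p) * ENNReal.ofReal ((nrm57 K p.2.1)⁻¹) ∂(ν.prod (τ.prod τ))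

/-- **LEAF CORE-OF-POS** (glue): from non-negative functions and `encard` to bounded continuous
complex functions and `cnt = Nat.card`. -/
def CoreOfPosC57 : Prop := CorePosC57 K → CoreC57 K

variable {K}

/-- **TOP of the cut of level 3.** -/
theorem coreC_of57 (hP : CorePosC57 K) (hG : CoreOfPosC57 K) : CoreC57 K := hG hP

end Fermat.Agent.LT.T7.H57

end
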