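import Mathlib
import Fermat.Agent.LT.T7.H57.FoldSpec3

/-!
# Row LT, tower T7, LEAF `FoldWhitC` -- CUT of the node `CorePosC57`, level 4 (helper57)

OFF-MAIN.  Definitions, frozen Props.  The PROVED top is in `FoldTop4.lean`.

```
CorePosC57 K  ⇐  WeightIdC57 K + WConstC57 K + InnerC57 K + WeightExC57 K + CntSumC57 K
```

THE WEIGHT TRICK.  `P = 𝔸 × 𝔸ˣ × 𝔸ˣ`, `ι(x, y, z) = n(x) diag(y, 1) z`, `ω(p) = |y|⁻¹`,
`λ = ν ⊗ τ ⊗ τ` (so `ω λ` is a LEFT Haar measure of `B(𝔸)` in coordinates),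
`Ω = B(𝔸) U(𝔪) K_∞ = {g : g₂₁ ∈ 𝔪 g₂₂ at every v ∣ 𝔪}` (open), `hgt(g) = |det g| / rowNorm(bottom row)²`
(`= |y|` for `g = ι(x, y, z) k`).  For measurable `Fn, β ≥ 0` (Tonelli, left invariance of `μ`):

    ∫_G Fn · w_β dμ = ∫_G (∫_P Fn(ι(p) g) ω(p) dλ(p)) β(g) dμ(g),   w_β(g) = ∫_P β(ι(p)⁻¹ g) ω dλ.

If `β` is right `U(𝔪) K_∞`-invariant, `w_β` is left `B(𝔸)`- and right `U(𝔪) K_∞`-invariant, hence
CONSTANT on `Ω`.  For `Fn = ∑_x Φ · 1_{E_Y} · 1_{γ_x F}` (`x ∈ ℙ¹(K)`, `γ_x ∈ GL₂(K)` with bottom row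
`x`) the inner integral at `g = ι(p₀) k ∈ Ω` is `hgt(g) · ∫_{box Y} Φ(ι p) ω dλ` (right translation
of the left Haar measure + unfolding of `B(K)` in the coordinates).  No quotient measure, no
measurable section, no uniqueness of invariant measures on homogeneous spaces.
-/

set_option autoImplicit false

open AutomorphicForm IsDedekindDomain NumberField Filter Topology MeasureTheory
open scoped ComplexConjugate ENNReal

noncomputable section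

namespace Fermat.Agent.LT.T7.H57

open Fermat.Agent.LT.H556 Fermat.Agent.LT.H556.A0 Fermat.Agent.LT.T7 Fermat.Agent.LT.T7.Rigid

attribute [local instance] Fermat.Agent.LT.T5.instMeasurableSpaceG

variable (K : Type) [Field K] [NumberField K]

/-! ## Vocabulary -/

/-- The coordinate space of the Borel subgroup. -/
abbrev PB57 : Type := Adl K × (Adl K)ˣ × (Adl K)ˣ

/-- The weight `ω(p) = |y|⁻¹`. -/
def om57 (p : PB57 K) : ℝ≥0∞ := ENNReal.ofReal ((nrm57 K p.2.1)⁻¹)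

/-- The bottom row of `g`. -/
def botRow57 (g : G K) : Fin 2 → Adl K := fun j => (g : Matrix (Fin 2) (Fin 2) (Adl K)) 1 j

/-- The open set `Ω = B(𝔸) U(𝔪) K_∞`. -/
def Om57 (𝔪 : Ideal (𝓞 K)) : Set (G K) :=
  {g | ∀ v : HeightOneSpectrum (𝓞 K), v.asIdeal ∣ 𝔪 →
    ∃ t ∈ idealClosure 𝔪 v, (botRow57 K g 0).2 v = t * (botRow57 K g 1).2 v}

/-- The part of `Ω` of height `≥ Y`. -/
def EY57 (𝔪 : Ideal (𝓞 K)) (Y : ℝ) : Set (G K) :=
  {g | rowNorm (botRow57 K g) ^ 2 * Y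
        ≤ Fermat.Agent.LT.T5.adNorm (Matrix.det (g : Matrix (Fin 2) (Fin 2) (Adl K))) ∧
    g ∈ Om57 K 𝔪}

/-- The height. -/
def hgt57 (g : G K) : ℝ :=
  Fermat.Agent.LT.T5.adNorm (Matrix.det (g : Matrix (Fin 2) (Fin 2) (Adl K)))
    / rowNorm (botRow57 K g) ^ 2

open Classical in
/-- The matrix `γ_x` with bottom row `x.rep` and determinant `1`. -/
def gamMat57 (x : Projectivization K (Fin 2 → K)) : Matrix (Fin 2) (Fin 2) K :=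
  if x.rep 0 = 0 then !![(x.rep 1)⁻¹, 0; x.rep 0, x.rep 1]
  else !![0, -(x.rep 0)⁻¹; x.rep 0, x.rep 1]

theorem det_gamMat57 (x : Projectivization K (Fin 2 → K)) : (gamMat57 K x).det = 1 := by
  unfold gamMat57
  split_ifs with h
  · have h1 : x.rep 1 ≠ 0 := by
      intro h1
      apply x.rep_nonzero
      funext i
      fin_cases i
      · exact h
      · exact h1
    rw [Matrix.det_fin_two_of, h]
    field_simp
    ring
  · rw [Matrix.det_fin_two_of]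
    field_simp
    ring

/-- `γ_x ∈ GL₂(K)`. -/
def gam57 (x : Projectivization K (Fin 2 → K)) : GL (Fin 2) K :=
  Matrix.GeneralLinearGroup.mkOfDetNeZero (gamMat57 K x)
    (by rw [det_gamMat57]; exact one_ne_zero)

/-- `γ_x` in `GL₂(𝔸_K)`. -/
def gamA57 (x : Projectivization K (Fin 2 → K)) : G K :=
  Matrix.GeneralLinearGroup.map (algebraMap K (Adl K)) (gam57 K x)

/-- The summand of the unfolded function. -/
def fnX57 (𝔪 : Ideal (𝓞 K)) (F : Set (G K)) (Φ : G K → ℝ≥0∞) (Y : ℝ)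
    (x : Projectivization K (Fin 2 → K)) (g : G K) : ℝ≥0∞ :=
  Φ g * (EY57 K 𝔪 Y).indicator 1 g * ({h : G K | (gamA57 K x)⁻¹ * h ∈ F}).indicator 1 g

/-- The unfolded function `∑_x Φ · 1_{E_Y} · 1_{γ_x F}`. -/
def fnE57 (𝔪 : Ideal (𝓞 K)) (F : Set (G K)) (Φ : G K → ℝ≥0∞) (Y : ℝ) (g : G K) : ℝ≥0∞ :=
  ∑' x : Projectivization K (Fin 2 → K), fnX57 K 𝔪 F Φ Y x g

/-- `w_β(g) = ∫_P β(ι(p)⁻¹ g) ω(p) dλ(p)`. -/
def wB57 {mA : MeasurableSpace (Adl K)} {mX : MeasurableSpace (Adl K)ˣ}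
    (ν : Measure (Adl K)) (τ : Measure (Adl K)ˣ) (β : G K → ℝ≥0∞) (g : G K) : ℝ≥0∞ :=
  ∫⁻ p : PB57 K, β ((iota57 K p)⁻¹ * g) * om57 K p ∂(ν.prod (τ.prod τ))

/-! ## The Props -/

/-- **LEAF WEIGHT-ID** (Tonelli + left invariance of `μ`). -/
def WeightIdC57 : Prop :=
  letI : MeasurableSpace (Adl K) := borel (Adl K)
  letI : MeasurableSpace (Adl K)ˣ := borel (Adl K)ˣ
  ∀ μ : Measure (G K), μ.IsHaarMeasure →
  ∀ ν : Measure (Adl K), ν.IsAddHaarMeasure →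
  ∀ τ : Measure (Adl K)ˣ, τ.IsHaarMeasure →
  ∀ Fn β : G K → ℝ≥0∞, Measurable Fn → Measurable β →
    ∫⁻ g, Fn g * wB57 K ν τ β g ∂μ
      = ∫⁻ g, (∫⁻ p : PB57 K, Fn (iota57 K p * g) * om57 K p ∂(ν.prod (τ.prod τ))) * β g ∂μ

/-- **LEAF W-CONST**: `w_β` is constant on `Ω`. -/
def WConstC57 : Prop :=
  letI : MeasurableSpace (Adl K) := borel (Adl K)
  letI : MeasurableSpace (Adl K)ˣ := borel (Adl K)ˣ
  TotCplx K →
  ∀ ν : Measure (Adl K), ν.IsAddHaarMeasure →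
  ∀ τ : Measure (Adl K)ˣ, τ.IsHaarMeasure →
  ∀ (S : Finset (HeightOneSpectrum (𝓞 K))) (𝔪 : Ideal (𝓞 K)), IsSupp S 𝔪 →
  ∀ β : G K → ℝ≥0∞, Measurable β → IsRightCE57 K 𝔪 β →
    ∀ g ∈ Om57 K 𝔪, wB57 K ν τ β g = wB57 K ν τ β 1

/-- **LEAF INNER**: the inner integral of the unfolded function at a point of `Ω`. -/
def InnerC57 : Prop :=
  letI : MeasurableSpace (Adl K) := borel (Adl K)
  letI : MeasurableSpace (Adl K)ˣ := borel (Adl K)ˣ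
  TotCplx K →
  ∀ (μ : Measure (G K)) (F : Set (G K)), Fermat.Agent.LT.T5.IsFrame μ F →
  ∀ (ν : Measure (Adl K)) (D : Set (Adl K)), ν.IsAddHaarMeasure → MeasurableSet D →
    IsAddFundamentalDomain ((algebraMap K (Adl K)).toAddMonoidHom.range) D ν → ν D < ⊤ →
  ∀ τ : Measure (Adl K)ˣ, τ.IsHaarMeasure →
  ∀ (S : Finset (HeightOneSpectrum (𝓞 K))) (𝔪 : Ideal (𝓞 K)), IsSupp S 𝔪 →
  ∀ FX : Set (Adl K)ˣ, MeasurableSet FX → IsFundamentalDomain (ratU57 K).range FX τ →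
  ∀ Φ : G K → ℝ≥0∞, Measurable Φ → IsLeftInvE57 K Φ → IsRightCE57 K 𝔪 Φ →
    ∀ Y : ℝ, 0 < Y → ∀ g ∈ Om57 K 𝔪,
      ∫⁻ p : PB57 K, fnE57 K 𝔪 F Φ Y (iota57 K p * g) * om57 K p ∂(ν.prod (τ.prod τ))
        = ENNReal.ofReal (hgt57 K g) * ∫⁻ p in box57 K D FX Y,
            Φ (iota57 K p) * om57 K p ∂(ν.prod (τ.prod τ))

/-- **LEAF WEIGHT-EX**: a good weight `β` exists. -/
def WeightExC57 : Prop :=
  letI : MeasurableSpace (Adl K) := borel (Adl K)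
  letI : MeasurableSpace (Adl K)ˣ := borel (Adl K)ˣ
  TotCplx K →
  ∀ μ : Measure (G K), μ.IsHaarMeasure →
  ∀ ν : Measure (Adl K), ν.IsAddHaarMeasure →
  ∀ τ : Measure (Adl K)ˣ, τ.IsHaarMeasure →
  ∀ (S : Finset (HeightOneSpectrum (𝓞 K))) (𝔪 : Ideal (𝓞 K)), IsSupp S 𝔪 →
    ∃ β : G K → ℝ≥0∞, Measurable β ∧ IsRightCE57 K 𝔪 β ∧ (∀ g, g ∉ Om57 K 𝔪 → β g = 0) ∧
      0 < wB57 K ν τ β 1 ∧ wB57 K ν τ β 1 < ⊤ ∧
      Measurable (fun g : G K => ENNReal.ofReal (hgt57 K g) * β g) ∧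
      0 < ∫⁻ g, ENNReal.ofReal (hgt57 K g) * β g ∂μ ∧
      ∫⁻ g, ENNReal.ofReal (hgt57 K g) * β g ∂μ < ⊤

/-- **LEAF CNT-SUM**: the unfolded function is measurable and its integral is the integral of
`Φ · encard (cntSet)` over the frame. -/
def CntSumC57 : Prop :=
  TotCplx K →
  ∀ (μ : Measure (G K)) (F : Set (G K)), Fermat.Agent.LT.T5.IsFrame μ F →
  ∀ (S : Finset (HeightOneSpectrum (𝓞 K))) (𝔪 : Ideal (𝓞 K)), IsSupp S 𝔪 →
  ∀ Φ : G K → ℝ≥0∞, Measurable Φ → IsLeftInvE57 K Φ →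
    ∀ Y : ℝ, 0 < Y →
      Measurable (fnE57 K 𝔪 F Φ Y) ∧
      ∫⁻ g, fnE57 K 𝔪 F Φ Y g ∂μ
        = ∫⁻ g in F, Φ g * (((cntSet 𝔪 Y g).encard : ℕ∞) : ℝ≥0∞) ∂μ

end Fermat.Agent.LT.T7.H57

end
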