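import Mathlib
import Fermat.Agent.LT.T7.H57.FoldSpec4

/-!
# Row LT, tower T7, LEAF `FoldWhitC` -- CUT of the nodes `InnerC57`, `WConstC57`, level 5 (helper57)

OFF-MAIN.  Definitions, frozen Props.  The PROVED tops are in `FoldTop5.lean`.

```
WConstC57 K ⇐ OmDecompC57 K + PLTransC57 K + MeasIotaC57 K
InnerC57 K  ⇐ T1.AdNormC K + OmDecompC57 K + RowInvC57 K + BorelUnfC57 K + BruhatSumC57 K
                + PRTransC57 K + MeasIotaC57 K + IotaCoordC57 K + CntSumC57 K (measurability)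
```

Coordinates: `P = 𝔸 × 𝔸ˣ × 𝔸ˣ`, `ι(x, y, z) = n(x) diag(y, 1) z = [[y z, x z], [0, z]]`,
`ι(p ⋆ p₀) = ι(p) ι(p₀)` for `(x, y, z) ⋆ (x₀, y₀, z₀) = (x + y x₀, y y₀, z z₀)`;
`B(K)` in coordinates: `q = (ξ, η, ζ) ∈ K × Kˣ × Kˣ`, `b_q = [[η ζ, ξ ζ], [0, ζ]]`,
`b_q ι(x, y, z) = ι(ξ + η x, η y, ζ z)`.

* `OmDecompC57` : `Ω = B(𝔸) · U(𝔪) K_∞` (Iwasawa + congruence at `v ∣ 𝔪`), in the form: for
  `g ∈ Ω` there is `p₀` such that `k = ι(p₀)⁻¹ g` fixes (on the right) every function which is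
  right invariant under the generators of `U(𝔪) K_∞`.
* `RowInvC57`   : `rowNorm (bottom row)`, `|det|` and `Ω` are right invariant under the
  generators.
* `BorelUnfC57` : unfolding of `B(K)` in the coordinates:
  `∫_P f ω dλ = ∫_{D × FX × FX} ∑_q f(q · p) ω dλ`.
* `BruhatSumC57`: `∑_q fnE(b_q h) = Φ(h) 1_{E_Y ∩ slab}(h)` (`GL₂(K) = ⊔_x B(K) γ_x`, the frame
  is strict).
* `PRTransC57`  : `∫_P f(p ⋆ p₀) ω dλ = |y₀| ∫_P f ω dλ`.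
* `PLTransC57`  : `∫_P f(p₀ ⋆ p) ω dλ = ∫_P f ω dλ`.
* `MeasIotaC57` : `p ↦ ι(p) k` and `p ↦ ι(p)⁻¹` are measurable.
* `IotaCoordC57`: `hgt(ι p) = |y|`, `ι p ∈ E_Y ∩ slab ↔ Y ≤ |y| ∧ 1 ≤ |y| |z|² < 2`.
-/

set_option autoImplicit false

open AutomorphicForm IsDedekindDomain NumberField Filter Topology MeasureTheory
open scoped ComplexConjugate ENNReal

noncomputable section

namespace Fermat.Agent.LT.T7.H57

open Fermat.Agent.LT.H556 Fermat.Agent.LT.H556.A0 Fermat.Agent.LT.T7 Fermat.Agent.LT.T7.Rigid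

attribute [local instance] Fermat.Agent.LT.T5.instMeasurableSpaceG

variable (K : Type) [Field K] [NumberField K]

/-! ## Vocabulary -/

/-- The coordinates of `B(K)`. -/
abbrev PK57 : Type := K × Kˣ × Kˣ

/-- The product of `B(𝔸)` in the coordinates. -/
def mulP57 (p p₀ : PB57 K) : PB57 K :=
  (p.1 + (p.2.1 : Adl K) * p₀.1, p.2.1 * p₀.2.1, p.2.2 * p₀.2.2)

/-- The inverse of `B(𝔸)` in the coordinates. -/
def invP57 (p : PB57 K) : PB57 K :=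
  (-(((p.2.1)⁻¹ : (Adl K)ˣ) : Adl K) * p.1, (p.2.1)⁻¹, (p.2.2)⁻¹)

/-- The action of `B(K)` in the coordinates: `(ξ, η, ζ) · (x, y, z) = (ξ + η x, η y, ζ z)`. -/
def actB57 (q : PK57 K) (p : PB57 K) : PB57 K :=
  (algebraMap K (Adl K) q.1 + algebraMap K (Adl K) (q.2.1 : K) * p.1,
    ratU57 K q.2.1 * p.2.1, ratU57 K q.2.2 * p.2.2)

/-- The matrix `b_q = [[η ζ, ξ ζ], [0, ζ]]`. -/
def ratBMat57 (q : PK57 K) : Matrix (Fin 2) (Fin 2) K :=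
  !![(q.2.1 : K) * (q.2.2 : K), q.1 * (q.2.2 : K); 0, (q.2.2 : K)]

theorem det_ratBMat57 (q : PK57 K) : (ratBMat57 K q).det ≠ 0 := by
  unfold ratBMat57
  rw [Matrix.det_fin_two_of]
  simp

/-- `b_q ∈ GL₂(K)`. -/
def ratB57 (q : PK57 K) : GL (Fin 2) K :=
  Matrix.GeneralLinearGroup.mkOfDetNeZero (ratBMat57 K q) (det_ratBMat57 K q)

/-! ## The Props -/

/-- **LEAF OM-DECOMP**: `Ω = B(𝔸) U(𝔪) K_∞`. -/
def OmDecompC57 : Prop :=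
  TotCplx K →
  ∀ (S : Finset (HeightOneSpectrum (𝓞 K))) (𝔪 : Ideal (𝓞 K)), IsSupp S 𝔪 →
  ∀ g ∈ Om57 K 𝔪, ∃ p₀ : PB57 K,
    ∀ Ψ : G K → ℝ≥0∞, IsRightCE57 K 𝔪 Ψ →
      ∀ h : G K, Ψ (h * ((iota57 K p₀)⁻¹ * g)) = Ψ h

/-- **LEAF ROW-INV**: right invariance of `rowNorm (bottom row)`, `|det|`, `Ω` under the
generators of `U(𝔪) K_∞`. -/
def RowInvC57 : Prop :=
  TotCplx K →
  ∀ (S : Finset (HeightOneSpectrum (𝓞 K))) (𝔪 : Ideal (𝓞 K)), IsSupp S 𝔪 →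
    (∀ u : G K, InLevelGroup 𝔪 u → ∀ g : G K,
      rowNorm (botRow57 K (g * u)) = rowNorm (botRow57 K g) ∧
      Fermat.Agent.LT.T5.adNorm (Matrix.det ((g * u : G K) : Matrix (Fin 2) (Fin 2) (Adl K)))
        = Fermat.Agent.LT.T5.adNorm (Matrix.det (g : Matrix (Fin 2) (Fin 2) (Adl K))) ∧
      (g * u ∈ Om57 K 𝔪 ↔ g ∈ Om57 K 𝔪)) ∧
    (∀ (w : InfinitePlace K) (k : G K), IsArchCompact w k → ∀ g : G K,
      rowNorm (botRow57 K (g * k)) = rowNorm (botRow57 K g) ∧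
      Fermat.Agent.LT.T5.adNorm (Matrix.det ((g * k : G K) : Matrix (Fin 2) (Fin 2) (Adl K)))
        = Fermat.Agent.LT.T5.adNorm (Matrix.det (g : Matrix (Fin 2) (Fin 2) (Adl K))) ∧
      (g * k ∈ Om57 K 𝔪 ↔ g ∈ Om57 K 𝔪))

/-- **LEAF BOREL-UNF**: unfolding of `B(K)` in the coordinates. -/
def BorelUnfC57 : Prop :=
  letI : MeasurableSpace (Adl K) := borel (Adl K)
  letI : MeasurableSpace (Adl K)ˣ := borel (Adl K)ˣ
  ∀ (ν : Measure (Adl K)) (D : Set (Adl K)), ν.IsAddHaarMeasure → MeasurableSet D →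
    IsAddFundamentalDomain ((algebraMap K (Adl K)).toAddMonoidHom.range) D ν →
  ∀ τ : Measure (Adl K)ˣ, τ.IsHaarMeasure →
  ∀ FX : Set (Adl K)ˣ, MeasurableSet FX → IsFundamentalDomain (ratU57 K).range FX τ →
  ∀ f : PB57 K → ℝ≥0∞, Measurable f →
    ∫⁻ p, f p * om57 K p ∂(ν.prod (τ.prod τ))
      = ∫⁻ p in D ×ˢ (FX ×ˢ FX), (∑' q : PK57 K, f (actB57 K q p)) * om57 K p
          ∂(ν.prod (τ.prod τ))

/-- **LEAF BRUHAT-SUM**: the sum of the unfolded function over `B(K)`. -/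
def BruhatSumC57 : Prop :=
  ∀ (μ : Measure (G K)) (F : Set (G K)), Fermat.Agent.LT.T5.IsFrame μ F →
  ∀ (𝔪 : Ideal (𝓞 K)) (Φ : G K → ℝ≥0∞), IsLeftInvE57 K Φ →
    ∀ (Y : ℝ) (h : G K),
      ∑' q : PK57 K, fnE57 K 𝔪 F Φ Y
          (Matrix.GeneralLinearGroup.map (algebraMap K (Adl K)) (ratB57 K q) * h)
        = Φ h * ({g : G K | g ∈ EY57 K 𝔪 Y ∧ g ∈ Fermat.Agent.LT.T5.slab K}).indicator 1 h

/-- **LEAF P-RTRANS**: right translation of the left Haar measure of `B(𝔸)`. -/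
def PRTransC57 : Prop :=
  letI : MeasurableSpace (Adl K) := borel (Adl K)
  letI : MeasurableSpace (Adl K)ˣ := borel (Adl K)ˣ
  ∀ ν : Measure (Adl K), ν.IsAddHaarMeasure →
  ∀ τ : Measure (Adl K)ˣ, τ.IsHaarMeasure →
  ∀ f : PB57 K → ℝ≥0∞, Measurable f → ∀ p₀ : PB57 K,
    ∫⁻ p, f (mulP57 K p p₀) * om57 K p ∂(ν.prod (τ.prod τ))
      = ENNReal.ofReal (nrm57 K p₀.2.1) * ∫⁻ p, f p * om57 K p ∂(ν.prod (τ.prod τ))

/-- **LEAF P-LTRANS**: left invariance of the left Haar measure of `B(𝔸)`. -/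
def PLTransC57 : Prop :=
  letI : MeasurableSpace (Adl K) := borel (Adl K)
  letI : MeasurableSpace (Adl K)ˣ := borel (Adl K)ˣ
  ∀ ν : Measure (Adl K), ν.IsAddHaarMeasure →
  ∀ τ : Measure (Adl K)ˣ, τ.IsHaarMeasure →
  ∀ f : PB57 K → ℝ≥0∞, Measurable f → ∀ p₀ : PB57 K,
    ∫⁻ p, f (mulP57 K p₀ p) * om57 K p ∂(ν.prod (τ.prod τ))
      = ∫⁻ p, f p * om57 K p ∂(ν.prod (τ.prod τ))

/-- **LEAF MEAS-IOTA**: measurability of the coordinates. -/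
def MeasIotaC57 : Prop :=
  letI : MeasurableSpace (Adl K) := borel (Adl K)
  letI : MeasurableSpace (Adl K)ˣ := borel (Adl K)ˣ
  (∀ k : G K, Measurable fun p : PB57 K => iota57 K p * k) ∧
    Measurable fun p : PB57 K => (iota57 K p)⁻¹

/-- **LEAF IOTA-COORD**: the height and the sets `E_Y`, `slab` in the coordinates. -/
def IotaCoordC57 : Prop :=
  ∀ p : PB57 K, hgt57 K (iota57 K p) = nrm57 K p.2.1 ∧
    ∀ (𝔪 : Ideal (𝓞 K)) (Y : ℝ),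
      (iota57 K p ∈ EY57 K 𝔪 Y ∧ iota57 K p ∈ Fermat.Agent.LT.T5.slab K) ↔
        (Y ≤ nrm57 K p.2.1 ∧ 1 ≤ nrm57 K p.2.1 * nrm57 K p.2.2 ^ 2 ∧
          nrm57 K p.2.1 * nrm57 K p.2.2 ^ 2 < 2)

end Fermat.Agent.LT.T7.H57

end
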