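import Mathlib
import Fermat.Agent.LT.T7.H57.FoldSpec5
import Fermat.Agent.LT.T7.H555.FoldIwa

/-!
# Row LT, tower T7, LEAF `FoldWhitC`, leaf `BruhatSumC57` (helper57, spare of row 2213)

OFF-MAIN.  On helper555 `Fold.lean`, `FoldIwa.lean` (byte-identical copies).

`bruhatSumC57 K : BruhatSumC57 K`, UNCONDITIONAL.
-/

set_option autoImplicit false
set_option linter.style.haveILetI false

open AutomorphicForm IsDedekindDomain NumberField Filter Topology MeasureTheory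
open scoped ComplexConjugate ENNReal

noncomputable section

namespace Fermat.Agent.LT.T7.H57

open Fermat.Agent.LT.H556 Fermat.Agent.LT.H556.A0 Fermat.Agent.LT.T7 Fermat.Agent.LT.T7.Rigid
open Fermat.Agent.LT.T7.H555 Fermat.Agent.LT

attribute [local instance] Fermat.Agent.LT.T5.instMeasurableSpaceG

variable {K : Type} [Field K] [NumberField K]

/-! ## The representatives `γ_x` -/

theorem gam57_row57 (x : Projectivization K (Fin 2 → K)) (j : Fin 2) :
    (gam57 K x : Matrix (Fin 2) (Fin 2) K) 1 j = x.rep j := by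
  show gamMat57 K x 1 j = x.rep j
  unfold gamMat57
  split_ifs with h
  · fin_cases j <;> simp
  · fin_cases j <;> simp

theorem EY57_eq57 (𝔪 : Ideal (𝓞 K)) (Y : ℝ) : EY57 K 𝔪 Y = foldSet555 𝔪 Y := rfl

theorem gamA57_eq57 (x : Projectivization K (Fin 2 → K)) :
    gamA57 K x = T5.ratG (gam57 K x) := rfl

/-! ## The matrices `b_q` -/

theorem ratB57_val (q : PK57 K) :
    ((ratB57 K q : GL (Fin 2) K) : Matrix (Fin 2) (Fin 2) K)
      = !![(q.2.1 : K) * (q.2.2 : K), q.1 * (q.2.2 : K); 0, (q.2.2 : K)] := rfl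

theorem ratB57_lower (q : PK57 K) :
    ((ratB57 K q : GL (Fin 2) K) : Matrix (Fin 2) (Fin 2) K) 1 0 = 0 := by
  rw [ratB57_val]; simp

theorem ratB57_injective : Function.Injective (ratB57 K) := by
  intro q q' h
  have hm : ((ratB57 K q : GL (Fin 2) K) : Matrix (Fin 2) (Fin 2) K)
      = ((ratB57 K q' : GL (Fin 2) K) : Matrix (Fin 2) (Fin 2) K) := by rw [h]
  rw [ratB57_val, ratB57_val] at hm
  have h11 : (q.2.2 : K) = (q'.2.2 : K) := by
    have := congrFun (congrFun hm 1) 1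
    simpa using this
  have h00 : (q.2.1 : K) * (q.2.2 : K) = (q'.2.1 : K) * (q'.2.2 : K) := by
    have := congrFun (congrFun hm 0) 0
    simpa using this
  have h01 : q.1 * (q.2.2 : K) = q'.1 * (q'.2.2 : K) := by
    have := congrFun (congrFun hm 0) 1
    simpa using this
  have hz : (q'.2.2 : K) ≠ 0 := q'.2.2.ne_zero
  rw [h11] at h00 h01
  have e1 : (q.2.1 : K) = (q'.2.1 : K) := mul_right_cancel₀ hz h00
  have e2 : q.1 = q'.1 := mul_right_cancel₀ hz h01
  exact Prod.ext e2 (Prod.ext (Units.ext e1) (Units.ext h11))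

/-- Every upper triangular matrix of `GL₂(K)` is a `b_q`. -/
theorem exists_ratB57 (β : GL (Fin 2) K) (hβ : (β : Matrix (Fin 2) (Fin 2) K) 1 0 = 0) :
    ∃ q : PK57 K, ratB57 K q = β := by
  have hdet : (β : Matrix (Fin 2) (Fin 2) K) 0 0 * (β : Matrix (Fin 2) (Fin 2) K) 1 1 ≠ 0 := by
    have h := (Matrix.GeneralLinearGroup.det β).ne_zero
    have e : ((Matrix.GeneralLinearGroup.det β : Kˣ) : K)
        = Matrix.det (β : Matrix (Fin 2) (Fin 2) K) := rfl
    rw [e, Matrix.det_fin_two, hβ, mul_zero, sub_zero] at h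
    exact h
  have h0 : (β : Matrix (Fin 2) (Fin 2) K) 0 0 ≠ 0 := left_ne_zero_of_mul hdet
  have h1 : (β : Matrix (Fin 2) (Fin 2) K) 1 1 ≠ 0 := right_ne_zero_of_mul hdet
  refine ⟨((β : Matrix (Fin 2) (Fin 2) K) 0 1 / (β : Matrix (Fin 2) (Fin 2) K) 1 1,
    Units.mk0 ((β : Matrix (Fin 2) (Fin 2) K) 0 0 / (β : Matrix (Fin 2) (Fin 2) K) 1 1)
      (div_ne_zero h0 h1),
    Units.mk0 ((β : Matrix (Fin 2) (Fin 2) K) 1 1) h1), ?_⟩
  apply Units.ext
  rw [ratB57_val]
  ext i j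
  fin_cases i <;> fin_cases j
  · simp only [Units.val_mk0, Fin.zero_eta, Fin.isValue, Matrix.of_apply, Matrix.cons_val',
      Matrix.cons_val_zero, Matrix.cons_val_fin_one]
    field_simp
  · simp only [Units.val_mk0, Fin.zero_eta, Fin.mk_one, Fin.isValue, Matrix.of_apply,
      Matrix.cons_val', Matrix.cons_val_one, Matrix.cons_val_fin_one, Matrix.cons_val_zero]
    field_simp
  · simp [hβ]
  · simp

/-! ## `GL₂(K) = ⊔ₓ B(K) γ_x` -/

/-- If `γ_y γ` is upper triangular then `y` is the class of the bottom row of `γ⁻¹`. -/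
theorem bruhat_key57 (γ : GL (Fin 2) K) (y : Projectivization K (Fin 2 → K))
    (hy : ((gam57 K y * γ : GL (Fin 2) K) : Matrix (Fin 2) (Fin 2) K) 1 0 = 0) :
    y = Projectivization.mk K
      (fun j => ((γ⁻¹ : GL (Fin 2) K) : Matrix (Fin 2) (Fin 2) K) 1 j)
      (botRow_inv_ne_zero555 γ) := by
  set u : Fin 2 → K := fun j => ((γ⁻¹ : GL (Fin 2) K) : Matrix (Fin 2) (Fin 2) K) 1 j with hu
  set β' : GL (Fin 2) K := gam57 K y * γ with hβ'
  have hgy : gam57 K y = β' * γ⁻¹ := by rw [hβ', mul_inv_cancel_right]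
  have hrep : y.rep = (β' : Matrix (Fin 2) (Fin 2) K) 1 1 • u := by
    funext j
    rw [← gam57_row57 y j, hgy, Units.val_mul, Matrix.mul_apply, Fin.sum_univ_two, hy,
      zero_mul, zero_add]
    rfl
  have hb : (β' : Matrix (Fin 2) (Fin 2) K) 1 1 ≠ 0 := by
    intro hb
    apply y.rep_nonzero
    rw [hrep, hb, zero_smul]
  rw [← y.mk_rep, Projectivization.mk_eq_mk_iff]
  exact ⟨Units.mk0 _ hb, by rw [hrep]; rfl⟩

/-- `γ_x γ` is upper triangular for `x` the class of the bottom row of `γ⁻¹`. -/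
theorem bruhat_ex57 (γ : GL (Fin 2) K) :
    ((gam57 K (Projectivization.mk K
      (fun j => ((γ⁻¹ : GL (Fin 2) K) : Matrix (Fin 2) (Fin 2) K) 1 j)
      (botRow_inv_ne_zero555 γ)) * γ : GL (Fin 2) K) : Matrix (Fin 2) (Fin 2) K) 1 0 = 0 := by
  set u : Fin 2 → K := fun j => ((γ⁻¹ : GL (Fin 2) K) : Matrix (Fin 2) (Fin 2) K) 1 j with hu
  set x : Projectivization K (Fin 2 → K) :=
    Projectivization.mk K u (botRow_inv_ne_zero555 γ) with hx
  have hmk : Projectivization.mk K x.rep x.rep_nonzero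
      = Projectivization.mk K u (botRow_inv_ne_zero555 γ) := x.mk_rep
  obtain ⟨a, ha⟩ := (Projectivization.mk_eq_mk_iff K _ _ _ _).mp hmk
  have hone : ((γ⁻¹ * γ : GL (Fin 2) K) : Matrix (Fin 2) (Fin 2) K) 1 0 = 0 := by
    rw [inv_mul_cancel]
    simp
  rw [Units.val_mul, Matrix.mul_apply, Fin.sum_univ_two] at hone
  rw [Units.val_mul, Matrix.mul_apply, Fin.sum_univ_two, gam57_row57, gam57_row57, ← ha]
  simp only [Pi.smul_apply, Units.smul_def, smul_eq_mul, hu]
  rw [mul_assoc, mul_assoc, ← mul_add, hone, mul_zero]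

/-- **Bruhat**: `(q, x) ↦ γ_x⁻¹ b_q` is a bijection onto `GL₂(K)`. -/
theorem existsUnique_bruhat57 (γ : GL (Fin 2) K) :
    ∃! p : PK57 K × Projectivization K (Fin 2 → K), (gam57 K p.2)⁻¹ * ratB57 K p.1 = γ := by
  set x : Projectivization K (Fin 2 → K) := Projectivization.mk K
      (fun j => ((γ⁻¹ : GL (Fin 2) K) : Matrix (Fin 2) (Fin 2) K) 1 j)
      (botRow_inv_ne_zero555 γ) with hx
  obtain ⟨q, hq⟩ := exists_ratB57 (gam57 K x * γ) (bruhat_ex57 γ)
  refine ⟨(q, x), ?_, ?_⟩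
  · show (gam57 K x)⁻¹ * ratB57 K q = γ
    rw [hq, inv_mul_cancel_left]
  · rintro ⟨q', y⟩ h
    have h' : (gam57 K y)⁻¹ * ratB57 K q' = γ := h
    have hb : ratB57 K q' = gam57 K y * γ := by rw [← h', mul_inv_cancel_left]
    have hyx : y = x := bruhat_key57 γ y (by rw [← hb]; exact ratB57_lower q')
    subst hyx
    have : ratB57 K q' = ratB57 K q := by rw [hb, hq]
    rw [ratB57_injective this]

/-! ## The sum -/

/-- The slab is invariant under `GL₂(K)`. -/
theorem ratG_mul_mem_slab57 (γ : GL (Fin 2) K) (h : G K) :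
    T5.ratG γ * h ∈ T5.slab K ↔ h ∈ T5.slab K := by
  have := detN_ratG_mul555 γ h
  unfold Fermat.Agent.LT.T7.H250.detN250n at this
  unfold T5.slab
  simp only [Set.mem_ofPred_eq]
  rw [this]

theorem ratG_eq57 (γ : GL (Fin 2) K) :
    T5.ratG γ = Matrix.GeneralLinearGroup.map (algebraMap K (Adl K)) γ := rfl

theorem bruhat_mul57 (b : GL (Fin 2) K) (x : Projectivization K (Fin 2 → K)) (h : G K) :
    (gamA57 K x)⁻¹ * (Matrix.GeneralLinearGroup.map (algebraMap K (Adl K)) b * h)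
      = T5.ratG ((gam57 K x)⁻¹ * b) * h := by
  rw [gamA57_eq57, ← ratG_eq57, map_mul, map_inv, mul_assoc]

theorem bruhat_mem57 (F : Set (G K)) (b : GL (Fin 2) K) (x : Projectivization K (Fin 2 → K))
    (h : G K) :
    (Matrix.GeneralLinearGroup.map (algebraMap K (Adl K)) b * h
        ∈ {g : G K | (gamA57 K x)⁻¹ * g ∈ F})
      ↔ T5.ratG ((gam57 K x)⁻¹ * b) * h ∈ F := by
  rw [← bruhat_mul57]
  exact Set.mem_ofPred_eq.to_iff

/-- The number of `(q, x)` with `γ_x⁻¹ b_q h ∈ F`. -/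
theorem tsum_bruhat57 {μ : Measure (G K)} {F : Set (G K)} (hF : T5.IsFrame μ F) (h : G K) :
    ∑' p : PK57 K × Projectivization K (Fin 2 → K),
        ({g : G K | (gamA57 K p.2)⁻¹ * g ∈ F}).indicator (1 : G K → ℝ≥0∞)
          (Matrix.GeneralLinearGroup.map (algebraMap K (Adl K)) (ratB57 K p.1) * h)
      = (T5.slab K).indicator 1 h := by
  by_cases hs : h ∈ T5.slab K
  · obtain ⟨γ, hγ, huniq⟩ := hF.strict h hs
    obtain ⟨p₀, hp₀, hp₀u⟩ := existsUnique_bruhat57 γ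
    have hp₀' : (gam57 K p₀.2)⁻¹ * ratB57 K p₀.1 = γ := hp₀
    rw [Set.indicator_of_mem hs, tsum_eq_single p₀]
    · rw [Set.indicator_of_mem ((bruhat_mem57 F _ _ h).2 (by rw [hp₀']; exact hγ))]
      rfl
    · intro p hp
      apply Set.indicator_of_notMem
      intro hmemF
      exact hp (hp₀u p (huniq _ ((bruhat_mem57 F _ _ h).1 hmemF)))
  · rw [Set.indicator_of_notMem hs]
    apply ENNReal.tsum_eq_zero.2
    intro p
    apply Set.indicator_of_notMem
    intro hmemF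
    exact hs ((ratG_mul_mem_slab57 _ h).1 (hF.sub ((bruhat_mem57 F _ _ h).1 hmemF)))

/-- **`BruhatSumC57`.** -/
theorem bruhatSumC57 (K : Type) [Field K] [NumberField K] : BruhatSumC57 K := by
  intro μ F hF 𝔪 Φ hΦL Y h
  have hE : ∀ q : PK57 K,
      (Matrix.GeneralLinearGroup.map (algebraMap K (Adl K)) (ratB57 K q) * h ∈ EY57 K 𝔪 Y)
        ↔ h ∈ EY57 K 𝔪 Y := fun q =>
    foldSet_ratUpper_mul555 𝔪 Y (ratB57 K q) (ratB57_lower q) h
  have hterm : ∀ q : PK57 K,
      fnE57 K 𝔪 F Φ Y (Matrix.GeneralLinearGroup.map (algebraMap K (Adl K)) (ratB57 K q) * h)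
        = Φ h * (EY57 K 𝔪 Y).indicator 1 h
          * ∑' x : Projectivization K (Fin 2 → K),
              ({g : G K | (gamA57 K x)⁻¹ * g ∈ F}).indicator (1 : G K → ℝ≥0∞)
                (Matrix.GeneralLinearGroup.map (algebraMap K (Adl K)) (ratB57 K q) * h) := by
    intro q
    unfold fnE57 fnX57
    rw [ENNReal.tsum_mul_left]
    congr 1
    have e1 : Φ (Matrix.GeneralLinearGroup.map (algebraMap K (Adl K)) (ratB57 K q) * h) = Φ h :=
      hΦL (ratB57 K q) h
    have e2 : (EY57 K 𝔪 Y).indicator (1 : G K → ℝ≥0∞)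
        (Matrix.GeneralLinearGroup.map (algebraMap K (Adl K)) (ratB57 K q) * h)
        = (EY57 K 𝔪 Y).indicator 1 h := by
      by_cases hh : h ∈ EY57 K 𝔪 Y
      · rw [Set.indicator_of_mem hh, Set.indicator_of_mem ((hE q).2 hh)]
        rfl
      · rw [Set.indicator_of_notMem hh, Set.indicator_of_notMem (fun h' => hh ((hE q).1 h'))]
    rw [e1, e2]
  simp_rw [hterm]
  rw [ENNReal.tsum_mul_left,
    ← ENNReal.tsum_prod (f := fun (q : PK57 K) (x : Projectivization K (Fin 2 → K)) =>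
      ({g : G K | (gamA57 K x)⁻¹ * g ∈ F}).indicator (1 : G K → ℝ≥0∞)
        (Matrix.GeneralLinearGroup.map (algebraMap K (Adl K)) (ratB57 K q) * h)),
    tsum_bruhat57 hF h, mul_assoc]
  congr 1
  by_cases h1 : h ∈ EY57 K 𝔪 Y <;> by_cases h2 : h ∈ T5.slab K
  · have h3 : h ∈ {g : G K | g ∈ EY57 K 𝔪 Y ∧ g ∈ T5.slab K} := ⟨h1, h2⟩
    rw [Set.indicator_of_mem h1, Set.indicator_of_mem h2, Set.indicator_of_mem h3]
    simp
  · have h3 : h ∉ {g : G K | g ∈ EY57 K 𝔪 Y ∧ g ∈ T5.slab K} := fun hh => h2 hh.2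
    rw [Set.indicator_of_notMem h2, Set.indicator_of_notMem h3, mul_zero]
  · have h3 : h ∉ {g : G K | g ∈ EY57 K 𝔪 Y ∧ g ∈ T5.slab K} := fun hh => h1 hh.1
    rw [Set.indicator_of_notMem h1, Set.indicator_of_notMem h3, zero_mul]
  · have h3 : h ∉ {g : G K | g ∈ EY57 K 𝔪 Y ∧ g ∈ T5.slab K} := fun hh => h1 hh.1
    rw [Set.indicator_of_notMem h1, Set.indicator_of_notMem h3, zero_mul]

end Fermat.Agent.LT.T7.H57

end
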