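import Mathlib
import Fermat.Agent.LT.T7.H57.FoldSpec

/-!
# Row LT, tower T7, LEAF `FoldWhitC` -- the PROVED top of the cut of level 1 (helper57)

`foldWhitC_of57 : T1.AdNormC K → FoldC57 K → ParsevalC57 K → ParsBddC57 K → WhitMeasC57 K →
  UnfoldXC57 K → Rigid.FoldWhitC K`, VERBATIM vs `RigidStrip.lean` 9f2a8c04.
-/

set_option autoImplicit false
set_option linter.style.haveILetI false

open AutomorphicForm IsDedekindDomain NumberField Filter Topology MeasureTheory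
open scoped ComplexConjugate ENNReal

noncomputable section

namespace Fermat.Agent.LT.T7.H57

open Fermat.Agent.LT.H556 Fermat.Agent.LT.H556.A0 Fermat.Agent.LT.T7 Fermat.Agent.LT.T7.Rigid

attribute [local instance] Fermat.Agent.LT.T5.instMeasurableSpaceG

variable {K : Type} [Field K] [NumberField K]

theorem dgA_ratU57 (α : Kˣ) (y : (Adl K)ˣ) :
    dgA (ratU57 K α * y) = Fermat.Agent.LT.T3.torK K α * dgA y := by
  apply Units.ext
  ext i j
  fin_cases i <;> fin_cases j <;>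
    simp [dgA, Fermat.Agent.LT.T3.torK, ratU57, Matrix.mul_apply, Fin.sum_univ_two]

theorem nrm57_ratU (hN : Fermat.Agent.LT.T1.AdNormC K) (α : Kˣ) (y : (Adl K)ˣ) :
    nrm57 K (ratU57 K α * y) = nrm57 K y := by
  have h1 := hN.2.1 (ratU57 K α) y
  have h2 := hN.2.2.1 α
  change Fermat.Agent.LT.T1.adNorm K ((ratU57 K α * y : (Adl K)ˣ) : Adl K)
    = Fermat.Agent.LT.T1.adNorm K (y : Adl K)
  rw [h1]
  change Fermat.Agent.LT.T1.adNorm K (Fermat.Agent.LT.T1.ratUnit K α : Adl K) * _ = _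
  rw [h2, one_mul]

theorem continuous_nrm57 (hN : Fermat.Agent.LT.T1.AdNormC K) :
    Continuous (nrm57 K) := hN.2.2.2

theorem nrm57_pos (hN : Fermat.Agent.LT.T1.AdNormC K) (y : (Adl K)ˣ) : 0 < nrm57 K y :=
  hN.1 y

theorem measurableSet_halfX57 (hN : Fermat.Agent.LT.T1.AdNormC K) (Y : ℝ) :
    @MeasurableSet _ (borel (Adl K)ˣ) (halfX57 K Y) := by
  letI : MeasurableSpace (Adl K)ˣ := borel (Adl K)ˣ
  haveI : BorelSpace (Adl K)ˣ := ⟨rfl⟩
  exact (isClosed_le continuous_const (continuous_nrm57 hN)).measurableSet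

/-- **TOP of the cut of level 1.** -/
theorem foldWhitC_of57 (hN : Fermat.Agent.LT.T1.AdNormC K) (hF : FoldC57 K)
    (hP : ParsevalC57 K) (hB : ParsBddC57 K) (hM : WhitMeasC57 K) (hU : UnfoldXC57 K) :
    FoldWhitC K := by
  letI : MeasurableSpace (Adl K) := borel (Adl K)
  letI : MeasurableSpace (Adl K)ˣ := borel (Adl K)ˣ
  haveI : BorelSpace (Adl K) := ⟨rfl⟩
  haveI : BorelSpace (Adl K)ˣ := ⟨rfl⟩
  intro hcplx μ F hfr ψ hψ hnd ν D hν hDm hD hDfin τ hτ S 𝔪 hS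
  obtain ⟨c, FX, hc, hFXm, hFX, hvol, hfold⟩ :=
    hF hcplx μ F hfr ν D hν hDm hD hDfin τ hτ S 𝔪 hS
  haveI := hν
  haveI : Countable K := Finsupp.Countable.of_moduleFinite (R := ℚ) (M := K)
  haveI : Countable ((algebraMap K (Adl K)).toAddMonoidHom.range) :=
    (Set.countable_range (algebraMap K (Adl K)).toAddMonoidHom).to_subtype
  have hνD0 : ν D ≠ 0 := hD.measure_ne_zero (NeZero.ne ν)
  have hνD : 0 < (ν D).toReal := ENNReal.toReal_pos hνD0 hDfin.ne
  refine ⟨c / (ν D).toReal, div_pos hc hνD, ?_⟩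
  intro π π' φ₁ φ₁' h1 h1' hl hl' Y hY
  rw [hfold π π' φ₁ φ₁' h1 h1' hl hl' Y hY]
  -- the data of the two forms
  have hpars := hP ψ hψ hnd ν D hν hDm hD hDfin φ₁ φ₁' h1.cont h1.bdd h1.left_inv h1.cuspidal
    h1'.cont h1'.bdd h1'.left_inv h1'.cuspidal
  obtain ⟨Cb, hCb⟩ := hB ψ hψ hnd ν D hν hDm hD hDfin φ₁ φ₁' h1.cont h1.bdd h1.left_inv
    h1.cuspidal h1'.cont h1'.bdd h1'.left_inv h1'.cuspidal
  have hW1 := hM ψ hψ ν D hν hDm hDfin φ₁ h1.cont h1.bdd
  have hW1' := hM ψ hψ ν D hν hDm hDfin φ₁' h1'.cont h1'.bdd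
  have hHm : MeasurableSet (halfX57 K Y) := measurableSet_halfX57 hN Y
  have hnm : Measurable (nrm57 K) := (continuous_nrm57 hN).measurable
  -- the function on the ideles
  set w : (Adl K)ˣ → ℂ := fun y =>
    ww57 K ψ ν D φ₁ φ₁' (dgA y) * (((nrm57 K y)⁻¹ : ℝ) : ℂ) with hw
  have hwm : Measurable w := by
    have hc1 : Measurable fun y : (Adl K)ˣ => conj (whit ψ ν D φ₁' (dgA y)) :=
      Complex.continuous_conj.measurable.comp hW1'
    have hc2 : Measurable fun y : (Adl K)ˣ => (((nrm57 K y)⁻¹ : ℝ) : ℂ) :=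
      Complex.measurable_ofReal.comp hnm.inv
    exact (hW1.mul hc1).mul hc2
  set u : (Adl K)ˣ → ℂ := (halfX57 K Y).indicator w with hu
  have hum : Measurable u := hwm.indicator hHm
  -- translates
  have hu_tr : ∀ (α : Kˣ) (y : (Adl K)ˣ), u (ratU57 K α * y)
      = (halfX57 K Y).indicator (fun y => ww57 K ψ ν D φ₁ φ₁'
          (Fermat.Agent.LT.T3.torK K α * dgA y) * (((nrm57 K y)⁻¹ : ℝ) : ℂ)) y := by
    intro α y
    by_cases hy : y ∈ halfX57 K Y
    · have hy' : ratU57 K α * y ∈ halfX57 K Y := by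
        change Y ≤ nrm57 K (ratU57 K α * y)
        rw [nrm57_ratU hN]
        exact hy
      rw [hu, Set.indicator_of_mem hy', Set.indicator_of_mem hy, hw]
      simp only [dgA_ratU57, nrm57_ratU hN]
    · have hy' : ratU57 K α * y ∉ halfX57 K Y := by
        intro h
        apply hy
        change Y ≤ nrm57 K y
        rw [← nrm57_ratU hN α y]
        exact h
      rw [hu, Set.indicator_of_notMem hy', Set.indicator_of_notMem hy]
  -- the Parseval series
  have hsum : ∀ y : (Adl K)ˣ, ∑' α : Kˣ, u (ratU57 K α * y)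
      = (halfX57 K Y).indicator (fun y => (((ν D).toReal : ℝ) : ℂ)
          * (per57 K ν D φ₁ φ₁' (dgA y) * (((nrm57 K y)⁻¹ : ℝ) : ℂ))) y := by
    intro y
    simp only [hu_tr]
    by_cases hy : y ∈ halfX57 K Y
    · simp only [Set.indicator_of_mem hy]
      rw [tsum_mul_right, ← (hpars (dgA y)).2]
      ring
    · simp only [Set.indicator_of_notMem hy, tsum_zero]
  -- the bound
  have hbound : ∫⁻ y in FX, ∑' α : Kˣ, ‖u (ratU57 K α * y)‖ₑ ∂τ < ⊤ := by
    have hle : ∀ y : (Adl K)ˣ, ∑' α : Kˣ, ‖u (ratU57 K α * y)‖ₑ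
        ≤ (halfX57 K Y).indicator
            (fun y => ENNReal.ofReal Cb * ENNReal.ofReal ((nrm57 K y)⁻¹)) y := by
      intro y
      simp only [hu_tr]
      by_cases hy : y ∈ halfX57 K Y
      · simp only [Set.indicator_of_mem hy]
        have hpos : 0 ≤ (nrm57 K y)⁻¹ := inv_nonneg.mpr (nrm57_pos hN y).le
        have h1 : ∀ α : Kˣ, ‖ww57 K ψ ν D φ₁ φ₁' (Fermat.Agent.LT.T3.torK K α * dgA y)
              * (((nrm57 K y)⁻¹ : ℝ) : ℂ)‖ₑ
            = ENNReal.ofReal ‖ww57 K ψ ν D φ₁ φ₁' (Fermat.Agent.LT.T3.torK K α * dgA y)‖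
                * ENNReal.ofReal ((nrm57 K y)⁻¹) := by
          intro α
          rw [← ofReal_norm, norm_mul, Complex.norm_real, Real.norm_of_nonneg hpos,
            ENNReal.ofReal_mul (norm_nonneg _)]
        simp only [h1]
        rw [ENNReal.tsum_mul_right]
        gcongr
        have hs : Summable fun α : Kˣ =>
            ‖ww57 K ψ ν D φ₁ φ₁' (Fermat.Agent.LT.T3.torK K α * dgA y)‖ :=
          (hpars (dgA y)).1.norm
        rw [← ENNReal.ofReal_tsum_of_nonneg (fun _ => norm_nonneg _) hs]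
        exact ENNReal.ofReal_le_ofReal (hCb (dgA y))
      · simp only [Set.indicator_of_notMem hy, enorm_zero, tsum_zero, le_refl]
    calc ∫⁻ y in FX, ∑' α : Kˣ, ‖u (ratU57 K α * y)‖ₑ ∂τ
        ≤ ∫⁻ y in FX, (halfX57 K Y).indicator
            (fun y => ENNReal.ofReal Cb * ENNReal.ofReal ((nrm57 K y)⁻¹)) y ∂τ :=
          lintegral_mono hle
      _ = ∫⁻ y in FX ∩ halfX57 K Y, ENNReal.ofReal Cb * ENNReal.ofReal ((nrm57 K y)⁻¹) ∂τ := by
          rw [lintegral_indicator hHm, Measure.restrict_restrict hHm, Set.inter_comm]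
      _ = ENNReal.ofReal Cb * ∫⁻ y in FX ∩ halfX57 K Y, ENNReal.ofReal ((nrm57 K y)⁻¹) ∂τ := by
          rw [lintegral_const_mul']
          exact ENNReal.ofReal_ne_top
      _ < ⊤ := ENNReal.mul_lt_top ENNReal.ofReal_lt_top (hvol Y hY)
  have hunf := hU τ hτ FX hFX u hum hbound
  -- conclusion
  have e1 : ∫ y in FX, ∑' α : Kˣ, u (ratU57 K α * y) ∂τ
      = (((ν D).toReal : ℝ) : ℂ) * ∫ y in FX ∩ halfX57 K Y,
          per57 K ν D φ₁ φ₁' (dgA y) * (((nrm57 K y)⁻¹ : ℝ) : ℂ) ∂τ := by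
    simp only [hsum]
    rw [integral_indicator hHm, Measure.restrict_restrict hHm, Set.inter_comm,
      integral_const_mul]
  have e2 : ∫ y, u y ∂τ = ∫ y in {y : (Adl K)ˣ | Y ≤ Fermat.Agent.LT.T5.adNorm (y : Adl K)},
      whit ψ ν D φ₁ (dgA y) * conj (whit ψ ν D φ₁' (dgA y))
        * (((Fermat.Agent.LT.T5.adNorm (y : Adl K))⁻¹ : ℝ) : ℂ) ∂τ := by
    rw [hu, integral_indicator hHm]
    rfl
  rw [← e2, ← hunf, e1]
  have hne : (((ν D).toReal : ℝ) : ℂ) ≠ 0 := by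
    exact_mod_cast hνD.ne'
  push_cast
  field_simp

end Fermat.Agent.LT.T7.H57

end
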