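import Mathlib
import Fermat.Agent.LT.T7.H57.FoldSpec2

/-!
# Row LT, tower T7, LEAF `FoldWhitC` -- the PROVED top of the cut of level 2 (helper57)

`foldC_of57 : FundXC57 K → CoreC57 K → BoxIntC57 K → ZInvC57 K → FoldC57 K`.
-/

set_option autoImplicit false
set_option linter.style.haveILetI false

open AutomorphicForm IsDedekindDomain NumberField Filter Topology MeasureTheory
open scoped ComplexConjugate ENNReal

noncomputable section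

namespace Fermat.Agent.LT.T7.H57

open Fermat.Agent.LT.H556 Fermat.Agent.LT.H556.A0 Fermat.Agent.LT.T7 Fermat.Agent.LT.T7.Rigid

attribute [local instance] Fermat.Agent.LT.T5.instMeasurableSpaceG

variable {K : Type} [Field K] [NumberField K]

/-- **TOP of the cut of level 2.** -/
theorem foldC_of57 (hX : FundXC57 K) (hC : CoreC57 K) (hB : BoxIntC57 K) (hZ : ZInvC57 K) :
    FoldC57 K := by
  letI : MeasurableSpace (Adl K) := borel (Adl K)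
  letI : MeasurableSpace (Adl K)ˣ := borel (Adl K)ˣ
  intro hcplx μ F hfr ν D hν hDm hD hDfin τ hτ S 𝔪 hS
  obtain ⟨FX, hFXm, hFX⟩ := hX τ hτ
  obtain ⟨V, hV, hvol, hbox, hint⟩ := hB ν D hν hDm hD hDfin τ hτ FX hFXm hFX
  obtain ⟨c₀, hc₀, hcore⟩ := hC hcplx μ F hfr ν D hν hDm hD hDfin τ hτ S 𝔪 hS FX hFXm hFX hbox
  refine ⟨c₀ * V, FX, mul_pos hc₀ hV, hFXm, hFX, hvol, ?_⟩
  intro π π' φ₁ φ₁' h1 h1' hl hl' Y hY
  set Φ : G K → ℂ := fun g => φ₁ g * conj (φ₁' g) with hΦ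
  have hΦc : Continuous Φ := h1.cont.mul (Complex.continuous_conj.comp h1'.cont)
  have hΦb : ∃ C : ℝ, ∀ g : G K, ‖Φ g‖ ≤ C := by
    obtain ⟨C1, hC1⟩ := h1.bdd
    obtain ⟨C2, hC2⟩ := h1'.bdd
    refine ⟨C1 * C2, fun g => ?_⟩
    rw [hΦ]
    simp only [norm_mul, RCLike.norm_conj]
    exact mul_le_mul (hC1 g) (hC2 g) (norm_nonneg _) ((norm_nonneg _).trans (hC1 g))
  have hΦl : IsLeftInv57 K Φ := fun γ g => by
    simp only [hΦ]
    rw [h1.left_inv γ g, h1'.left_inv γ g]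
  have hΦr : IsRightC57 K 𝔪 Φ := by
    refine ⟨fun u hu g => ?_, fun w k hk g => ?_⟩
    · simp only [hΦ]
      rw [hl u hu g, hl' u hu g]
    · simp only [hΦ]
      rw [h1.arch_compact w k hk g, h1'.arch_compact w k hk g]
  have hΦz : IsZInv57 K Φ := fun z g => by
    simp only [hΦ]
    rw [hZ hcplx S 𝔪 hS π φ₁ h1 hl z g, hZ hcplx S 𝔪 hS π' φ₁' h1' hl' z g]
  have e1 := hcore Φ hΦc hΦb hΦl hΦr Y hY
  have e2 := hint Φ hΦc hΦb hΦz Y hY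
  calc ∫ g in F, φ₁ g * conj (φ₁' g) * (((cnt 𝔪 Y g : ℕ) : ℝ) : ℂ) ∂μ
      = (c₀ : ℂ) * ∫ p in box57 K D FX Y,
          Φ (iota57 K p) * (((nrm57 K p.2.1)⁻¹ : ℝ) : ℂ) ∂(ν.prod (τ.prod τ)) := e1
    _ = (c₀ : ℂ) * ((V : ℂ) * ∫ y in FX ∩ halfX57 K Y,
          (∫ x in D, Φ (Fermat.Agent.LT.T3.unip K x * dgA y) ∂ν)
            * (((nrm57 K y)⁻¹ : ℝ) : ℂ) ∂τ) := by rw [e2]
    _ = ((c₀ * V : ℝ) : ℂ) * ∫ y in FX ∩ halfX57 K Y,
          per57 K ν D φ₁ φ₁' (dgA y) * (((nrm57 K y)⁻¹ : ℝ) : ℂ) ∂τ := by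
        push_cast
        rw [mul_assoc]
        rfl

end Fermat.Agent.LT.T7.H57

end
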