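import Mathlib
import Fermat.Agent.LT.T7.H57.FoldSpec4

/-!
# Row LT, tower T7, LEAF `FoldWhitC` -- TOP of the cut of the node `CorePosC57`, level 4 (helper57)

OFF-MAIN.  PROVED:

```
corePosC_of57 : WeightIdC57 K → WConstC57 K → InnerC57 K → WeightExC57 K → CntSumC57 K
                  → CorePosC57 K
```

with `c₀ = (∫ hgt · β dμ) / w_β(1)`.
-/

set_option autoImplicit false
set_option linter.style.haveILetI false

open AutomorphicForm IsDedekindDomain NumberField Filter Topology MeasureTheory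
open scoped ComplexConjugate ENNReal

noncomputable section

namespace Fermat.Agent.LT.T7.H57

open Fermat.Agent.LT.H556 Fermat.Agent.LT.H556.A0 Fermat.Agent.LT.T7 Fermat.Agent.LT.T7.Rigid

attribute [local instance] Fermat.Agent.LT.T5.instMeasurableSpaceG

variable {K : Type} [Field K] [NumberField K]

/-- The unfolded function vanishes outside `E_Y`. -/
theorem fnE57_eq_zero {𝔪 : Ideal (𝓞 K)} {F : Set (G K)} {Φ : G K → ℝ≥0∞} {Y : ℝ} {g : G K}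
    (hg : g ∉ EY57 K 𝔪 Y) : fnE57 K 𝔪 F Φ Y g = 0 := by
  unfold fnE57 fnX57
  simp [Set.indicator_of_notMem hg]

/-- ENNReal arithmetic. -/
theorem ennreal_solve57 {w X J c : ℝ≥0∞} (hw0 : w ≠ 0) (hwt : w ≠ ⊤) (h : w * X = J * c) :
    X = c / w * J := by
  have h1 : X = w⁻¹ * (w * X) := by
    rw [← mul_assoc, ENNReal.inv_mul_cancel hw0 hwt, one_mul]
  rw [h1, h, ENNReal.div_eq_inv_mul]
  ring

/-- **TOP of the cut of level 4.** -/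
theorem corePosC_of57 (hW : WeightIdC57 K) (hC : WConstC57 K) (hI : InnerC57 K)
    (hE : WeightExC57 K) (hS : CntSumC57 K) : CorePosC57 K := by
  letI : MeasurableSpace (Adl K) := borel (Adl K)
  letI : MeasurableSpace (Adl K)ˣ := borel (Adl K)ˣ
  intro hT μ F hF ν D hν hD hfd hDfin τ hτ S 𝔪 hS𝔪 FX hFX hFXfd
  obtain ⟨β, hβm, hβC, hβ0, hw0, hwtop, hhm, hc0, hctop⟩ :=
    hE hT μ hF.haar ν hν τ hτ S 𝔪 hS𝔪
  have hdiv_ne : (∫⁻ g, ENNReal.ofReal (hgt57 K g) * β g ∂μ) / wB57 K ν τ β 1 ≠ 0 :=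
    (ENNReal.div_pos hc0.ne' hwtop.ne).ne'
  have hdiv_top : (∫⁻ g, ENNReal.ofReal (hgt57 K g) * β g ∂μ) / wB57 K ν τ β 1 ≠ ⊤ :=
    ENNReal.div_ne_top hctop.ne hw0.ne'
  refine ⟨((∫⁻ g, ENNReal.ofReal (hgt57 K g) * β g ∂μ) / wB57 K ν τ β 1).toReal,
    ENNReal.toReal_pos hdiv_ne hdiv_top, ?_⟩
  intro Φ hΦ hΦL hΦR Y hY
  obtain ⟨hFm, hsum⟩ := hS hT μ F hF S 𝔪 hS𝔪 Φ hΦ hΦL Y hY
  rw [← hsum, ENNReal.ofReal_toReal hdiv_top]
  have hid := hW μ hF.haar ν hν τ hτ (fnE57 K 𝔪 F Φ Y) β hFm hβm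
  have hL : ∫⁻ g, fnE57 K 𝔪 F Φ Y g * wB57 K ν τ β g ∂μ
      = wB57 K ν τ β 1 * ∫⁻ g, fnE57 K 𝔪 F Φ Y g ∂μ := by
    rw [← lintegral_const_mul _ hFm]
    apply lintegral_congr
    intro g
    by_cases hg : g ∈ EY57 K 𝔪 Y
    · rw [hC hT ν hν τ hτ S 𝔪 hS𝔪 β hβm hβC g hg.2, mul_comm]
    · rw [fnE57_eq_zero hg, zero_mul, mul_zero]
  have hR : ∫⁻ g, (∫⁻ p : PB57 K, fnE57 K 𝔪 F Φ Y (iota57 K p * g) * om57 K p
        ∂(ν.prod (τ.prod τ))) * β g ∂μ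
      = (∫⁻ p in box57 K D FX Y, Φ (iota57 K p) * om57 K p ∂(ν.prod (τ.prod τ)))
          * ∫⁻ g, ENNReal.ofReal (hgt57 K g) * β g ∂μ := by
    rw [← lintegral_const_mul _ hhm]
    apply lintegral_congr
    intro g
    by_cases hg : g ∈ Om57 K 𝔪
    · rw [hI hT μ F hF ν D hν hD hfd hDfin τ hτ S 𝔪 hS𝔪 FX hFX hFXfd Φ hΦ hΦL hΦR Y hY g hg]
      ring
    · rw [hβ0 g hg, mul_zero, mul_zero, mul_zero]
  have hkey : wB57 K ν τ β 1 * ∫⁻ g, fnE57 K 𝔪 F Φ Y g ∂μ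
      = (∫⁻ p in box57 K D FX Y, Φ (iota57 K p) * om57 K p ∂(ν.prod (τ.prod τ)))
          * ∫⁻ g, ENNReal.ofReal (hgt57 K g) * β g ∂μ := by
    rw [← hL, hid, hR]
  exact ennreal_solve57 hw0.ne' hwtop.ne hkey

end Fermat.Agent.LT.T7.H57

end
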