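import Mathlib
import Fermat.Agent.LT.T7.H57.FoldSpec5
import Fermat.Agent.LT.T7.H57.FoldTop

/-!
# Row LT, tower T7, LEAF `FoldWhitC` -- TOPS of the cut of level 5 (helper57)

OFF-MAIN.  PROVED:

```
wConstC_of57 : OmDecompC57 K → PLTransC57 K → MeasIotaC57 K → WConstC57 K
innerC_of57  : T1.AdNormC K → OmDecompC57 K → RowInvC57 K → BorelUnfC57 K → BruhatSumC57 K →
                 PRTransC57 K → MeasIotaC57 K → IotaCoordC57 K → CntSumC57 K → InnerC57 K
```
-/

set_option autoImplicit false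
set_option linter.style.haveILetI false

open AutomorphicForm IsDedekindDomain NumberField Filter Topology MeasureTheory
open scoped ComplexConjugate ENNReal

noncomputable section

namespace Fermat.Agent.LT.T7.H57

open Fermat.Agent.LT.H556 Fermat.Agent.LT.H556.A0 Fermat.Agent.LT.T7 Fermat.Agent.LT.T7.Rigid

attribute [local instance] Fermat.Agent.LT.T5.instMeasurableSpaceG

variable {K : Type} [Field K] [NumberField K]

theorem iota57_val (p : PB57 K) :
    ((iota57 K p : G K) : Matrix (Fin 2) (Fin 2) (Adl K))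
      = !![(p.2.1 : Adl K) * (p.2.2 : Adl K), p.1 * (p.2.2 : Adl K); 0, (p.2.2 : Adl K)] := by
  ext i j
  fin_cases i <;> fin_cases j <;>
    simp [iota57, Fermat.Agent.LT.T3.unip, dgA, zA57, Matrix.mul_apply, Fin.sum_univ_two]

theorem iota_mulP57 (p p₀ : PB57 K) :
    iota57 K (mulP57 K p p₀) = iota57 K p * iota57 K p₀ := by
  apply Units.ext
  rw [Units.val_mul, iota57_val, iota57_val, iota57_val]
  ext i j
  fin_cases i <;> fin_cases j <;>
    simp [mulP57, Matrix.mul_apply, Fin.sum_univ_two] <;> ring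

theorem iota_actB57 (q : PK57 K) (p : PB57 K) :
    iota57 K (actB57 K q p)
      = Matrix.GeneralLinearGroup.map (algebraMap K (Adl K)) (ratB57 K q) * iota57 K p := by
  apply Units.ext
  rw [Units.val_mul, iota57_val, iota57_val]
  ext i j
  fin_cases i <;> fin_cases j <;>
    simp [actB57, ratB57, ratBMat57, ratU57, Matrix.mul_apply, Fin.sum_univ_two] <;> ring

theorem iota_one57 : iota57 K ((0, 1, 1) : PB57 K) = 1 := by
  apply Units.ext
  rw [iota57_val]
  ext i j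
  fin_cases i <;> fin_cases j <;> simp

theorem mulP_invP57 (p : PB57 K) : mulP57 K (invP57 K p) p = (0, 1, 1) := by
  unfold mulP57 invP57
  simp

theorem iota_invP57 (p : PB57 K) : iota57 K (invP57 K p) = (iota57 K p)⁻¹ := by
  rw [eq_inv_iff_mul_eq_one, ← iota_mulP57, mulP_invP57, iota_one57]


/-! ## Indicators -/

theorem isRightCE_indicator57 {𝔪 : Ideal (𝓞 K)} {A : Set (G K)}
    (h1 : ∀ u : G K, InLevelGroup 𝔪 u → ∀ g : G K, g * u ∈ A ↔ g ∈ A)
    (h2 : ∀ (w : InfinitePlace K) (k : G K), IsArchCompact w k → ∀ g : G K, g * k ∈ A ↔ g ∈ A) :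
    IsRightCE57 K 𝔪 (A.indicator (1 : G K → ℝ≥0∞)) := by
  refine ⟨fun u hu g => ?_, fun w k hk g => ?_⟩
  · by_cases hg : g ∈ A
    · rw [Set.indicator_of_mem hg, Set.indicator_of_mem ((h1 u hu g).2 hg)]
      rfl
    · rw [Set.indicator_of_notMem hg, Set.indicator_of_notMem (fun h => hg ((h1 u hu g).1 h))]
  · by_cases hg : g ∈ A
    · rw [Set.indicator_of_mem hg, Set.indicator_of_mem ((h2 w k hk g).2 hg)]
      rfl
    · rw [Set.indicator_of_notMem hg, Set.indicator_of_notMem (fun h => hg ((h2 w k hk g).1 h))]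

theorem mem_iff_of_indicator57 {A : Set (G K)} {a b : G K}
    (h : A.indicator (1 : G K → ℝ≥0∞) a = A.indicator 1 b) : a ∈ A ↔ b ∈ A := by
  by_cases ha : a ∈ A <;> by_cases hb : b ∈ A
  · exact ⟨fun _ => hb, fun _ => ha⟩
  · rw [Set.indicator_of_mem ha, Set.indicator_of_notMem hb] at h
    exact absurd h (by simp)
  · rw [Set.indicator_of_notMem ha, Set.indicator_of_mem hb] at h
    exact absurd h (by simp)
  · exact ⟨fun h' => absurd h' ha, fun h' => absurd h' hb⟩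

/-! ## `w_β` is constant on `Ω` -/

/-- **TOP of the cut of `WConstC57`.** -/
theorem wConstC_of57 (hO : OmDecompC57 K) (hL : PLTransC57 K) (hM : MeasIotaC57 K) :
    WConstC57 K := by
  letI : MeasurableSpace (Adl K) := borel (Adl K)
  letI : MeasurableSpace (Adl K)ˣ := borel (Adl K)ˣ
  intro hT ν hν τ hτ S 𝔪 hS β hβ hβC g hg
  obtain ⟨p₀, hp₀⟩ := hO hT S 𝔪 hS g hg
  have hf : Measurable (fun p : PB57 K => β ((iota57 K p)⁻¹)) := hβ.comp hM.2
  have key := hL ν hν τ hτ _ hf (invP57 K p₀)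
  unfold wB57
  calc ∫⁻ p : PB57 K, β ((iota57 K p)⁻¹ * g) * om57 K p ∂(ν.prod (τ.prod τ))
      = ∫⁻ p : PB57 K, β ((iota57 K (mulP57 K (invP57 K p₀) p))⁻¹) * om57 K p
          ∂(ν.prod (τ.prod τ)) := by
        apply lintegral_congr
        intro p
        congr 1
        have h := hp₀ β hβC ((iota57 K p)⁻¹ * iota57 K p₀)
        rw [iota_mulP57, iota_invP57, mul_inv_rev, inv_inv, ← h]
        congr 1
        group
    _ = ∫⁻ p : PB57 K, β ((iota57 K p)⁻¹) * om57 K p ∂(ν.prod (τ.prod τ)) := key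
    _ = ∫⁻ p : PB57 K, β ((iota57 K p)⁻¹ * 1) * om57 K p ∂(ν.prod (τ.prod τ)) := by
        simp only [mul_one]

/-! ## The inner integral -/

/-- The box conditions on `(y, z)`. -/
def cond57 (K : Type) [Field K] [NumberField K] (Y : ℝ) : Set (PB57 K) :=
  {p | Y ≤ nrm57 K p.2.1 ∧ 1 ≤ nrm57 K p.2.1 * nrm57 K p.2.2 ^ 2 ∧
    nrm57 K p.2.1 * nrm57 K p.2.2 ^ 2 < 2}

theorem measurableSet_cond57 (hN : Fermat.Agent.LT.T1.AdNormC K) (Y : ℝ) :
    @MeasurableSet _ (@Prod.instMeasurableSpace _ _ (borel (Adl K))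
      (@Prod.instMeasurableSpace _ _ (borel (Adl K)ˣ) (borel (Adl K)ˣ))) (cond57 K Y) := by
  letI : MeasurableSpace (Adl K) := borel (Adl K)
  letI : MeasurableSpace (Adl K)ˣ := borel (Adl K)ˣ
  haveI : BorelSpace (Adl K)ˣ := ⟨rfl⟩
  have hn : Measurable (nrm57 K) := (continuous_nrm57 hN).measurable
  have h1 : Measurable (fun p : PB57 K => nrm57 K p.2.1) :=
    hn.comp (measurable_fst.comp measurable_snd)
  have h2 : Measurable (fun p : PB57 K => nrm57 K p.2.2) :=
    hn.comp (measurable_snd.comp measurable_snd)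
  have h3 : Measurable (fun p : PB57 K => nrm57 K p.2.1 * nrm57 K p.2.2 ^ 2) :=
    h1.mul (h2.pow_const 2)
  have e : cond57 K Y = {p : PB57 K | Y ≤ nrm57 K p.2.1}
      ∩ ({p : PB57 K | 1 ≤ nrm57 K p.2.1 * nrm57 K p.2.2 ^ 2}
        ∩ {p : PB57 K | nrm57 K p.2.1 * nrm57 K p.2.2 ^ 2 < 2}) := by
    ext p
    simp only [cond57, Set.mem_inter_iff, Set.mem_ofPred_eq]
  rw [e]
  exact (measurableSet_le measurable_const h1).inter
    ((measurableSet_le measurable_const h3).inter (measurableSet_lt h3 measurable_const))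

theorem box57_eq (D : Set (Adl K)) (FX : Set (Adl K)ˣ) (Y : ℝ) :
    box57 K D FX Y = cond57 K Y ∩ D ×ˢ (FX ×ˢ FX) := by
  ext p
  simp only [box57, cond57, Set.mem_inter_iff, Set.mem_ofPred_eq, Set.mem_prod]
  tauto

/-- **TOP of the cut of `InnerC57`.** -/
theorem innerC_of57 (hN : Fermat.Agent.LT.T1.AdNormC K) (hO : OmDecompC57 K)
    (hRI : RowInvC57 K) (hU : BorelUnfC57 K) (hB : BruhatSumC57 K) (hR : PRTransC57 K)
    (hM : MeasIotaC57 K) (hIC : IotaCoordC57 K) (hS : CntSumC57 K) : InnerC57 K := by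
  letI : MeasurableSpace (Adl K) := borel (Adl K)
  letI : MeasurableSpace (Adl K)ˣ := borel (Adl K)ˣ
  intro hT μ F hF ν D hν hD hfd hDfin τ hτ S 𝔪 hS𝔪 FX hFX hFXfd Φ hΦ hΦL hΦR Y hY g hg
  obtain ⟨p₀, hp₀⟩ := hO hT S 𝔪 hS𝔪 g hg
  obtain ⟨hRu, hRk⟩ := hRI hT S 𝔪 hS𝔪
  have hg_eq : g = iota57 K p₀ * ((iota57 K p₀)⁻¹ * g) := by group
  have hFm : Measurable (fnE57 K 𝔪 F Φ Y) := (hS hT μ F hF S 𝔪 hS𝔪 Φ hΦ hΦL Y hY).1
  have hf : Measurable (fun p : PB57 K => fnE57 K 𝔪 F Φ Y (iota57 K p * ((iota57 K p₀)⁻¹ * g))) :=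
    hFm.comp (hM.1 _)
  -- the height of `g`
  have hhgt : hgt57 K g = nrm57 K p₀.2.1 := by
    have hA : IsRightCE57 K 𝔪
        (({h : G K | hgt57 K h = hgt57 K (iota57 K p₀)}).indicator (1 : G K → ℝ≥0∞)) := by
      apply isRightCE_indicator57
      · intro u hu h
        have := hRu u hu h
        simp only [Set.mem_ofPred_eq, hgt57, this.1, this.2.1]
      · intro w k hk h
        have := hRk w k hk h
        simp only [Set.mem_ofPred_eq, hgt57, this.1, this.2.1]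
    have h1 := mem_iff_of_indicator57 (hp₀ _ hA (iota57 K p₀))
    rw [← hg_eq] at h1
    have h2 : hgt57 K g = hgt57 K (iota57 K p₀) := h1.2 rfl
    rw [h2, (hIC p₀).1]
  -- the indicator of `E_Y ∩ slab` is right invariant
  have hind : IsRightCE57 K 𝔪
      (({h : G K | h ∈ EY57 K 𝔪 Y ∧ h ∈ Fermat.Agent.LT.T5.slab K}).indicator
        (1 : G K → ℝ≥0∞)) := by
    apply isRightCE_indicator57
    · intro u hu h
      have := hRu u hu h
      simp only [Set.mem_ofPred_eq, EY57, Fermat.Agent.LT.T5.slab, this.1, this.2.1, this.2.2]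
    · intro w k hk h
      have := hRk w k hk h
      simp only [Set.mem_ofPred_eq, EY57, Fermat.Agent.LT.T5.slab, this.1, this.2.1, this.2.2]
  -- step 1: right translation
  have h1 : ∫⁻ p : PB57 K, fnE57 K 𝔪 F Φ Y (iota57 K p * g) * om57 K p ∂(ν.prod (τ.prod τ))
      = ENNReal.ofReal (nrm57 K p₀.2.1) * ∫⁻ p : PB57 K,
          fnE57 K 𝔪 F Φ Y (iota57 K p * ((iota57 K p₀)⁻¹ * g)) * om57 K p
            ∂(ν.prod (τ.prod τ)) := by
    rw [← hR ν hν τ hτ _ hf p₀]
    apply lintegral_congr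
    intro p
    rw [iota_mulP57, mul_assoc, ← hg_eq]
  -- step 2: unfolding
  have h2 := hU ν D hν hD hfd τ hτ FX hFX hFXfd _ hf
  -- step 3: the sum over `B(K)`
  have h3 : ∀ p : PB57 K,
      ∑' q : PK57 K, fnE57 K 𝔪 F Φ Y (iota57 K (actB57 K q p) * ((iota57 K p₀)⁻¹ * g))
        = Φ (iota57 K p) * (cond57 K Y).indicator 1 p := by
    intro p
    have hb := hB μ F hF 𝔪 Φ hΦL Y (iota57 K p * ((iota57 K p₀)⁻¹ * g))
    simp only [iota_actB57, mul_assoc]
    rw [hb, hp₀ Φ hΦR (iota57 K p), hp₀ _ hind (iota57 K p)]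
    congr 1
    by_cases hp : p ∈ cond57 K Y
    · have hm : iota57 K p ∈ {h : G K | h ∈ EY57 K 𝔪 Y ∧ h ∈ Fermat.Agent.LT.T5.slab K} :=
        ((hIC p).2 𝔪 Y).2 hp
      rw [Set.indicator_of_mem hp, Set.indicator_of_mem hm]
      rfl
    · have hm : iota57 K p ∉ {h : G K | h ∈ EY57 K 𝔪 Y ∧ h ∈ Fermat.Agent.LT.T5.slab K} :=
        fun h => hp (((hIC p).2 𝔪 Y).1 h)
      rw [Set.indicator_of_notMem hp, Set.indicator_of_notMem hm]
  -- conclusion
  rw [h1, hhgt, h2]
  congr 1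
  rw [box57_eq, ← Measure.restrict_restrict (measurableSet_cond57 hN Y),
    ← lintegral_indicator (measurableSet_cond57 hN Y)]
  apply lintegral_congr
  intro p
  rw [h3 p]
  by_cases hp : p ∈ cond57 K Y
  · rw [Set.indicator_of_mem hp, Set.indicator_of_mem hp, Pi.one_apply, mul_one]
  · rw [Set.indicator_of_notMem hp, Set.indicator_of_notMem hp, mul_zero, zero_mul]

end Fermat.Agent.LT.T7.H57

end
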