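import Mathlib
import Fermat.Agent.LT.T7.H57.FoldTop
import Fermat.Agent.LT.T7.H57.FoldTop2
import Fermat.Agent.LT.T7.H57.FoldTop4
import Fermat.Agent.LT.T7.H57.FoldTop5

/-!
# Row LT, tower T7, LEAF `FoldWhitC` -- the whole cut in one statement (helper57)

OFF-MAIN.  PROVED: `Rigid.FoldWhitC K` from `T1.AdNormC K` and the 18 typed leaves of the cut
(levels 1-5).
-/

set_option autoImplicit false

noncomputable section

namespace Fermat.Agent.LT.T7.H57

open Fermat.Agent.LT.T7 Fermat.Agent.LT.T7.Rigid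

variable {K : Type} [Field K] [NumberField K]

/-- The leaves of the cut of `FoldWhitC`. -/
structure FoldLeaves57 (K : Type) [Field K] [NumberField K] : Prop where
  parseval : ParsevalC57 K
  parsBdd : ParsBddC57 K
  whitMeas : WhitMeasC57 K
  unfoldX : UnfoldXC57 K
  fundX : FundXC57 K
  boxInt : BoxIntC57 K
  zInv : ZInvC57 K
  coreOfPos : CoreOfPosC57 K
  weightId : WeightIdC57 K
  weightEx : WeightExC57 K
  cntSum : CntSumC57 K
  omDecomp : OmDecompC57 K
  rowInv : RowInvC57 K
  borelUnf : BorelUnfC57 K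
  bruhatSum : BruhatSumC57 K
  pRTrans : PRTransC57 K
  pLTrans : PLTransC57 K
  measIota : MeasIotaC57 K
  iotaCoord : IotaCoordC57 K

/-- **The whole cut.** -/
theorem foldWhitC_of_leaves57 (hN : Fermat.Agent.LT.T1.AdNormC K) (L : FoldLeaves57 K) :
    Rigid.FoldWhitC K :=
  foldWhitC_of57 hN
    (foldC_of57 L.fundX
      (coreC_of57
        (corePosC_of57 L.weightId (wConstC_of57 L.omDecomp L.pLTrans L.measIota)
          (innerC_of57 hN L.omDecomp L.rowInv L.borelUnf L.bruhatSum L.pRTrans L.measIota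
            L.iotaCoord L.cntSum)
          L.weightEx L.cntSum)
        L.coreOfPos)
      L.boxInt L.zInv)
    L.parseval L.parsBdd L.whitMeas L.unfoldX

end Fermat.Agent.LT.T7.H57

end
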