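import Mathlib
import Fermat.Agent.LT.T7.H57.FoldTop5
import Fermat.Agent.LT.T7.H793.ThetaSet
import Fermat.Agent.LT.T7.H360.CellCoord
import Fermat.Agent.LT.T7.H607.MeasIota
import Fermat.Agent.LT.T7.H555.Fold
import Fermat.Agent.LT.T1.Closed

/-!
# Row LT, tower T7, LEAF `FoldWhitC`, leaf `WeightExC57` (helper57): ADAPTER

OFF-MAIN.  `WeightExC57 K` from the twin leaves of the cut of helper290 (byte-identical copies):
`ThetaSetC290` (helper793 `thetaSetC793`), `CellCoordC290` (helper360 `cellCoordC360`),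
`MeasIotaC57` (helper607), measurability of the heights (helper724), closed T1.

`weightExC57 K : WeightExC57 K`, UNCONDITIONAL; `β = 1_V`.
-/

set_option autoImplicit false
set_option linter.style.haveILetI false

open AutomorphicForm IsDedekindDomain NumberField Filter Topology MeasureTheory
open scoped ComplexConjugate ENNReal

noncomputable section

namespace Fermat.Agent.LT.T7.H57

open Fermat.Agent.LT.H556 Fermat.Agent.LT.H556.A0 Fermat.Agent.LT.T7 Fermat.Agent.LT.T7.Rigid
open Fermat.Agent.LT Fermat.Agent.LT.T7.Rigid.H290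

attribute [local instance] Fermat.Agent.LT.T5.instMeasurableSpaceG

variable {K : Type} [Field K] [NumberField K]

/-! ## The generators lie in `𝒰(𝔪)` -/

theorem infComp_eq_one_of_triv57 {w : InfinitePlace K} {u : G K} (h : TrivAtInf w u) :
    infComp w u = 1 := by
  ext i j
  unfold infComp
  rw [h i j]
  by_cases hij : i = j
  · subst hij
    simp
  · simp [Matrix.one_apply_ne hij]

theorem unitary_of_triv57 {w : InfinitePlace K} {u : G K} (h : TrivAtInf w u) :
    infComp w u * (infComp w u).conjTranspose = 1 ∧ (w.IsReal → (infComp w u).det = 1) := by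
  rw [infComp_eq_one_of_triv57 h]
  simp

theorem isCpt_of_level57 {𝔪 : Ideal (𝓞 K)} {u : G K} (hu : InLevelGroup 𝔪 u) :
    IsCpt290 𝔪 u :=
  ⟨hu.2, fun w => unitary_of_triv57 (hu.1 w)⟩

theorem finComp_inv_eq_one57 {v : HeightOneSpectrum (𝓞 K)} {k : G K} (h : finComp v k = 1) :
    finComp v k⁻¹ = 1 := by
  have h1 := Fermat.Agent.LT.T7.Rigid.H360.finComp_mul360 v k k⁻¹
  rw [mul_inv_cancel, Fermat.Agent.LT.T7.Rigid.H360.finComp_one360, h, one_mul] at h1
  exact h1.symm

theorem isCpt_of_arch57 (𝔪 : Ideal (𝓞 K)) {w : InfinitePlace K} {k : G K}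
    (hk : IsArchCompact w k) : IsCpt290 𝔪 k := by
  obtain ⟨⟨hinf, hfin⟩, hun, hdet⟩ := hk
  refine ⟨fun v i j => ?_, fun w' => ?_⟩
  · have h1 : finComp v k = 1 := hfin v
    have h2 : finComp v k⁻¹ = 1 := finComp_inv_eq_one57 h1
    rw [h1, h2, sub_self]
    exact ⟨Fermat.Agent.LT.T3.H57.zero_mem_idealClosure57 𝔪 v,
      Fermat.Agent.LT.T3.H57.zero_mem_idealClosure57 𝔪 v⟩
  · by_cases hw : w' = w
    · subst hw
      exact ⟨hun, hdet⟩
    · exact unitary_of_triv57 (hinf w' hw)

/-! ## Measurability of the height -/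

theorem measurable_hgt57 : Measurable (hgt57 K) := by
  have h1 : Measurable (fun g : G K => rowNorm (botRow57 K g)) := by
    have e : (fun g : G K => rowNorm (botRow57 K g))
        = fun g : G K => rowNorm (rowOf ![0, 1] g) := by
      funext g
      rw [Fermat.Agent.LT.T7.H555.rowOf_std555]
      rfl
    rw [e]
    exact Fermat.Agent.LT.T7.H724.measurable_rowNorm724 _
  unfold hgt57
  exact Fermat.Agent.LT.T7.H724.measurable_adNormDet724.div (h1.pow_const 2)

/-! ## The adapter -/

/-- **`WeightExC57`.** -/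
theorem weightExC57 (K : Type) [Field K] [NumberField K] : WeightExC57 K := by
  letI : MeasurableSpace (Adl K) := borel (Adl K)
  letI : MeasurableSpace (Adl K)ˣ := borel (Adl K)ˣ
  intro hT μ hμ ν hν τ hτ S 𝔪 hS
  have h𝔪 : 𝔪 ≠ ⊥ := hS.1
  have hN : T1.AdNormC K := (T1.t1Out K).adNorm
  have hMI : MeasIotaC57 K := Fermat.Agent.LT.T7.H607.measIotaC607 K (T1.t1Out K).locComp
  obtain ⟨V, hVm, hVcell, hVinv, hV0, hVtop, ⟨M, hM⟩, hW0, hWtop⟩ :=
    Fermat.Agent.LT.T7.H793.thetaSetC793 K hT (T1.t1Out K) μ hμ ν hν τ hτ 𝔪 h𝔪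
  obtain ⟨hcoord, -⟩ := Fermat.Agent.LT.T7.Rigid.H360.cellCoordC360 K hT (T1.t1Out K) 𝔪 h𝔪
  -- the height on `V`
  have hhV : ∀ g ∈ V, 0 < hgt57 K g ∧ hgt57 K g ≤ M ∧ g ∈ Om57 K 𝔪 := by
    intro g hg
    obtain ⟨p, κ, hκ, rfl⟩ := hVcell g hg
    obtain ⟨hc1, hc2, -⟩ := hcoord p κ hκ
    have hpos : 0 < nrm57 K p.2.1 := nrm57_pos hN p.2.1
    have hh : hgt57 K (iota57 K p * κ) = nrm57 K p.2.1 := hc2
    refine ⟨by rw [hh]; exact hpos, by rw [hh]; exact hM p κ hκ hg, ?_⟩
    exact ((hc1 _ hpos).2 le_rfl).2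
  -- the set `W`
  have hWm : MeasurableSet {q : PB57 K | (iota57 K q)⁻¹ ∈ V} := hMI.2 hVm
  have hw : wB57 K ν τ (V.indicator (1 : G K → ℝ≥0∞)) 1
      = lamB290 ν τ {q : PB57 K | (iota57 K q)⁻¹ ∈ V} := by
    unfold wB57 lamB290
    rw [withDensity_apply _ hWm, ← lintegral_indicator hWm]
    apply lintegral_congr
    intro p
    by_cases hp : (iota57 K p)⁻¹ ∈ V
    · have hp' : p ∈ {q : PB57 K | (iota57 K q)⁻¹ ∈ V} := hp
      rw [mul_one, Set.indicator_of_mem hp, Set.indicator_of_mem hp', Pi.one_apply, one_mul]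
      rfl
    · have hp' : p ∉ {q : PB57 K | (iota57 K q)⁻¹ ∈ V} := hp
      rw [mul_one, Set.indicator_of_notMem hp, Set.indicator_of_notMem hp', zero_mul]
  have hmeas : Measurable (fun g : G K =>
      ENNReal.ofReal (hgt57 K g) * V.indicator (1 : G K → ℝ≥0∞) g) :=
    (ENNReal.measurable_ofReal.comp measurable_hgt57).mul (measurable_one.indicator hVm)
  refine ⟨V.indicator (1 : G K → ℝ≥0∞), measurable_one.indicator hVm, ?_, ?_, ?_, ?_, hmeas,
    ?_, ?_⟩
  · -- right invariance
    apply isRightCE_indicator57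
    · intro u hu g
      constructor
      · intro h
        have := hVinv _ h u⁻¹ (Fermat.Agent.LT.T7.H793.isCpt_inv793 (isCpt_of_level57 hu))
        rwa [mul_inv_cancel_right] at this
      · intro h
        exact hVinv g h u (isCpt_of_level57 hu)
    · intro w k hk g
      constructor
      · intro h
        have := hVinv _ h k⁻¹ (Fermat.Agent.LT.T7.H793.isCpt_inv793 (isCpt_of_arch57 𝔪 hk))
        rwa [mul_inv_cancel_right] at this
      · intro h
        exact hVinv g h k (isCpt_of_arch57 𝔪 hk)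
  · -- zero outside `Ω`
    intro g hg
    exact Set.indicator_of_notMem (fun h => hg (hhV g h).2.2) _
  · rw [hw]
    exact pos_iff_ne_zero.2 hW0
  · rw [hw]
    exact lt_top_iff_ne_top.2 hWtop
  · -- positivity of the integral
    rw [pos_iff_ne_zero]
    intro h0
    rw [lintegral_eq_zero_iff hmeas] at h0
    apply hV0
    refine measure_mono_null ?_ h0
    intro g hg
    show ¬ (ENNReal.ofReal (hgt57 K g) * V.indicator (1 : G K → ℝ≥0∞) g = 0)
    rw [Set.indicator_of_mem hg, Pi.one_apply, mul_one]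
    exact (ENNReal.ofReal_pos.2 (hhV g hg).1).ne'
  · -- finiteness of the integral
    calc ∫⁻ g, ENNReal.ofReal (hgt57 K g) * V.indicator (1 : G K → ℝ≥0∞) g ∂μ
        ≤ ∫⁻ g, V.indicator (fun _ => ENNReal.ofReal M) g ∂μ := by
          apply lintegral_mono
          intro g
          show ENNReal.ofReal (hgt57 K g) * V.indicator (1 : G K → ℝ≥0∞) g
            ≤ V.indicator (fun _ => ENNReal.ofReal M) g
          by_cases hg : g ∈ V
          · rw [Set.indicator_of_mem hg, Set.indicator_of_mem hg, Pi.one_apply, mul_one]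
            exact ENNReal.ofReal_le_ofReal (hhV g hg).2.1
          · rw [Set.indicator_of_notMem hg, Set.indicator_of_notMem hg, mul_zero]
      _ = ENNReal.ofReal M * μ V := lintegral_indicator_const hVm _
      _ < ⊤ := ENNReal.mul_lt_top ENNReal.ofReal_lt_top (lt_top_iff_ne_top.2 hVtop)

end Fermat.Agent.LT.T7.H57

end
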