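import Mathlib
import Fermat.Agent.LT.T7.H57.FoldAll
import Fermat.Agent.LT.T7.H57.BruhatSum
import Fermat.Agent.LT.T7.H57.WeightExAd
import Fermat.Agent.LT.T1.Closed
import Fermat.Agent.LT.T3.Closed
import Fermat.Agent.LT.T7.H91.ParsevalC57
import Fermat.Agent.LT.T7.H189.ParsBdd
import Fermat.Agent.LT.T7.H385.WhitMeas
import Fermat.Agent.LT.T7.H811.UnfoldX
import Fermat.Agent.LT.T7.H811.WeightId
import Fermat.Agent.LT.T7.H293.FundX
import Fermat.Agent.LT.T7.H816.ZInv
import Fermat.Agent.LT.T7.H346.CoreOfPos
import Fermat.Agent.LT.T7.H216.BoxClosed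
import Fermat.Agent.LT.T7.H69.CntSum
import Fermat.Agent.LT.T7.H704.OmDecomp
import Fermat.Agent.LT.T7.H553.RowInv
import Fermat.Agent.LT.T7.H290.BorelUnf
import Fermat.Agent.LT.T7.H389.PRTrans
import Fermat.Agent.LT.T7.H317.PLTrans
import Fermat.Agent.LT.T7.H607.MeasIota
import Fermat.Agent.LT.T7.H786.IotaCoord

/-!
# Row LT, tower T7, LEAF T7.14.6a `FoldWhitC` -- CLOSED (helper57, integration)

OFF-MAIN.  `foldWhitC_closed57 (K) : Rigid.FoldWhitC K`, UNCONDITIONAL, every number field.

The cut (helper57, levels 1-5, `FoldSpec..FoldSpec5`, tops `FoldTop..FoldTop5`, `FoldAll`) and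
the 19 leaves (byte-identical copies of the deliveries):

| leaf | by |
|---|---|
| `ParsevalC57` | helper91 |
| `ParsBddC57` | helper189 |
| `WhitMeasC57` | helper385 |
| `UnfoldXC57`, `WeightIdC57` | helper811 |
| `FundXC57` | helper293 |
| `BoxIntC57` | helper216 (+ helper171, helper420, helper729) |
| `ZInvC57` | helper816 |
| `CoreOfPosC57` | helper346 |
| `CntSumC57` | helper69 (helper724) |
| `OmDecompC57` | helper704 |
| `RowInvC57` | helper553 |
| `BorelUnfC57` | helper290 |
| `BruhatSumC57` | helper57 (on helper555 `Fold`, `FoldIwa`) |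
| `PRTransC57` | helper389 |
| `PLTransC57` | helper317 |
| `MeasIotaC57` | helper607 |
| `IotaCoordC57` | helper786 |
| `WeightExC57` | helper57 adapter on helper793 `ThetaSetC290`, helper360 `CellCoordC290` |
-/

set_option autoImplicit false

noncomputable section

namespace Fermat.Agent.LT.T7.H57

open Fermat.Agent.LT Fermat.Agent.LT.T7 Fermat.Agent.LT.T7.Rigid

variable (K : Type) [Field K] [NumberField K]

/-- `T3.CompleteNDC` closed. -/
theorem completeND_closed57 : T3.CompleteNDC K := by
  have h := T1.t1Out K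
  have hL := T3.inLocComp_of_T1 K h.locComp
  have hA := T3.inLattice_of_T1 K h.adeleLattice
  have hF := T3.inFundDom_of_T1 K h.addFundDom
  exact T3.H57.completeND57 K hL hA hF (T3.H57.perpND57 K hL hA)

/-- The leaves of the cut of `FoldWhitC`, all closed. -/
theorem foldLeaves_closed57 : FoldLeaves57 K := by
  have h := T1.t1Out K
  have hP : ParsevalC57 K := H91.parsevalC57_of_t1_91 K h (completeND_closed57 K)
  exact
    { parseval := hP
      parsBdd := H189.parsBddC_of_parseval189 K hP
      whitMeas := H385.whitMeasC385 K h.locComp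
      unfoldX := H811.unfoldXC811 K
      fundX := H293.fundXC293 K h
      boxInt := H216.boxIntC57_closed216 K h
      zInv := H816.zInvC816 K
      coreOfPos := H346.coreOfPosC346 K
      weightId := H811.weightIdC_of_t1_811 K h
      weightEx := weightExC57 K
      cntSum := H69.cntSumC69 K h
      omDecomp := Fermat.Agent.LT.H704.omDecompC704 h
      rowInv := H553.rowInvC553 K h
      borelUnf := Rigid.H290.borelUnfC_of290 K h.adNorm h.locComp (T3.haarScale_closed K h)
      bruhatSum := bruhatSumC57 K
      pRTrans := H389.pRTransC389 K h.adNorm h.locComp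
      pLTrans := H317.plTransC317 K h.adNorm h.locComp
      measIota := H607.measIotaC607 K h.locComp
      iotaCoord := H786.iotaCoordC786 K h.adNorm }

/-- **LEAF T7.14.6a `FoldWhitC`, CLOSED.** -/
theorem foldWhitC_closed57 : Rigid.FoldWhitC K :=
  foldWhitC_of_leaves57 (T1.t1Out K).adNorm (foldLeaves_closed57 K)

end Fermat.Agent.LT.T7.H57

end
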