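import Mathlib
import Fermat.Agent.LT.T7.H893.SupplyConstrSpec
import Fermat.Agent.LT.T7.H298.MatchQGlue
import Fermat.Agent.LT.T7.H732.SupplyQRamClosed

/-!
# Row LT, tower T7, node T7.L2Q.1.H2 `ConstrQRC732` (registry row 2465, owner helper57):
# THE CONSTRUCTION OVER `ℚ` -- FIRST CUT, Spec (mirror of the fifth cut of helper893)

OFF-MAIN.  Definitions and frozen Props only (the proved tops are `ConstrQTop.lean`).  No hole,
nothing assumed.  ADDITIVE (new names only, all suffixed `57`, namespace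
`Fermat.Agent.LT.T7.CQ57`).  Vocabulary, byte-identical copies: `T7/H732/SupplyQ*.lean`
(helper732@665576b5b: `L2QPre732`, `IsL2QPreOp732`, `IsL2QPreSupp732`, `GlobQC732`,
`ConstrQRC732`), `T7/H298/MatchQ{Spec,Top,Glue}.lean` (helper298@d75774dd1: `pureQ298`,
`LocHypQ298`, `IsMatchConstQ298`, `GlobMatchQC298`), `T7/H893/SupplyConstrSpec.lean`
(helper893@d28ac6a7c, sha256 feb0f697: the LOCAL vocabulary `unitFn893`, `iwFn893`, `dblFn893`,
`IsSphFn893`, `satT893`, `IsLevelOf893`, `SphOut893` is REUSED AS IT IS, for `K = ℚ`, `K' = F`).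

    exists_goodKapQ57 : GlobMatchQC298 F → IsImagQuad F → ∃ κ, (κ nowhere zero) ∧ GoodKapQ57 F κ
    globQC_of57       : GoodKapQ57 F κ → AvgMatchQC57 F → H732.GlobQC732 F (MtQ57 F κ)
    constrQRC_of57    : UnramQC57 F → BaseQC57 P F → ProdMtQC57 F κ
                          → H732.ConstrQRC732 P F (MtQ57 F κ)
    preQRC_of_first57 : GlobMatchQC298 F → AvgMatchQC57 F → UnramQC57 F → BaseQC57 P F
                          → (∀ κ nowhere zero, ProdMtQC57 F κ) → EkProdUpOpQC732 F
                          → EkProdDownOpQC732 F → L2Q.H60.PreQRC60 P F            (VERBATIM)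

## 1. The relation of record `MtQ57 κ`

The relation `MQ298.MtQ298` (PURE tensors) is too small for the construction: the
Eisenstein-killing functions of T3 are finite sums of pure tensors and the `♮`-average is an
average over a compact group (helper893, fifth cut, section 1).  The relation of record of the
construction is the closure under AVERAGES over a compact parameter space with a finite measure
(`IsAvgPureQ57`; finite sums are the case of a finite discrete space) of the locally matched pure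
tensors of helper298 (`LocHypQ298`, archimedean clause `T6.IsArchMatch`: the bi-`U(2)`-invariant
component upstairs against the SUM of the components of weight `0` and `-1` downstairs), with
the constant `κ` of the matching theorem downstairs.

* **`AvgMatchQC57 F`** (LEAF, analysis): `T7.IsGlobMatch` is closed under such averages.
* `globQC_of57` (PROVED): `GoodKapQ57 κ → AvgMatchQC57 → GlobQC732 (MtQ57 κ)`;
  `exists_goodKapQ57` (PROVED): `GlobMatchQC298 → ∃ κ` good and nowhere zero.

## 2. The cut of the construction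

* **`UnramQC57 F`** (LEAF, small; algebraic number theory): in a common part of helper60 with
  `3 ∈ S` every place outside `S'` is unramified (`F = ℚ(√-3)`: only `3` ramifies).
* **`BaseQC57 P F`** (NODE; T3 + T3.18R + T6 + `♮`): the level `𝔫`, Haar measures `μr`, `μc` of
  `GL₂(ℝ)`, `GL₂(ℂ)`, and for EVERY constant `a ≠ 0` pre-data `E` of level `𝔫` with the operator
  properties (`IsL2QPreOp732`), the supports (`IsL2QPreSupp732`) and the LOCAL SHAPE
  `IsDecompQ57 μr μc a B g E`: the base functions are averages of pure tensors with explicit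
  local components (unit / Iwahori / double coset of `g` at the places of the level, spherical
  with Satake transforms related by base change outside, `T6.IsArchMatch` at infinity); `a` is
  the constant of `f₂`.
* **`ProdMtQC57 F κ`** (NODE; the calculus of pure tensors): for the level `𝔫` and `μr`, `μc`
  there is a constant `a ≠ 0` such that for all pre-data of this level with the local shape for
  `a` the members `Φ₁ X ⋆ lsum Hg (regL … φ₂)`, `F₁ n X ⋆ regL … (f₂ n)` are in the relation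
  `MtQ57 κ`.

FALSITY CHECKS (helper57).  (a) Types: the convolution of a function of weight `0` with a
function of weight `-1` on `GL₂(ℝ)` vanishes (integrate over `SO(2)`), so
`(F₁ w0 + F₁ w1) ⋆ (f₂ w0 + f₂ w1) = F₁ w0 ⋆ f₂ w0 + F₁ w1 ⋆ f₂ w1`: the sum of the two members
downstairs is the product of the sums, and the archimedean component of the member of type `n`
is the convolution of the components of type `n`.  (b) The constants: as in the cubic cut, all
constants are independent of `X, k, m` and of the parameter and are absorbed in `a`.  (c) The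
ramified place over `3` lies in `S'` (`IsRamQ60` + `under_exact` + `fibre`), so it is a place
of the level: the first pair has UNIT components there, the second pair a pair
(double coset function of `g`, partner) with the clauses of `LocHypQ298` (a place with ONE
place over it; `T6.BadMatchC` is stated for every local extension datum of prime degree,
ramified or not).  (d) `a = 0` is excluded only for convenience.  (e) In `AvgMatchQC57` the
members downstairs are SUMS of two test functions of different types; the leaf uses their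
continuity and the common compact support only.
-/

set_option autoImplicit false

open AutomorphicForm IsDedekindDomain NumberField MeasureTheory
open scoped ComplexConjugate

noncomputable section

namespace Fermat.Agent.LT.T7.CQ57

open Fermat.Agent.LT.H556 Fermat.Agent.LT.H556.A0 Fermat.Agent.LT.T7 Fermat.Agent.LT.T7.L2Q
  Fermat.Agent.LT.T7.H305 Fermat.Agent.LT.T7.H893 Fermat.Agent.LT.T7.H962
  Fermat.Agent.LT.T7.H732 Fermat.Agent.LT.T7.MQ298

attribute [local instance] Fermat.Agent.LT.T5.instMeasurableSpaceG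

/-! ## 1. Averages of pure tensors over `ℚ`, the relation of record -/

section Avg

variable (F : Type) [Field F] [NumberField F]

/-- The type of the local conditions on the components of a pure tensor upstairs and a pair of
pure tensors downstairs (weights `0` and `-1`, the same finite components). -/
abbrev LocCondQ57 : Type :=
  Finset (HeightOneSpectrum (𝓞 ℚ)) →
    (∀ w : HeightOneSpectrum (𝓞 F), GL (Fin 2) (w.adicCompletion F) → ℂ) →
    (InfinitePlace F → GL (Fin 2) ℂ → ℂ) →
    (∀ v : HeightOneSpectrum (𝓞 ℚ), GL (Fin 2) (v.adicCompletion ℚ) → ℂ) →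
    (GL (Fin 2) ℝ → ℂ) → (GL (Fin 2) ℝ → ℂ) → Prop

/-- The type of the constants of the matching theorem over `ℚ`. -/
abbrev KapFnQ57 : Type :=
  CompData ℚ F → @Measure (GL (Fin 2) ℝ) (borel _) → @Measure (GL (Fin 2) ℂ) (borel _) →
    Finset (HeightOneSpectrum (𝓞 ℚ)) → (HeightOneSpectrum (𝓞 F) → ℕ) →
    (HeightOneSpectrum (𝓞 ℚ) → ℕ) → ℂ

variable {F}

/-- **AVERAGE OF PURE TENSORS over `ℚ`.**  `φ'` (over `F`) and `f w0`, `f w1` (over `ℚ`) are the
integrals over a compact (Hausdorff, second countable) parameter space `Ω` with a finite measure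
`ν` of pure tensors `pure305 (T' a) …`, resp. `c · pureQ298 (T a) (f₀ a) (F0 a)` and
`c · pureQ298 (T a) (f₀ a) (F1 a)`, whose components satisfy the local condition `L` for every
parameter; every member is a test function of the level (of the trivial type upstairs, of the
types `w0`, `w1` downstairs), the members are jointly continuous and supported in one compact
set. -/
def IsAvgPureQ57 (𝔑 : Ideal (𝓞 F)) (𝔫 : Ideal (𝓞 ℚ)) (T₀ : Finset (HeightOneSpectrum (𝓞 ℚ)))
    (L : LocCondQ57 F) (c : ℂ) (φ' : G F → ℂ) (f : QWt → G ℚ → ℂ) : Prop :=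
  ∃ (Ω : Type) (_ : TopologicalSpace Ω) (_ : CompactSpace Ω) (_ : T2Space Ω)
    (_ : SecondCountableTopology Ω) (_ : MeasurableSpace Ω)
    (_ : BorelSpace Ω) (ν : Measure Ω) (_ : IsFiniteMeasure ν)
    (T : Ω → Finset (HeightOneSpectrum (𝓞 ℚ))) (T' : Ω → Finset (HeightOneSpectrum (𝓞 F)))
    (φ₀ : Ω → ∀ w : HeightOneSpectrum (𝓞 F), GL (Fin 2) (w.adicCompletion F) → ℂ)
    (Φ : Ω → InfinitePlace F → GL (Fin 2) ℂ → ℂ)
    (f₀ : Ω → ∀ v : HeightOneSpectrum (𝓞 ℚ), GL (Fin 2) (v.adicCompletion ℚ) → ℂ)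
    (F0 F1 : Ω → GL (Fin 2) ℝ → ℂ),
    (∀ a : Ω, T₀ ⊆ T a ∧ IsOver305 (T a) (T' a) ∧
      L (T a) (φ₀ a) (Φ a) (f₀ a) (F0 a) (F1 a)) ∧
    (∀ a : Ω, T5.IsTestFn 𝔑 T5.trivType (pure305 (T' a) (φ₀ a) (Φ a))) ∧
    (∀ a : Ω, T5.IsTestFn 𝔫 QWt.w0.type (fun h => c * pureQ298 (T a) (f₀ a) (F0 a) h)) ∧
    (∀ a : Ω, T5.IsTestFn 𝔫 QWt.w1.type (fun h => c * pureQ298 (T a) (f₀ a) (F1 a) h)) ∧
    Continuous (fun p : Ω × G F => pure305 (T' p.1) (φ₀ p.1) (Φ p.1) p.2) ∧
    Continuous (fun p : Ω × G ℚ => c * pureQ298 (T p.1) (f₀ p.1) (F0 p.1) p.2) ∧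
    Continuous (fun p : Ω × G ℚ => c * pureQ298 (T p.1) (f₀ p.1) (F1 p.1) p.2) ∧
    (∃ C : Set (G F), IsCompact C ∧
      ∀ (a : Ω) (h : G F), pure305 (T' a) (φ₀ a) (Φ a) h ≠ 0 → h ∈ C) ∧
    (∃ C : Set (G ℚ), IsCompact C ∧
      ∀ (a : Ω) (h : G ℚ), pureQ298 (T a) (f₀ a) (F0 a) h ≠ 0 → h ∈ C) ∧
    (∃ C : Set (G ℚ), IsCompact C ∧
      ∀ (a : Ω) (h : G ℚ), pureQ298 (T a) (f₀ a) (F1 a) h ≠ 0 → h ∈ C) ∧
    (∀ h : G F, φ' h = ∫ a, pure305 (T' a) (φ₀ a) (Φ a) h ∂ν) ∧
    (∀ h : G ℚ, f QWt.w0 h = ∫ a, c * pureQ298 (T a) (f₀ a) (F0 a) h ∂ν) ∧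
    ∀ h : G ℚ, f QWt.w1 h = ∫ a, c * pureQ298 (T a) (f₀ a) (F1 a) h ∂ν

variable (F)

/-- **THE RELATION OF RECORD of the construction over `ℚ`**: averages of locally matched pure
tensors (local matching in the form of T6: `MQ298.LocHypQ298`), with the constant `κ` of the
matching theorem downstairs. -/
def MtQ57 (κ : KapFnQ57 F) : MtRelQ732 F := fun B 𝔫 φ' f =>
  ∃ (μr : @Measure (GL (Fin 2) ℝ) (borel _)) (μc : @Measure (GL (Fin 2) ℂ) (borel _))
    (T₀ : Finset (HeightOneSpectrum (𝓞 ℚ)))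
    (n : HeightOneSpectrum (𝓞 F) → ℕ) (m : HeightOneSpectrum (𝓞 ℚ) → ℕ),
    @Measure.IsHaarMeasure _ _ _ (borel _) μr ∧ @Measure.IsHaarMeasure _ _ _ (borel _) μc ∧
      UnramOut305 (K' := F) T₀ ∧ IsLevelAt305 T₀ n m ∧
      IsAvgPureQ57 (upI (K' := F) 𝔫) 𝔫 T₀
        (fun T φ₀ Φ f₀ F0 F1 => LocHypQ298 (B.comp 𝔫) μr μc T n m φ₀ Φ f₀ F0 F1)
        (κ (B.comp 𝔫) μr μc T₀ n m) φ' f

/-- `κ` is a family of constants of the matching theorem over `ℚ` (`GlobMatchQC298` with the
constant chosen). -/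
def GoodKapQ57 (κ : KapFnQ57 F) : Prop :=
  ∀ D : CompData ℚ F, IsCompData D → IsCycExt ℚ F D.l → D.l = 2 →
    ∀ μr : @Measure (GL (Fin 2) ℝ) (borel _), @Measure.IsHaarMeasure _ _ _ (borel _) μr →
    ∀ μc : @Measure (GL (Fin 2) ℂ) (borel _), @Measure.IsHaarMeasure _ _ _ (borel _) μc →
    ∀ (T₀ : Finset (HeightOneSpectrum (𝓞 ℚ))), UnramOut305 (K' := F) T₀ →
    ∀ (n : HeightOneSpectrum (𝓞 F) → ℕ) (m : HeightOneSpectrum (𝓞 ℚ) → ℕ),
      IsLevelAt305 T₀ n m →
      IsMatchConstQ298 F D μr μc T₀ n m (κ D μr μc T₀ n m)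

/-- **LEAF T7.L2Q.1.H1b = AVG-MATCH over `ℚ` (analysis; closure of the matching under
averages).**  Let `(φs a, f0s a + f1s a)`, `a ∈ Ω` (compact, Hausdorff, second countable, finite
measure `ν`), be MATCHED pairs, `φs a` a test function of level `𝔑` upstairs, `f0s a`, `f1s a`
test functions of level `𝔫` and of the types `w0`, `w1` downstairs, jointly continuous in
`(a, h)` and supported in one compact set.  Then the averages are matched:
`∫ φs a dν` against `∫ f0s a dν + ∫ f1s a dν`.
Proof.  As `H893.AvgMatchC893` (mirror): `twTerm` of the average is the average of the `twTerm`s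
(for fixed `x` the sum over the ray is finite, uniformly in `a`); Fubini on `F_δ × Ω`: the
integrand is dominated by `M · twTerm(1_C)`, `C` compact, and the orbital integral of a
non-negative continuous function with compact support at an elliptic (regular) element
converges (`MQ298.UnfoldGC298`, `H305.UnfoldC305`; the kit of helper584
`T7/H584/{Cutoff,UnfoldAbs}.lean`); downstairs the integral of the sum is the sum of the
integrals (both members are integrable).  Only the continuity and the compact supports are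
used. -/
def AvgMatchQC57 : Prop :=
  IsImagQuad F →
    ∀ D : CompData ℚ F, IsCompData D → IsCycExt ℚ F D.l → D.l = 2 →
    ∀ (Ω : Type) (_ : TopologicalSpace Ω) (_ : CompactSpace Ω) (_ : T2Space Ω)
      (_ : SecondCountableTopology Ω) (_ : MeasurableSpace Ω)
      (_ : BorelSpace Ω) (ν : Measure Ω) (_ : IsFiniteMeasure ν)
      (φs : Ω → G F → ℂ) (f0s f1s : Ω → G ℚ → ℂ),
      (∀ a : Ω, T5.IsTestFn D.𝔑 T5.trivType (φs a)) →
      (∀ a : Ω, T5.IsTestFn D.𝔫 QWt.w0.type (f0s a)) →
      (∀ a : Ω, T5.IsTestFn D.𝔫 QWt.w1.type (f1s a)) →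
      Continuous (fun p : Ω × G F => φs p.1 p.2) →
      Continuous (fun p : Ω × G ℚ => f0s p.1 p.2) →
      Continuous (fun p : Ω × G ℚ => f1s p.1 p.2) →
      (∃ C : Set (G F), IsCompact C ∧ ∀ (a : Ω) (h : G F), φs a h ≠ 0 → h ∈ C) →
      (∃ C : Set (G ℚ), IsCompact C ∧ ∀ (a : Ω) (h : G ℚ), f0s a h ≠ 0 → h ∈ C) →
      (∃ C : Set (G ℚ), IsCompact C ∧ ∀ (a : Ω) (h : G ℚ), f1s a h ≠ 0 → h ∈ C) →
      (∀ a : Ω, IsGlobMatch D (φs a) (fun h => f0s a h + f1s a h)) →
      IsGlobMatch D (fun h => ∫ a, φs a h ∂ν)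
        (fun h => (∫ a, f0s a h ∂ν) + ∫ a, f1s a h ∂ν)

end Avg

/-! ## 2. The local shape of the pre-data -/

section Shape

variable {F : Type} [Field F] [NumberField F]

/-- **The components AT INFINITY** (the archimedean clauses of `MQ298.LocHypQ298`): `Φ w` is a
bi-`U(2)`-invariant test function on `GL₂(ℂ)`, `F0` / `F1` a test function of weight `0` / `-1`
on `GL₂(ℝ)`, and `F0 + F1` is matched with `Φ w` (`T6.IsArchMatch`). -/
def ArchOkQ57 (μr : @Measure (GL (Fin 2) ℝ) (borel _)) (μc : @Measure (GL (Fin 2) ℂ) (borel _))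
    (Φ : InfinitePlace F → GL (Fin 2) ℂ → ℂ) (F0 F1 : GL (Fin 2) ℝ → ℂ) : Prop :=
  (∀ w : InfinitePlace F, T6.IsArchTestC (Φ w)) ∧ T6.IsArchTestR 0 F0 ∧
    T6.IsArchTestR (-1) F1 ∧
    ∀ w : InfinitePlace F, T6.IsArchMatch μr μc (Φ w) (fun g => F0 g + F1 g)

/-- **THE LOCAL SHAPE OF THE FIRST PAIR** `(Φ₁ X, F₁ · X)`: UNIT components at the places of the
level, spherical matched components outside (`H893.SphOut893` for `ℓ = 2`), matched components
at infinity. -/
def LocAQ57 (μr : @Measure (GL (Fin 2) ℝ) (borel _)) (μc : @Measure (GL (Fin 2) ℂ) (borel _))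
    (T₀ : Finset (HeightOneSpectrum (𝓞 ℚ)))
    (n : HeightOneSpectrum (𝓞 F) → ℕ) (m : HeightOneSpectrum (𝓞 ℚ) → ℕ) : LocCondQ57 F :=
  fun T φ₀ Φ f₀ F0 F1 =>
    (∀ v ∈ T₀, f₀ v = unitFn893 (m v)) ∧
    (∀ v ∈ T₀, ∀ w : HeightOneSpectrum (𝓞 F), PlaceOver ℚ F v w → φ₀ w = unitFn893 (n w)) ∧
    SphOut893 2 T₀ T φ₀ f₀ ∧ ArchOkQ57 μr μc Φ F0 F1

open Classical in
/-- **THE LOCAL SHAPE OF THE SECOND PAIR** `(φ₂, f₂ ·)` for the bad element `g`.
* bad places `v ∈ T₀`, `v ≠ u` (the ramified place is one of them): upstairs the unit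
  `1_{U₀}` of the BASE level (`n₀`); downstairs a PARTNER of the double coset function
  `1_{U₀ g_w U₀}` (the clauses of `MQ298.LocHypQ298` for the set `T₀ ∖ {u}` and the double
  coset functions upstairs);
* the place `u` and its orbit: the indicator functions of the Iwahori subgroups;
* outside the level and at infinity: as for the first pair. -/
def LocBQ57 (B : L2QBase962 F) (g : G F) (𝔫 : Ideal (𝓞 ℚ))
    (μr : @Measure (GL (Fin 2) ℝ) (borel _)) (μc : @Measure (GL (Fin 2) ℂ) (borel _))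
    (T₀ : Finset (HeightOneSpectrum (𝓞 ℚ)))
    (n n₀ : HeightOneSpectrum (𝓞 F) → ℕ) (m : HeightOneSpectrum (𝓞 ℚ) → ℕ) : LocCondQ57 F :=
  fun T φ₀ Φ f₀ F0 F1 =>
    LocHypQ298 (B.comp 𝔫) μr μc (T₀.erase B.u) n m
      (fun w => dblFn893 (n₀ w) (finGL305 w g)) Φ f₀ F0 F1 ∧
    (∀ v ∈ T₀, v ≠ B.u → ∀ w : HeightOneSpectrum (𝓞 F), PlaceOver ℚ F v w →
      φ₀ w = unitFn893 (n₀ w)) ∧
    f₀ B.u = iwFn893 ∧
    (∀ w : HeightOneSpectrum (𝓞 F), PlaceOver ℚ F B.u w → φ₀ w = iwFn893) ∧
    SphOut893 2 T₀ T φ₀ f₀ ∧ ArchOkQ57 μr μc Φ F0 F1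

/-- **THE LOCAL SHAPE OF THE PRE-DATA over `ℚ`** (for the Haar measures `μr` of `GL₂(ℝ)`, `μc` of
`GL₂(ℂ)` and the constant `a` of `f₂`). -/
def IsDecompQ57 (μr : @Measure (GL (Fin 2) ℝ) (borel _))
    (μc : @Measure (GL (Fin 2) ℂ) (borel _)) (a : ℂ) (B : L2QBase962 F) (g : G F)
    (E : L2QPre732 F) : Prop :=
  ∃ (T₀ : Finset (HeightOneSpectrum (𝓞 ℚ)))
    (n n₀ : HeightOneSpectrum (𝓞 F) → ℕ) (m : HeightOneSpectrum (𝓞 ℚ) → ℕ),
    (∀ v : HeightOneSpectrum (𝓞 ℚ), v ∈ T₀ ↔ v.asIdeal ∣ E.𝔫) ∧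
    IsLevelOf893 E.𝔫 m ∧ IsLevelOf893 (upI (K' := F) E.𝔫) n ∧ IsLevelOf893 B.𝔑₀ n₀ ∧
    (∀ X : List (Gen F), (∀ x ∈ X, x.Out B.S') →
      IsAvgPureQ57 (upI (K' := F) E.𝔫) E.𝔫 T₀ (LocAQ57 μr μc T₀ n m) 1 (E.Φ₁ X)
        (fun t => E.F₁ t X)) ∧
    IsAvgPureQ57 (upI (K' := F) E.𝔫) E.𝔫 T₀ (LocBQ57 B g E.𝔫 μr μc T₀ n n₀ m) a E.φ₂ E.f₂

/-- Every place of `F` outside `S'` is unramified over `ℚ` (mirror of `H893.L2Base.RamIn`). -/
def RamInQ57 (B : L2QBase962 F) : Prop :=
  ∀ (v : HeightOneSpectrum (𝓞 ℚ)) (w : HeightOneSpectrum (𝓞 F)), PlaceOver ℚ F v w →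
    w ∉ B.S' → ∃ x : 𝓞 ℚ, x ∈ v.asIdeal ∧ algebraMap (𝓞 ℚ) (𝓞 F) x ∉ w.asIdeal ^ 2

end Shape

/-! ## 3. The nodes of the first cut -/

section Nodes

variable (P : EKCond)
variable (F : Type) [Field F] [NumberField F]

/-- **LEAF T7.L2Q.1.H2u = UNRAM (small; algebraic number theory).**  In a common part of
helper60 which contains the ramified prime (`3 ∈ S`) every place of `F` outside `S'` is
unramified over `ℚ`.
Proof.  `F = ℚ(√-3)` (`HasSqrtNegThree`, `IsImagQuad`: degree `2`); a prime `p ≠ 3` is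
unramified (for `p` odd the polynomial `X² + 3` is separable mod `p`; for `p = 2` use
`X² + X + 1`, `ζ = (-1 + √-3)/2`; or: the discriminant of the order `ℤ[ζ]` is `-3`); the places
over `3` lie in `S'` (`IsRamQ60`, `IsL2QBase.under_exact`, `IsL2QBase.fibre`:
`L2Q.H60.full_of_isL2QBase60`). -/
def UnramQC57 : Prop :=
  HasSqrtNegThree F → IsImagQuad F →
    ∀ (Φ : HeckeEigensystem F ℂ) (B : L2Q.H60.L2QBase F), L2Q.H60.IsL2QBase Φ B →
      L2Q.H60.IsRamQ60 B → RamInQ57 (toBase962_732 B)

/-- **NODE T7.L2Q.1.H2a = BASE over `ℚ` (T3 + T3.18R + T6 + `♮`; existence).**  For a common part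
of helper60 with `3 ∈ S` and one bad element `g`: a level `𝔫` and Haar measures `μr`, `μc` of
`GL₂(ℝ)`, `GL₂(ℂ)` such that for EVERY constant `a ≠ 0` there are pre-data of level `𝔫` with the
operator properties, the supports and the local shape.
Construction (recipe of the architect helper797, hints 16:31Z / 16:43Z; mirror of
`H893.BaseC`).  `𝔫 = 𝔫₀ ^ d`, `d` so large that the partners `f_v` of `1_{U₀ g_w U₀}` at the bad
places (`T6.BadMatchC`, closed; split bad places: convolution products) are bi-invariant under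
`U(𝔫)_v`.  UPSTAIRS: Eisenstein-killing datum for `𝔑 = 𝔫 𝒪_F` and `S'` from `P = T7.ekMulti`
(`T7.GoodEKM`); `Φ₁ X`: the word `X` applied to the Eisenstein-killing function of T3 (`T3.M`,
closed station: finite sum of `pureFnM`, unit components at the level); `φ₂`: the `♮`-average of
an Eisenstein-killing function.  DOWNSTAIRS: the NORM datum (places under `P'`, exponents
`e_v = ∑_{w ∣ v} f(w|v) e_w`, `α = N_{F/ℚ}(a₀)`), core = push-forward of the core upstairs along
the norm of the coordinate groups (it telescopes again: `EKKillC` / `EKStarC` apply); local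
factors downstairs = the T6-matches of the local factors upstairs (split: convolution product,
`T6.SplitMatchC`; inert: base change, `T6.BCExistsC` + `T6.FundLemmaC`; real place:
`(F0, F1)` = `abelF0_626` / `abelF1_626` of the factor upstairs, `T6.ArchMatchC` closed,
station T3.18R for the Eisenstein-killing property of the types `w0`, `w1`); `f₂ n`: `a` times
the function with the partners at the bad places, the Iwahori function at `u`, the base change
outside, the factor of type `n` at infinity. -/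
def BaseQC57 : Prop :=
  HasSqrtNegThree F → IsImagQuad F →
    ∀ Φ : HeckeEigensystem F ℂ, A0.IsCuspAdelicSph0 F Φ → ConstOnFibresQ Φ → P F Φ →
      ∀ B : L2Q.H60.L2QBase F, L2Q.H60.IsL2QBase Φ B → L2Q.H60.IsRamQ60 B →
      ∀ g : G F, B.IsBad g →
        ∃ (𝔫 : Ideal (𝓞 ℚ)) (μr : @Measure (GL (Fin 2) ℝ) (borel _))
          (μc : @Measure (GL (Fin 2) ℂ) (borel _)),
          @Measure.IsHaarMeasure _ _ _ (borel _) μr ∧
          @Measure.IsHaarMeasure _ _ _ (borel _) μc ∧
          ∀ a : ℂ, a ≠ 0 → ∃ E : L2QPre732 F, E.𝔫 = 𝔫 ∧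
            IsL2QPreOp732 Φ (toBase962_732 B) g E ∧ IsL2QPreSupp732 (toBase962_732 B) E ∧
            IsDecompQ57 μr μc a (toBase962_732 B) g E

/-- **NODE T7.L2Q.1.H2b = PROD-MT over `ℚ` (the calculus of pure tensors).**  For a good common
part outside which `F/ℚ` is unramified, a bad element, a level and Haar measures of `GL₂(ℝ)`,
`GL₂(ℂ)` there is a constant `a ≠ 0` such that for all pre-data of this level with the operator
properties and the local shape for `a` the members of the families are in the relation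
`MtQ57 κ`.
Proof.  Mirror of `H893.ProdMtC`: `conv` of two pure tensors is a constant times the pure tensor
of the local convolutions (splitting of the Haar measure); `lsum Hg`, `ltr`, `iwL` of a pure
tensor with unit / Iwahori components at the level is the pure tensor with the components
`1_{U₀ g_w U₀}`, `q^{-m/2} 1_{z^k I t^m I}`; Fubini for the parameters; the local conditions
`LocHypQ298` of the products: unit times partner at the bad places, `T6.SplitMatchC`-form at `u`
and at the split places, `T6.FundLemmaC` + multiplicativity of the Satake transform at the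
inert places; at infinity the convolution of matched pairs is matched and the products of
different types vanish (falsity check (a) of the header); `UnramOut305 T₀` from `RamInQ57`. -/
def ProdMtQC57 (κ : KapFnQ57 F) : Prop :=
  HasSqrtNegThree F → IsImagQuad F →
    ∀ (Φ : HeckeEigensystem F ℂ) (B : L2QBase962 F), IsL2QBase962 Φ B → RamInQ57 B →
    ∀ g : G F, B.IsBad g →
    ∀ (𝔫 : Ideal (𝓞 ℚ)) (μr : @Measure (GL (Fin 2) ℝ) (borel _))
      (μc : @Measure (GL (Fin 2) ℂ) (borel _)),
      @Measure.IsHaarMeasure _ _ _ (borel _) μr → @Measure.IsHaarMeasure _ _ _ (borel _) μc →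
      ∃ a : ℂ, a ≠ 0 ∧
        ∀ E : L2QPre732 F, E.𝔫 = 𝔫 → IsL2QPreOp732 Φ B g E → IsDecompQ57 μr μc a B g E →
          ∀ (X : List (Gen F)) (k : ℤ) (m : ℕ), (∀ x ∈ X, x.Out B.S') →
            MtQ57 F κ B 𝔫 (E.up B X k m) (fun t => E.down B t X k m)

end Nodes

/-! ## Appendix: the equation lemmas of the definitions of this file are realised HERE -/

theorem eqns_realised_constrQSpec57 : True := by
  have _h0_0 := @IsAvgPureQ57.eq_1
  have _h0_1 := @IsAvgPureQ57.eq_def
  have _h0_2 := @IsAvgPureQ57.eq_unfold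
  have _h1_0 := @MtQ57.eq_1
  have _h1_1 := @MtQ57.eq_def
  have _h1_2 := @MtQ57.eq_unfold
  have _h2_0 := @GoodKapQ57.eq_1
  have _h2_1 := @GoodKapQ57.eq_def
  have _h2_2 := @GoodKapQ57.eq_unfold
  have _h3_0 := @AvgMatchQC57.eq_1
  have _h3_1 := @AvgMatchQC57.eq_def
  have _h3_2 := @AvgMatchQC57.eq_unfold
  have _h4_0 := @ArchOkQ57.eq_1
  have _h4_1 := @ArchOkQ57.eq_def
  have _h4_2 := @ArchOkQ57.eq_unfold
  have _h5_0 := @LocAQ57.eq_1
  have _h5_1 := @LocAQ57.eq_def
  have _h5_2 := @LocAQ57.eq_unfold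
  have _h6_0 := @LocBQ57.eq_1
  have _h6_1 := @LocBQ57.eq_def
  have _h6_2 := @LocBQ57.eq_unfold
  have _h7_0 := @IsDecompQ57.eq_1
  have _h7_1 := @IsDecompQ57.eq_def
  have _h7_2 := @IsDecompQ57.eq_unfold
  have _h8_0 := @RamInQ57.eq_1
  have _h8_1 := @RamInQ57.eq_def
  have _h8_2 := @RamInQ57.eq_unfold
  have _h9_0 := @UnramQC57.eq_1
  have _h9_1 := @UnramQC57.eq_def
  have _h9_2 := @UnramQC57.eq_unfold
  have _h10_0 := @BaseQC57.eq_1
  have _h10_1 := @BaseQC57.eq_def
  have _h10_2 := @BaseQC57.eq_unfold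
  have _h11_0 := @ProdMtQC57.eq_1
  have _h11_1 := @ProdMtQC57.eq_def
  have _h11_2 := @ProdMtQC57.eq_unfold
  trivial

end Fermat.Agent.LT.T7.CQ57

end
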