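import Mathlib
import Fermat.Agent.LT.T7.H57.ConstrQSpec

/-!
# Row LT, tower T7, node T7.L2Q.1.H2a `CQ57.BaseQC57` (registry row 2682, owner helper57):
# THE BASE NODE OF THE CONSTRUCTION OVER `ℚ` -- SECOND CUT, Spec

OFF-MAIN.  Definitions and frozen Props only (the proved top is `BaseQTop.lean`).  No hole,
nothing assumed.  ADDITIVE (new names only, all suffixed `57`, namespace
`Fermat.Agent.LT.T7.CQ57`).

    baseQC_of57 : HaarRC57 → HaarCC57 → DivSetC57 ℚ → LevFnC57 ℚ → LevFnC57 F → SysQC57 F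
                    → Pair1QC57 P F → Pair2QC57 P F → BaseQC57 P F

## The cut: the two pairs are INDEPENDENT

The pre-data `E : H732.L2QPre732 F` consist of
* the level `𝔫` and the coset systems `Hg, H', z', H, z`;
* THE FIRST PAIR `(Φ₁, F₁)` with the scalar `c₁` (the word applied to an Eisenstein-killing
  function; independent of the bad element `g`);
* THE SECOND PAIR `(φ₂, f₂)` with the scalar `c₂` (the `♮`-average; the partners of the double
  coset function of `g` at the bad places fix the level).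
Every field of `H732.IsL2QPreOp732`, `H732.IsL2QPreSupp732`, `CQ57.IsDecompQ57` concerns ONE of
the three groups.  So:

* **`Pair2QC57 P F`** (NODE): for a bad `g` there is a LEVEL `𝔫` (`IsLevQ57`) such that for all
  Haar measures `μr`, `μc`, the level functions `T₀, n, n₀, m` and every constant `a ≠ 0` the
  second pair exists (`IsPair2Q57`: the 12 operator fields of the second pair, `c₂ ≠ 0` on the
  class of `Φ`, the two supports, the local shape `LocBQ57` with the constant `a`).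
* **`Pair1QC57 P F`** (NODE): for EVERY level `𝔫` (`IsLevQ57`), all Haar measures and the level
  functions the first pair exists (`IsPair1Q57`: the 9 operator fields of the first pair,
  `c₁ ≠ 0` on the class of `Φ`, the two supports, the local shape `LocAQ57`).
* **`SysQC57 F`** (LEAF, small; plug of the closed leaves on coset systems, helper704
  `T7/H704/SysExists.lean`, helper567): the coset systems exist.
* **`DivSetC57 K`**, **`LevFnC57 K`** (LEAVES, small, one field): the set of the places which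
  divide a non-zero ideal is finite; a non-zero ideal has a level function (`H893.IsLevelOf893`).
* **`HaarRC57`**, **`HaarCC57`** (LEAVES, closed on the branches: helper336
  `T3/R/H336/HaarR.lean` `inHaarRC336`, helper893 `T3/H893/AS2Group.lean` `haarExists893`):
  `GL₂(ℝ)`, `GL₂(ℂ)` have Haar measures (Borel `σ`-algebra).

FALSITY CHECKS (helper57).  (a) The first pair does not depend on `g`; the level is any level
with `IsLevQ57` (the components of the first pair at the places of the level are UNITS of the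
level, which exist for every level).  (b) `m₀` of the pre-data is free (`fun _ => 0`): no field
of `IsL2QPreOp732`, `IsL2QPreSupp732`, `IsDecompQ57` mentions it.  (c) `n₀` (level function of
the base level `𝔑₀`) occurs in the second pair only.  (d) The scalars `c₁`, `c₂` are fields of
the pair which defines them; `up_ne` is the conjunction of the two non-vanishing statements.
-/

set_option autoImplicit false

open AutomorphicForm IsDedekindDomain NumberField MeasureTheory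
open scoped ComplexConjugate

noncomputable section

namespace Fermat.Agent.LT.T7.CQ57

open Fermat.Agent.LT.H556 Fermat.Agent.LT.H556.A0 Fermat.Agent.LT.T7 Fermat.Agent.LT.T7.L2Q
  Fermat.Agent.LT.T7.H305 Fermat.Agent.LT.T7.H893 Fermat.Agent.LT.T7.H962
  Fermat.Agent.LT.T7.H732 Fermat.Agent.LT.T7.MQ298

attribute [local instance] Fermat.Agent.LT.T5.instMeasurableSpaceG

/-! ## 1. The small leaves -/

/-- **LEAF (closed on the branches): `GL₂(ℝ)` has a Haar measure** (Borel `σ`-algebra). -/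
def HaarRC57 : Prop :=
  ∃ μr : @Measure (GL (Fin 2) ℝ) (borel _), @Measure.IsHaarMeasure _ _ _ (borel _) μr

/-- **LEAF (closed on the branches): `GL₂(ℂ)` has a Haar measure** (Borel `σ`-algebra). -/
def HaarCC57 : Prop :=
  ∃ μc : @Measure (GL (Fin 2) ℂ) (borel _), @Measure.IsHaarMeasure _ _ _ (borel _) μc

section OneField

variable (K : Type) [Field K] [NumberField K]

/-- **LEAF (small, one field): the places which divide a non-zero ideal form a finite set.** -/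
def DivSetC57 : Prop :=
  ∀ 𝔫 : Ideal (𝓞 K), 𝔫 ≠ ⊥ →
    ∃ T₀ : Finset (HeightOneSpectrum (𝓞 K)),
      ∀ v : HeightOneSpectrum (𝓞 K), v ∈ T₀ ↔ v.asIdeal ∣ 𝔫

/-- **LEAF (small, one field): a non-zero ideal has a level function** (`m v` = the exponent of
`v` in `𝔫`; the closure of `𝔫` in `K_v` is the ball of radius `exp (- m v)`). -/
def LevFnC57 : Prop :=
  ∀ 𝔫 : Ideal (𝓞 K), 𝔫 ≠ ⊥ → ∃ m : HeightOneSpectrum (𝓞 K) → ℕ, IsLevelOf893 𝔫 m

end OneField

section Defs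

variable {F : Type} [Field F] [NumberField F]

/-- **`𝔫` IS A LEVEL of the pre-data** for the common part `B` (the four level fields of
`H732.IsL2QPreOp732`). -/
structure IsLevQ57 (B : L2QBase962 F) (𝔫 : Ideal (𝓞 ℚ)) : Prop where
  level_ne : 𝔫 ≠ ⊥
  level_g : upI (K' := F) 𝔫 ≤ B.𝔑₀
  mem_S'_g : ∀ w : HeightOneSpectrum (𝓞 F), w ∈ B.S' ↔ w.asIdeal ∣ upI (K' := F) 𝔫
  u_level : B.u.asIdeal ∣ 𝔫

/-- **THE COSET SYSTEMS of the pre-data** (the five coset fields of `H732.IsL2QPreOp732`). -/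
structure IsSysQ57 (B : L2QBase962 F) (g : G F) (Hg H' : Finset (G F)) (z' : G F)
    (H : Finset (G ℚ)) (z : G ℚ) : Prop where
  sysg : IsDblCosetSystem B.𝔑₀ g Hg
  sys' : IsIwCosetSystem (B.o 0) H'
  unif' : IsScalarUniformizerAt (B.o 0) z'
  sys : IsIwCosetSystem B.u H
  unif : IsScalarUniformizerAt B.u z

/-- **THE PROPERTIES OF THE FIRST PAIR** `(Φ₁, F₁)` with the scalar `c₁`, for the level `𝔫`:
the fields `up1_*`, `dn1_*` of `H732.IsL2QPreOp732` and `H732.IsL2QPreSupp732` (same names, same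
statements), the first half of `up_ne`, and the local shape (`IsAvgPureQ57` with the local
condition `LocAQ57`, constant `1`). -/
structure IsPair1Q57 (Φ : HeckeEigensystem F ℂ) (B : L2QBase962 F) (𝔫 : Ideal (𝓞 ℚ))
    (μr : @Measure (GL (Fin 2) ℝ) (borel _)) (μc : @Measure (GL (Fin 2) ℂ) (borel _))
    (T₀ : Finset (HeightOneSpectrum (𝓞 ℚ)))
    (n : HeightOneSpectrum (𝓞 F) → ℕ) (m : HeightOneSpectrum (𝓞 ℚ) → ℕ)
    (c₁ : EigData F → ℂ) (Φ₁ : List (Gen F) → G F → ℂ)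
    (F₁ : QWt → List (Gen F) → G ℚ → ℂ) : Prop where
  up1_test : ∀ X : List (Gen F), (∀ x ∈ X, x.Out B.S') →
    T5.IsTestFn (upI (K' := F) 𝔫) T5.trivType (Φ₁ X)
  up1_ek : ∀ X : List (Gen F), (∀ x ∈ X, x.Out B.S') →
    T5.IsEK B.R'.μ (Φ₁ X) ∧ T5.IsEK B.R'.μ (T5.adjointFn (Φ₁ X))
  up1_op : ∀ X : List (Gen F), (∀ x ∈ X, x.Out B.S') →
    ∀ (χ : G F → ℂ) (C : EigData F), IsEigFn B.𝔑₀ B.R'.r 2 B.o χ C →
      ∀ x : G F, T5.Rconv B.R'.μ (Φ₁ X) χ x = wordEv X C * c₁ C * χ x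
  up1_ne : ∀ C : EigData F, C.AgreeOut B.S' (eigOf Φ) → c₁ C ≠ 0
  dn1_test : ∀ (t : QWt) (X : List (Gen F)), (∀ x ∈ X, x.Out B.S') →
    T5.IsTestFn 𝔫 t.type (F₁ t X)
  dn1_ek : ∀ (t : QWt) (X : List (Gen F)), (∀ x ∈ X, x.Out B.S') →
    T5.IsEK B.R.μ (F₁ t X) ∧ T5.IsEK B.R.μ (T5.adjointFn (F₁ t X))
  dn1_op : ∀ (t : QWt) (X : List (Gen F)), (∀ x ∈ X, x.Out B.S') →
    ∀ (χ : G ℚ → ℂ) (c : EigData ℚ) (C : EigData F),
      IsEigFnQ t 𝔫 B.R.r B.u χ c → IsBCDataQ t c C B.S →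
      ∀ x : G ℚ, T5.Rconv B.R.μ (F₁ t X) χ x
        = wordEv X C * T5.Rconv B.R.μ (F₁ t []) χ x
  dn1_wfn : ∀ (t : QWt) (ψ : G ℚ → ℂ), IsWFnQ t 𝔫 B.R.r B.u ψ →
    IsWFnQ t 𝔫 B.R.r B.u (T5.Rconv B.R.μ (F₁ t []) ψ)
  dn1_class : ∀ (t : QWt) (ψ : G ℚ → ℂ) (c : EigData ℚ), IsEigFnQ t 𝔫 B.R.r B.u ψ c →
    IsEigFnQ t 𝔫 B.R.r B.u (T5.Rconv B.R.μ (F₁ t []) ψ) c
  dn1_comm : ∀ (t : QWt) (ψ : G ℚ → ℂ), IsWFnQ t 𝔫 B.R.r B.u ψ →
    ∀ (H : Finset (G ℚ)) (z : G ℚ), IsIwCosetSystem B.u H → IsScalarUniformizerAt B.u z →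
      (∀ x : G ℚ, T5.Rconv B.R.μ (F₁ t []) (iwOp B.u H ψ) x
        = iwOp B.u H (T5.Rconv B.R.μ (F₁ t []) ψ) x) ∧
      ∀ (k : ℤ) (x : G ℚ), T5.Rconv B.R.μ (F₁ t []) (shiftOp z k ψ) x
        = shiftOp z k (T5.Rconv B.R.μ (F₁ t []) ψ) x
  up1_supp : ∀ X : List (Gen F), (∀ x ∈ X, x.Out B.S') →
    ∃ C : Set (G F), IsCompact C ∧ T5.H32.IsIwSupported32 2 B.o C (Φ₁ X)
  dn1_supp : ∀ (t : QWt) (X : List (Gen F)), (∀ x ∈ X, x.Out B.S') →
    ∃ C : Set (G ℚ), IsCompact C ∧ T5.H32.IsIwSupported32 1 (fun _ => B.u) C (F₁ t X)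
  shape : ∀ X : List (Gen F), (∀ x ∈ X, x.Out B.S') →
    IsAvgPureQ57 (upI (K' := F) 𝔫) 𝔫 T₀ (LocAQ57 μr μc T₀ n m) 1 (Φ₁ X) (fun t => F₁ t X)

/-- **THE PROPERTIES OF THE SECOND PAIR** `(φ₂, f₂)` with the scalar `c₂`, for the bad element
`g`, the level `𝔫` and the constant `a`: the fields `up2_*`, `dn2_*` of `H732.IsL2QPreOp732` and
`H732.IsL2QPreSupp732` (same names, same statements), the second half of `up_ne`, and the local
shape (`IsAvgPureQ57` with the local condition `LocBQ57`, constant `a`). -/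
structure IsPair2Q57 (Φ : HeckeEigensystem F ℂ) (B : L2QBase962 F) (g : G F) (𝔫 : Ideal (𝓞 ℚ))
    (μr : @Measure (GL (Fin 2) ℝ) (borel _)) (μc : @Measure (GL (Fin 2) ℂ) (borel _))
    (T₀ : Finset (HeightOneSpectrum (𝓞 ℚ)))
    (n n₀ : HeightOneSpectrum (𝓞 F) → ℕ) (m : HeightOneSpectrum (𝓞 ℚ) → ℕ) (a : ℂ)
    (c₂ : EigData F → ℂ) (φ₂ : G F → ℂ) (f₂ : QWt → G ℚ → ℂ) : Prop where
  up2_test : T5.IsTestFn (upI (K' := F) 𝔫) T5.trivType φ₂
  up2_ek : T5.IsEK B.R'.μ φ₂ ∧ T5.IsEK B.R'.μ (T5.adjointFn φ₂)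
  up2_inv : IsUInv B.𝔑₀ 2 B.o φ₂
  up2_op : ∀ (ψ : G F → ℂ) (C : EigData F), IsEigFn B.𝔑₀ B.R'.r 2 B.o ψ C →
    ∀ x : G F, T5.Rconv B.R'.μ φ₂ ψ x = c₂ C * ψ x
  up2_kill : ∀ ψ : G F → ℂ, T5.IsCuspFn (upI (K' := F) 𝔫) T5.trivType B.R'.r ψ →
    (∀ χ : G F → ℂ, IsWFn B.𝔑₀ B.R'.r 2 B.o χ → T5.innerD B.R'.μ B.R'.F ψ χ = 0) →
    ∀ x : G F, T5.Rconv B.R'.μ φ₂ ψ x = 0
  up2_ne : ∀ C : EigData F, C.AgreeOut B.S' (eigOf Φ) → c₂ C ≠ 0
  dn2_test : ∀ t : QWt, T5.IsTestFn 𝔫 t.type (f₂ t)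
  dn2_ek : ∀ t : QWt, T5.IsEK B.R.μ (f₂ t) ∧ T5.IsEK B.R.μ (T5.adjointFn (f₂ t))
  dn2_inv : ∀ t : QWt, IsUInv 𝔫 1 (fun _ => B.u) (f₂ t)
  dn2_wfn : ∀ (t : QWt) (ψ : G ℚ → ℂ), IsWFnQ t 𝔫 B.R.r B.u ψ →
    IsWFnQ t 𝔫 B.R.r B.u (T5.Rconv B.R.μ (f₂ t) ψ)
  dn2_class : ∀ (t : QWt) (ψ : G ℚ → ℂ) (c : EigData ℚ), IsEigFnQ t 𝔫 B.R.r B.u ψ c →
    IsEigFnQ t 𝔫 B.R.r B.u (T5.Rconv B.R.μ (f₂ t) ψ) c
  dn2_comm : ∀ (t : QWt) (ψ : G ℚ → ℂ), IsWFnQ t 𝔫 B.R.r B.u ψ →
    ∀ (H : Finset (G ℚ)) (z : G ℚ), IsIwCosetSystem B.u H → IsScalarUniformizerAt B.u z →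
      (∀ x : G ℚ, T5.Rconv B.R.μ (f₂ t) (iwOp B.u H ψ) x
        = iwOp B.u H (T5.Rconv B.R.μ (f₂ t) ψ) x) ∧
      ∀ (k : ℤ) (x : G ℚ), T5.Rconv B.R.μ (f₂ t) (shiftOp z k ψ) x
        = shiftOp z k (T5.Rconv B.R.μ (f₂ t) ψ) x
  dn2_kill : ∀ (t : QWt) (ψ : G ℚ → ℂ), T5.IsCuspFn 𝔫 t.type B.R.r ψ →
    (∀ χ : G ℚ → ℂ, IsWFnQ t 𝔫 B.R.r B.u χ → T5.innerD B.R.μ B.R.F ψ χ = 0) →
    ∀ x : G ℚ, T5.Rconv B.R.μ (f₂ t) ψ x = 0
  up2_supp : ∃ C : Set (G F), IsCompact C ∧ T5.H32.IsIwSupported32 2 B.o C φ₂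
  dn2_supp : ∀ t : QWt,
    ∃ C : Set (G ℚ), IsCompact C ∧ T5.H32.IsIwSupported32 1 (fun _ => B.u) C (f₂ t)
  shape : IsAvgPureQ57 (upI (K' := F) 𝔫) 𝔫 T₀ (LocBQ57 B g 𝔫 μr μc T₀ n n₀ m) a φ₂ f₂

/-- The level functions of the level `𝔫` and of the base level of `B` (the first four clauses
of `IsDecompQ57`). -/
structure IsLevFnQ57 (B : L2QBase962 F) (𝔫 : Ideal (𝓞 ℚ))
    (T₀ : Finset (HeightOneSpectrum (𝓞 ℚ)))
    (n n₀ : HeightOneSpectrum (𝓞 F) → ℕ) (m : HeightOneSpectrum (𝓞 ℚ) → ℕ) : Prop where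
  div : ∀ v : HeightOneSpectrum (𝓞 ℚ), v ∈ T₀ ↔ v.asIdeal ∣ 𝔫
  lev_dn : IsLevelOf893 𝔫 m
  lev_up : IsLevelOf893 (upI (K' := F) 𝔫) n
  lev_base : IsLevelOf893 B.𝔑₀ n₀

end Defs

/-! ## 2. The nodes and the leaf on the coset systems -/

section Nodes

variable (P : EKCond)
variable (F : Type) [Field F] [NumberField F]

/-- **LEAF T7.L2Q.1.H2a.0 = SYS (small; plug of closed leaves).**  For a good common part and a
bad element the five coset systems of the pre-data exist: a double coset system of `g` for the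
base level, Iwahori coset systems and scalar uniformisers at `o 0` and at `u`.
Proof: the closed leaves of helper704 (`T7/H704/SysExists.lean`: `badSystemExistsC704`,
`iwSystemExistsC704`) / helper567 (row 2372) and the existence of a scalar uniformiser
(`T7/H340/IwKit.lean`). -/
def SysQC57 : Prop :=
  ∀ (Φ : HeckeEigensystem F ℂ) (B : L2QBase962 F), IsL2QBase962 Φ B →
    ∀ g : G F, B.IsBad g →
      ∃ (Hg H' : Finset (G F)) (z' : G F) (H : Finset (G ℚ)) (z : G ℚ),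
        IsSysQ57 B g Hg H' z' H z

/-- **NODE T7.L2Q.1.H2a.1 = PAIR-1 over `ℚ` (the first pair; T3.18M + T3.18R + T6).**  For a
common part of helper60 with `3 ∈ S`, EVERY level `𝔫`, all Haar measures and the level
functions: the first pair `(Φ₁, F₁)` with the scalar `c₁` exists.
Construction (hints of helper797, notes 18148 / 18248).  Datum `(P', e', a₀)` of `GoodEKM F Φ`
for the level `𝔫 𝒪_F` and `S'`; core `Φ'` of `T3.M.EKCoreC` (telescoping, Fourier transform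
`≠ 0` at the parameters of `Φ`); `Φ₁ []` := the member of `T3.M.pairSpanM` over `Φ'`
(`T3.M.pairExistM_c`, `T3.M.ekOfPairM_c`: test function, EK, EK adjoint, supported at
`P' ∪ S_∞`, operator scalars); `Φ₁ X` := the Hecke operators and the sphere means of the word
applied to the local factors of `Φ₁ []` at the places of `X` (again a member of the span: the
core is multiplied by the Satake polynomials, which telescopes again).  Downstairs the NORM
datum `(P, e, N a₀)`, the push-forward core, local factors = T6-matches of the local factors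
upstairs (`T6.SplitMatchC` convolution product, `T6.BCExistsC` + `T6.FundLemmaC` base change,
`T6.ArchMatchC` at the real place), which are Satake / Abel pairs of T3.18R by the bridge
leaves B1, B2, `SatakeInjC` (note 18248); `T3.R.ekOfPairR_c` gives `dn1_test`, `dn1_ek` and the
operator scalars, whence `dn1_op`, `dn1_wfn`, `dn1_class`, `dn1_comm` (the function is a unit
at the places of the level). -/
def Pair1QC57 : Prop :=
  HasSqrtNegThree F → IsImagQuad F →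
    ∀ Φ : HeckeEigensystem F ℂ, A0.IsCuspAdelicSph0 F Φ → ConstOnFibresQ Φ → P F Φ →
      ∀ B : L2Q.H60.L2QBase F, L2Q.H60.IsL2QBase Φ B → L2Q.H60.IsRamQ60 B →
      ∀ 𝔫 : Ideal (𝓞 ℚ), IsLevQ57 (toBase962_732 B) 𝔫 →
      ∀ (μr : @Measure (GL (Fin 2) ℝ) (borel _)) (μc : @Measure (GL (Fin 2) ℂ) (borel _)),
        @Measure.IsHaarMeasure _ _ _ (borel _) μr →
        @Measure.IsHaarMeasure _ _ _ (borel _) μc →
      ∀ (T₀ : Finset (HeightOneSpectrum (𝓞 ℚ)))
        (n n₀ : HeightOneSpectrum (𝓞 F) → ℕ) (m : HeightOneSpectrum (𝓞 ℚ) → ℕ),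
        IsLevFnQ57 (toBase962_732 B) 𝔫 T₀ n n₀ m →
        ∃ (c₁ : EigData F → ℂ) (Φ₁ : List (Gen F) → G F → ℂ)
          (F₁ : QWt → List (Gen F) → G ℚ → ℂ),
          IsPair1Q57 Φ (toBase962_732 B) 𝔫 μr μc T₀ n m c₁ Φ₁ F₁

/-- **NODE T7.L2Q.1.H2a.2 = PAIR-2 over `ℚ` (the second pair; T3.18M + T3.18R + T6 + `♮`).**  For
a common part of helper60 with `3 ∈ S` and a bad element `g` there is a LEVEL `𝔫` such that for
all Haar measures, the level functions and every constant `a ≠ 0` the second pair `(φ₂, f₂)`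
with the scalar `c₂` exists.
Construction.  `𝔫 = 𝔫₀ ^ d` (`𝔫₀` the base level downstairs, `IsL2QBase.base_level`), `d` so
large that the partners `f_v` of `1_{U₀ g_w U₀}` at the bad places `v ≠ u` (`T6.BadMatchC`,
closed, at the places with one place over them, the ramified place included; at the split bad
places the convolution product) are bi-invariant under `U(𝔫)_v`.  `φ₂` := the `♮`-average
(finite group `U(𝔑₀) / U(𝔫 𝒪_F)` and the compact torus of the positive scalars at infinity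
modulo the ray: kit of helper40, `T7/H40/ProjClosed.lean`) of an Eisenstein-killing function
as in PAIR-1; `f₂ t` := `a` times the average of the pure tensors with the partners at the bad
places, the Iwahori function at `u`, the T6-matches outside the level and the factor of type
`t` at infinity. -/
def Pair2QC57 : Prop :=
  HasSqrtNegThree F → IsImagQuad F →
    ∀ Φ : HeckeEigensystem F ℂ, A0.IsCuspAdelicSph0 F Φ → ConstOnFibresQ Φ → P F Φ →
      ∀ B : L2Q.H60.L2QBase F, L2Q.H60.IsL2QBase Φ B → L2Q.H60.IsRamQ60 B →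
      ∀ g : G F, B.IsBad g →
      ∃ 𝔫 : Ideal (𝓞 ℚ), IsLevQ57 (toBase962_732 B) 𝔫 ∧
        ∀ (μr : @Measure (GL (Fin 2) ℝ) (borel _)) (μc : @Measure (GL (Fin 2) ℂ) (borel _)),
          @Measure.IsHaarMeasure _ _ _ (borel _) μr →
          @Measure.IsHaarMeasure _ _ _ (borel _) μc →
        ∀ (T₀ : Finset (HeightOneSpectrum (𝓞 ℚ)))
          (n n₀ : HeightOneSpectrum (𝓞 F) → ℕ) (m : HeightOneSpectrum (𝓞 ℚ) → ℕ),
          IsLevFnQ57 (toBase962_732 B) 𝔫 T₀ n n₀ m →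
          ∀ a : ℂ, a ≠ 0 →
            ∃ (c₂ : EigData F → ℂ) (φ₂ : G F → ℂ) (f₂ : QWt → G ℚ → ℂ),
              IsPair2Q57 Φ (toBase962_732 B) g 𝔫 μr μc T₀ n n₀ m a c₂ φ₂ f₂

end Nodes

/-! ## Appendix: the equation lemmas of the definitions of this file are realised HERE -/

theorem eqns_realised_baseQSpec57 : True := by
  have _h0_0 := @HaarRC57.eq_1
  have _h0_1 := @HaarRC57.eq_def
  have _h0_2 := @HaarRC57.eq_unfold
  have _h1_0 := @HaarCC57.eq_1
  have _h1_1 := @HaarCC57.eq_def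
  have _h1_2 := @HaarCC57.eq_unfold
  have _h2_0 := @DivSetC57.eq_1
  have _h2_1 := @DivSetC57.eq_def
  have _h2_2 := @DivSetC57.eq_unfold
  have _h3_0 := @LevFnC57.eq_1
  have _h3_1 := @LevFnC57.eq_def
  have _h3_2 := @LevFnC57.eq_unfold
  have _h4_0 := @SysQC57.eq_1
  have _h4_1 := @SysQC57.eq_def
  have _h4_2 := @SysQC57.eq_unfold
  have _h5_0 := @Pair1QC57.eq_1
  have _h5_1 := @Pair1QC57.eq_def
  have _h5_2 := @Pair1QC57.eq_unfold
  have _h6_0 := @Pair2QC57.eq_1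
  have _h6_1 := @Pair2QC57.eq_def
  have _h6_2 := @Pair2QC57.eq_unfold
  trivial

end Fermat.Agent.LT.T7.CQ57

end
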