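import Mathlib
import Fermat.Agent.LT.T7.Q797.BaseCutSpec
import Fermat.Agent.LT.T7.H893.SupplyConstrSpec2
import Fermat.Agent.LT.T7.H193.NatTools

/-!
# Row LT, tower T7, node T7.L2.1.H2a.B `Q797.PairBC797` (registry row 2729, owner helper57):
# THE SECOND PAIR OF THE CONSTRUCTION (cubic step) -- FIRST CUT, Spec

OFF-MAIN.  Definitions and frozen Props only (the proved top is `PairBTop.lean`).  No hole,
nothing assumed.  ADDITIVE (new names only, all suffixed `57`, namespace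
`Fermat.Agent.LT.T7.PB57`).  Vocabulary, byte-identical copies: `T7/Q797/BaseCutSpec.lean`
(helper797@4f9416c19, e87d7ea9: `IsLevel797`, `IsExp797`, `IsPairB797`, `PairBC797`,
`ShapeB797`), `T7/H893/SupplyConstrSpec{,2}.lean` (helper893: `IsAvgPure`, `LocB893`,
`LocB893b`), `T7/H193/{KillSpec,ProjSpec,NatMatchSpec,NatTools}.lean` (helper193@7caaca6e8:
`nat193`, `IsTorusData`, `IsRelTorus`, `RelTorusC`, `IsBiHInv`, `killing_of_torus193`,
`nat_eq_push193`).

    pairBC_of57 : H193.RelTorusC K K' → PreBC57 P K K' LB → NatUpC57 K K' LB → NatDnC57 K K' LB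
                    → NatShapeC57 K K' LB → Q797.PairBC797 P K K' LB        (for EVERY shape `LB`)

## The cut: THE NATURAL AVERAGE IS SPLIT OFF

The second pair is a pair of ARCHIMEDEAN TORUS MEANS (`up2_kill` / `dn2_kill` force it:
`H193/NatMatchSpec.lean`): `φ₂ = nat193 a' D' φ°`, `f₂ = nat193 a D f°` for COMPATIBLE torus data
(`H193.IsRelTorus`) and an UN-AVERAGED pair `(φ°, f°)`.

* **`PreBC57 P K K' LB`** (NODE = the un-averaged pair; T3 explicit forms + T6): a level `𝔫`, a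
  Haar measure `μc`, and for the exponents and every constant `a ≠ 0` a scalar `c₂` and a pair
  `(φ°, f°)` with `IsPreB57`: test functions, Eisenstein-killing with Eisenstein-killing
  adjoints, BI-invariant under `U(𝔑₀)` and the Iwahori subgroups along the orbit
  (`H193.IsBiHInv`; downstairs: level `𝔫`, the place `u`), the operator scalar `c₂ ≠ 0` upstairs,
  the three operator properties downstairs (`dn_wfn`, `dn_class`, `dn_comm`), the supports, and
  THE SHAPE `IsAvgPure … (LB …) a φ° f°` (finite sums of pure tensors are the case of a finite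
  discrete parameter space).  NO killing property.
* **`H193.RelTorusC K K'`** (station REL-TORUS of helper193): compatible torus data exist.
* **`NatUpC57`**, **`NatDnC57`** (LEAVES, [M]; plugs of the CLOSED tool
  `H193.killing_of_torus193` + small lemmas): the torus means of the un-averaged pair have the
  properties `up2_*`, resp. `dn2_*`, of `Q797.IsPairB797`.  Small lemmas: `IsTorusData` is
  monotone in the level (`upI 𝔫 ≤ 𝔑₀`); `IsBiHInv ⇒ H893.IsUInv`; `R(nat φ) ψ = R(φ) ψ` for `ψ`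
  invariant under the positive scalars at infinity (fifth clause of the tool; `iwOp`, `shiftOp`
  preserve this invariance and the continuity); the support of a torus mean is contained in
  `supp φ · a(closure D)` and the Iwahori condition along the orbit is not changed by elements
  which are trivial at the finite places.
* **`NatShapeC57 K K' LB`** (LEAF, [L]; Fubini + `H193.nat_eq_push193`): the torus means of an
  average of pure tensors with the local condition `LB` are an average of pure tensors with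
  the local condition `LB` (parameter space `Ω × closure D'`; the translate of a pure tensor by
  `a' t'` is the pure tensor with the archimedean components translated by `exp (t' w)`,
  downstairs by `exp ((N t') v)`; the convolution commutes with central translations).  TO BE
  PROVED for the shapes of record `LB = H893.LocB893b` (v2) and `H893.LocB893` (v1).

FALSITY CHECKS (helper57).  (a) The scalar `c₂` of `nat193 a' D' φ°` on the invariant
eigenfunctions is the scalar of `φ°` (the eigenfunctions are invariant under the positive scalars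
at infinity: `IsWFn.arch_scalar`).  (b) The constant `a` is a constant of the un-averaged pair
(`f° = ∫ a · pure …`); the torus mean is linear.  (c) `NatShapeC57` is FALSE for a general `LB`
(`LB` has to be stable under the central translations at infinity); it is a Prop with the
parameter `LB` and is proved for the shapes of record only.  (d) Downstairs the tool is used
with `𝔑 = 𝔑₀ = 𝔫`, `l = 1`, orbit `(u)`; upstairs with `𝔑 = 𝔫 𝒪_{K'} ≤ 𝔑₀`, `l = ℓ`, orbit `o`.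
(e) `T1.T1Out` (hypothesis of the tool) is closed for every number field; the leaves
`NatUpC57`, `NatDnC57` discharge it.
-/

set_option autoImplicit false

open AutomorphicForm IsDedekindDomain NumberField MeasureTheory
open scoped ComplexConjugate

noncomputable section

namespace Fermat.Agent.LT.T7.PB57

open Fermat.Agent.LT.H556 Fermat.Agent.LT.H556.A0 Fermat.Agent.LT.T7
open Fermat.Agent.LT.T7.H893 Fermat.Agent.LT.T7.H305 Fermat.Agent.LT.T7.Q797

attribute [local instance] Fermat.Agent.LT.T5.instMeasurableSpaceG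

section Defs

variable {K K' : Type} [Field K] [NumberField K] [Field K'] [NumberField K'] [Algebra K K']

/-- **THE PROPERTIES OF THE UN-AVERAGED SECOND PAIR** `(φ°, f°)` with the scalar `c₂` and the
constant `a`.  See the header. -/
structure IsPreB57 (LB : ShapeB797 K K') (ℓ : ℕ) (Φ : HeckeEigensystem K' ℂ)
    (B : L2Base K K') (g : G K') (𝔫 : Ideal (𝓞 K))
    (μc : @Measure (GL (Fin 2) ℂ) (borel _)) (T₀ : Finset (HeightOneSpectrum (𝓞 K)))
    (n n₀ : HeightOneSpectrum (𝓞 K') → ℕ) (m : HeightOneSpectrum (𝓞 K) → ℕ) (a : ℂ)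
    (c₂ : EigData K' → ℂ) (φ₀ : G K' → ℂ) (f₀ : G K → ℂ) : Prop where
  up_test : T5.IsTestFn (upI (K' := K') 𝔫) T5.trivType φ₀
  up_ek : T5.IsEK B.R'.μ φ₀ ∧ T5.IsEK B.R'.μ (T5.adjointFn φ₀)
  up_inv : H193.IsBiHInv B.𝔑₀ ℓ B.o φ₀
  up_op : ∀ (ψ : G K' → ℂ) (C : EigData K'), IsEigFn B.𝔑₀ B.R'.r ℓ B.o ψ C →
    ∀ x : G K', T5.Rconv B.R'.μ φ₀ ψ x = c₂ C * ψ x
  up_ne : ∀ C : EigData K', C.AgreeOut B.S' (eigOf Φ) → c₂ C ≠ 0
  dn_test : T5.IsTestFn 𝔫 T5.trivType f₀
  dn_ek : T5.IsEK B.R.μ f₀ ∧ T5.IsEK B.R.μ (T5.adjointFn f₀)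
  dn_inv : H193.IsBiHInv 𝔫 1 (fun _ => B.u) f₀
  dn_wfn : ∀ ψ : G K → ℂ, IsWFn 𝔫 B.R.r 1 (fun _ => B.u) ψ →
    IsWFn 𝔫 B.R.r 1 (fun _ => B.u) (T5.Rconv B.R.μ f₀ ψ)
  dn_class : ∀ (ψ : G K → ℂ) (c : EigData K), IsEigFn 𝔫 B.R.r 1 (fun _ => B.u) ψ c →
    IsEigFn 𝔫 B.R.r 1 (fun _ => B.u) (T5.Rconv B.R.μ f₀ ψ) c
  dn_comm : ∀ ψ : G K → ℂ, IsWFn 𝔫 B.R.r 1 (fun _ => B.u) ψ →
    ∀ (H : Finset (G K)) (z : G K), IsIwCosetSystem B.u H → IsScalarUniformizerAt B.u z →
      (∀ x : G K, T5.Rconv B.R.μ f₀ (iwOp B.u H ψ) x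
        = iwOp B.u H (T5.Rconv B.R.μ f₀ ψ) x) ∧
      ∀ (k : ℤ) (x : G K), T5.Rconv B.R.μ f₀ (shiftOp z k ψ) x
        = shiftOp z k (T5.Rconv B.R.μ f₀ ψ) x
  up_supp : ∃ C : Set (G K'), IsCompact C ∧ T5.H32.IsIwSupported32 ℓ B.o C φ₀
  dn_supp : ∃ C : Set (G K), IsCompact C ∧ T5.H32.IsIwSupported32 1 (fun _ => B.u) C f₀
  /-- the local shape: averages of pure tensors with the local condition `LB`, constant `a` -/
  shape : IsAvgPure (upI (K' := K') 𝔫) 𝔫 T₀ (LB B g 𝔫 μc T₀ n n₀ m) a φ₀ f₀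

/-- The fields `up2_*` of `Q797.IsPairB797` (the part upstairs of the second pair). -/
structure IsPairBUp57 (ℓ : ℕ) (Φ : HeckeEigensystem K' ℂ) (B : L2Base K K') (𝔫 : Ideal (𝓞 K))
    (c₂ : EigData K' → ℂ) (φ₂ : G K' → ℂ) : Prop where
  up2_test : T5.IsTestFn (upI (K' := K') 𝔫) T5.trivType φ₂
  up2_ek : T5.IsEK B.R'.μ φ₂ ∧ T5.IsEK B.R'.μ (T5.adjointFn φ₂)
  up2_inv : IsUInv B.𝔑₀ ℓ B.o φ₂
  up2_op : ∀ (ψ : G K' → ℂ) (C : EigData K'), IsEigFn B.𝔑₀ B.R'.r ℓ B.o ψ C →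
    ∀ x : G K', T5.Rconv B.R'.μ φ₂ ψ x = c₂ C * ψ x
  up2_kill : ∀ ψ : G K' → ℂ, T5.IsCuspFn (upI (K' := K') 𝔫) T5.trivType B.R'.r ψ →
    (∀ χ : G K' → ℂ, IsWFn B.𝔑₀ B.R'.r ℓ B.o χ → T5.innerD B.R'.μ B.R'.F ψ χ = 0) →
    ∀ x : G K', T5.Rconv B.R'.μ φ₂ ψ x = 0
  up2_ne : ∀ C : EigData K', C.AgreeOut B.S' (eigOf Φ) → c₂ C ≠ 0
  up2_supp : ∃ C : Set (G K'), IsCompact C ∧ T5.H32.IsIwSupported32 ℓ B.o C φ₂

/-- The fields `dn2_*` of `Q797.IsPairB797` (the part downstairs of the second pair). -/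
structure IsPairBDn57 (B : L2Base K K') (𝔫 : Ideal (𝓞 K)) (f₂ : G K → ℂ) : Prop where
  dn2_test : T5.IsTestFn 𝔫 T5.trivType f₂
  dn2_ek : T5.IsEK B.R.μ f₂ ∧ T5.IsEK B.R.μ (T5.adjointFn f₂)
  dn2_inv : IsUInv 𝔫 1 (fun _ => B.u) f₂
  dn2_wfn : ∀ ψ : G K → ℂ, IsWFn 𝔫 B.R.r 1 (fun _ => B.u) ψ →
    IsWFn 𝔫 B.R.r 1 (fun _ => B.u) (T5.Rconv B.R.μ f₂ ψ)
  dn2_class : ∀ (ψ : G K → ℂ) (c : EigData K), IsEigFn 𝔫 B.R.r 1 (fun _ => B.u) ψ c →
    IsEigFn 𝔫 B.R.r 1 (fun _ => B.u) (T5.Rconv B.R.μ f₂ ψ) c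
  dn2_comm : ∀ ψ : G K → ℂ, IsWFn 𝔫 B.R.r 1 (fun _ => B.u) ψ →
    ∀ (H : Finset (G K)) (z : G K), IsIwCosetSystem B.u H → IsScalarUniformizerAt B.u z →
      (∀ x : G K, T5.Rconv B.R.μ f₂ (iwOp B.u H ψ) x
        = iwOp B.u H (T5.Rconv B.R.μ f₂ ψ) x) ∧
      ∀ (k : ℤ) (x : G K), T5.Rconv B.R.μ f₂ (shiftOp z k ψ) x
        = shiftOp z k (T5.Rconv B.R.μ f₂ ψ) x
  dn2_kill : ∀ ψ : G K → ℂ, T5.IsCuspFn 𝔫 T5.trivType B.R.r ψ →
    (∀ χ : G K → ℂ, IsWFn 𝔫 B.R.r 1 (fun _ => B.u) χ → T5.innerD B.R.μ B.R.F ψ χ = 0) →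
    ∀ x : G K, T5.Rconv B.R.μ f₂ ψ x = 0
  dn2_supp : ∃ C : Set (G K), IsCompact C ∧ T5.H32.IsIwSupported32 1 (fun _ => B.u) C f₂

end Defs

section Nodes

variable (P : EKCond)
variable (K K' : Type) [Field K] [NumberField K] [Field K'] [NumberField K'] [Algebra K K']

/-- **NODE PB.0 = PRE-B (the UN-AVERAGED second pair; T3 explicit forms + T6).**  For a common
part which contains the ramified places and a bad element `g`: a level `𝔫` with the level
properties and a Haar measure `μc` of `GL₂(ℂ)` such that for the exponents of the level and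
EVERY constant `a ≠ 0` there are a scalar `c₂` and a pair `(φ°, f°)` with `IsPreB57`.
Construction.  `𝔫 = 𝔫₀ ^ d`, `d` so large that the partners of the double coset functions
`1_{U₀ g_w U₀}` at the bad places (`T6.BadMatchC`; split bad places: convolution products in
the order of ONE `σ`-ordered enumeration of the fibre) are bi-invariant under `U(𝔫)_v`.
Upstairs: datum `(P', e', a₀)` of `T7.GoodEKM K' Φ` for the level `𝔫 𝒪_{K'}` and `S'`; core of
`T3.M.EKCoreC`; `φ°` = the member of `T3.M.pairSpanMS` over the core for the BASE level `𝔑₀`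
(`T3.M.pairExistM_c`, `T3.M.ekOfPairM_c`: test function, EK, EK adjoint, supported at
`P' ∪ S_∞`, scalar `κ₀ Φ^(z₁, z₂) ≠ 0` at the parameters of `Φ`), summed over the right
translates by `I_o / U(𝔑₀)_o` along the orbit (Iwahori components; EK is stable under
translates and finite sums: `T5/H32/EKIdeal.lean`).  Downstairs: the norm datum, the
push-forward core, local factors = the T6-matches of the local factors upstairs (bridges of
helper474, `T7/H474/SphBridge2.lean`: `bcPair474`, `splitPair474`; at infinity `convL305 μc`),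
the partner at the bad places as a finite combination of two-sided translates of the unit, the
Iwahori function at `u`; `f°` is multiplied by `a`.  `dn_wfn`, `dn_class`, `dn_comm`: `f°` is
bi-invariant under `U(𝔫)` and the Iwahori subgroup at `u`, and a finite sum of pure tensors
whose components outside the bad places are spherical (they commute with the Hecke operators
outside the level and the sphere means). -/
def PreBC57 (LB : ShapeB797 K K') : Prop :=
  ∀ ℓ : ℕ, IsCycExt K K' ℓ → ℓ ≠ 2 → TotCplx K →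
    ∀ Φ : HeckeEigensystem K' ℂ, A0.IsCuspAdelicSph0 K' Φ → ConstOnFibres K Φ → P K' Φ →
      ∀ B : L2Base K K', IsL2Base ℓ Φ B → B.RamIn → ∀ g : G K', B.IsBad g →
        ∃ (𝔫 : Ideal (𝓞 K)) (μc : @Measure (GL (Fin 2) ℂ) (borel _)),
          IsLevel797 B 𝔫 ∧ @Measure.IsHaarMeasure _ _ _ (borel _) μc ∧
          ∀ (T₀ : Finset (HeightOneSpectrum (𝓞 K)))
            (n n₀ : HeightOneSpectrum (𝓞 K') → ℕ) (m : HeightOneSpectrum (𝓞 K) → ℕ),
            IsExp797 B 𝔫 T₀ n n₀ m →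
            ∀ a : ℂ, a ≠ 0 →
              ∃ (c₂ : EigData K' → ℂ) (φ₀ : G K' → ℂ) (f₀ : G K → ℂ),
                IsPreB57 LB ℓ Φ B g 𝔫 μc T₀ n n₀ m a c₂ φ₀ f₀

/-- **LEAF PB.1 = NAT-UP ([M]; plug of `H193.killing_of_torus193`).**  The torus mean upstairs
of the un-averaged pair has the properties `up2_*` of the second pair. -/
def NatUpC57 (LB : ShapeB797 K K') : Prop :=
  ∀ (ℓ : ℕ) (Φ : HeckeEigensystem K' ℂ) (B : L2Base K K'), IsCycExt K K' ℓ → IsL2Base ℓ Φ B →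
    ∀ (g : G K') (𝔫 : Ideal (𝓞 K)), IsLevel797 B 𝔫 →
    ∀ (μc : @Measure (GL (Fin 2) ℂ) (borel _)) (T₀ : Finset (HeightOneSpectrum (𝓞 K)))
      (n n₀ : HeightOneSpectrum (𝓞 K') → ℕ) (m : HeightOneSpectrum (𝓞 K) → ℕ) (a : ℂ)
      (c₂ : EigData K' → ℂ) (φ₀ : G K' → ℂ) (f₀ : G K → ℂ),
      IsPreB57 LB ℓ Φ B g 𝔫 μc T₀ n n₀ m a c₂ φ₀ f₀ →
    ∀ (aT : (InfinitePlace K → ℝ) → G K) (D : Set (InfinitePlace K → ℝ))
      (aT' : (InfinitePlace K' → ℝ) → G K') (D' : Set (InfinitePlace K' → ℝ)),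
      H193.IsRelTorus 𝔫 B.R.r B.R'.r aT D aT' D' →
      IsPairBUp57 ℓ Φ B 𝔫 c₂ (H193.nat193 aT' D' φ₀)

/-- **LEAF PB.2 = NAT-DOWN ([M]; plug of `H193.killing_of_torus193`).**  The torus mean
downstairs of the un-averaged pair has the properties `dn2_*` of the second pair. -/
def NatDnC57 (LB : ShapeB797 K K') : Prop :=
  ∀ (ℓ : ℕ) (Φ : HeckeEigensystem K' ℂ) (B : L2Base K K'), IsCycExt K K' ℓ → IsL2Base ℓ Φ B →
    ∀ (g : G K') (𝔫 : Ideal (𝓞 K)), IsLevel797 B 𝔫 →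
    ∀ (μc : @Measure (GL (Fin 2) ℂ) (borel _)) (T₀ : Finset (HeightOneSpectrum (𝓞 K)))
      (n n₀ : HeightOneSpectrum (𝓞 K') → ℕ) (m : HeightOneSpectrum (𝓞 K) → ℕ) (a : ℂ)
      (c₂ : EigData K' → ℂ) (φ₀ : G K' → ℂ) (f₀ : G K → ℂ),
      IsPreB57 LB ℓ Φ B g 𝔫 μc T₀ n n₀ m a c₂ φ₀ f₀ →
    ∀ (aT : (InfinitePlace K → ℝ) → G K) (D : Set (InfinitePlace K → ℝ))
      (aT' : (InfinitePlace K' → ℝ) → G K') (D' : Set (InfinitePlace K' → ℝ)),
      H193.IsRelTorus 𝔫 B.R.r B.R'.r aT D aT' D' →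
      IsPairBDn57 B 𝔫 (H193.nat193 aT D f₀)

/-- **LEAF PB.3 = NAT-SHAPE ([L]; Fubini + `H193.nat_eq_push193`).**  The torus means of the
un-averaged pair are an average of pure tensors with the local condition `LB`, constant `a`.
TO BE PROVED for `LB = H893.LocB893b` (shape of record, v2) and `LB = H893.LocB893` (v1). -/
def NatShapeC57 (LB : ShapeB797 K K') : Prop :=
  ∀ (ℓ : ℕ) (Φ : HeckeEigensystem K' ℂ) (B : L2Base K K'), IsCycExt K K' ℓ → TotCplx K →
    IsL2Base ℓ Φ B →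
    ∀ (g : G K') (𝔫 : Ideal (𝓞 K)), IsLevel797 B 𝔫 →
    ∀ (μc : @Measure (GL (Fin 2) ℂ) (borel _)), @Measure.IsHaarMeasure _ _ _ (borel _) μc →
    ∀ (T₀ : Finset (HeightOneSpectrum (𝓞 K)))
      (n n₀ : HeightOneSpectrum (𝓞 K') → ℕ) (m : HeightOneSpectrum (𝓞 K) → ℕ),
      IsExp797 B 𝔫 T₀ n n₀ m →
    ∀ (a : ℂ) (c₂ : EigData K' → ℂ) (φ₀ : G K' → ℂ) (f₀ : G K → ℂ),
      IsPreB57 LB ℓ Φ B g 𝔫 μc T₀ n n₀ m a c₂ φ₀ f₀ →
    ∀ (aT : (InfinitePlace K → ℝ) → G K) (D : Set (InfinitePlace K → ℝ))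
      (aT' : (InfinitePlace K' → ℝ) → G K') (D' : Set (InfinitePlace K' → ℝ)),
      H193.IsRelTorus 𝔫 B.R.r B.R'.r aT D aT' D' →
      IsAvgPure (upI (K' := K') 𝔫) 𝔫 T₀ (LB B g 𝔫 μc T₀ n n₀ m) a
        (H193.nat193 aT' D' φ₀) (H193.nat193 aT D f₀)

end Nodes

/-! ## Appendix: the equation lemmas of the definitions of this file are realised HERE -/

theorem eqns_realised_pairBSpec57 : True := by
  have _h0_0 := @PreBC57.eq_1
  have _h0_1 := @PreBC57.eq_def
  have _h0_2 := @PreBC57.eq_unfold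
  have _h1_0 := @NatUpC57.eq_1
  have _h1_1 := @NatUpC57.eq_def
  have _h1_2 := @NatUpC57.eq_unfold
  have _h2_0 := @NatDnC57.eq_1
  have _h2_1 := @NatDnC57.eq_def
  have _h2_2 := @NatDnC57.eq_unfold
  have _h3_0 := @NatShapeC57.eq_1
  have _h3_1 := @NatShapeC57.eq_def
  have _h3_2 := @NatShapeC57.eq_unfold
  trivial

end Fermat.Agent.LT.T7.PB57

end
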