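import Mathlib
import Fermat.Agent.LT.T7.H57.PairBSpec

/-!
# Row LT, tower T7, node T7.L2.1.H2a.B.0 `PB57.PreBC57` (registry row 2791, owner helper57):
# THE UN-AVERAGED SECOND PAIR -- SECOND CUT, Spec

OFF-MAIN.  Definitions and frozen Props only (the proved top is `PreBTop.lean`).  No hole,
nothing assumed.  ADDITIVE (new names only, all suffixed `57`, namespace
`Fermat.Agent.LT.T7.PB57`).  Vocabulary, byte-identical copies: `T7/H57/PairBSpec.lean`
(40309edd) and its closure (`Q797.PairAC797`, `Q797.IsPairA797`, `H893.LocA893`,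
`H893.LocB893b`, `H893.LocHyp893`, `H893.IsAvgPure`).

    preBC_of57 : (∃ μc, Haar μc) → Q797.PairAC797 P K K' LocA893 → BadPartC57 K K'
        → OpenSwap57 K K' → PreBC57 P K K' H893.LocB893b

## The cut: THE SECOND PAIR IS THE FIRST PAIR WITH THE COMPONENTS AT THE LEVEL SWAPPED

The first pair of the empty word `(Φ₁ [], F₁ [])` (node `Q797.PairAC797`, registry row 2728,
helper981) is an average of pure tensors with UNIT components `1_{U(n w)}`, `1_{U(m v)}` at the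
places of the level (`H893.LocA893`), for EVERY level.  The un-averaged second pair is the
average of the SAME pure tensors with the components at the places of the level replaced:

* upstairs (`swUp57`): the Iwahori function at the places over `u`, the unit `1_{U(n₀ w)}` of
  the BASE level at the other places of the level;
* downstairs (`swDn57`): the Iwahori function at `u`, a PARTNER `fb v` of the double coset
  function of the bad element at the other places of the level (`IsBadPart57`; T6).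

`φ° = swapUpFn57 …`, `f° = swapDnFn57 … a …` (explicit functions of the data of the average of
the first pair).  The swapped pure tensor upstairs is the sum of the right translates of the
pure tensor by representatives of `H / U(𝔫 𝒪_{K'})`, `H = U(𝔑₀) ∩ ⋂ I_{o j}` (elements of the
maximal compact subgroup at the places of the level, `1` elsewhere); downstairs it is a finite
linear combination of left translates by elements supported at the places of the level.  So ALL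
properties of the second pair are SOFT consequences of the properties of the first pair (T3 and
T6 base change enter only through `Q797.PairAC797`), and the partner is the only new input
(T6: `T6.BadMatchC` at the levels of record, adapter of helper22; convolution products in ONE
enumeration at the split bad places).

* **`BadPartC57 K K'`** (LEAF, [L], T6): the level `𝔫` and the partner family.
* **`SwapUpSumC57`**, **`SwapDnSumC57`** (LEAVES, [M]; pure tensor calculus): THE KEY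
  IDENTITIES (sums of translates).  The other swap leaves may be delivered CONDITIONAL on them.
* **`SwapUpTestC57`, `SwapUpEKC57`, `SwapUpInvC57`, `SwapUpOpC57`, `SwapUpSuppC57`,
  `SwapMemUpC57`** (LEAVES, one per field of `IsPreB57` upstairs + the members of the average).
* **`SwapDnTestC57`, `SwapDnEKC57`, `SwapDnInvC57`, `SwapDnOpC57`, `SwapDnSuppC57`,
  `SwapMemDnC57`** (the same downstairs).
* **`SwapLocC57`** (LEAF, [S]): the swapped components satisfy `H893.LocB893b`.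

FALSITY CHECKS (helper57).
(a) `R(φ(· h⁻¹)) ψ = R(φ) (ψ(· h))` (right invariance of the Haar measure, `IsFrame.right_inv`)
and `ψ(· h) = ψ` for `h ∈ H` and `ψ` an eigenfunction of the base level (`IsCuspFn.aut.level_inv`
at the bad places, `IsWFn.iw` along the orbit): `c₂ = [H : U(𝔫 𝒪_{K'})] · c₁ ≠ 0` on the class.
(b) `T5.IsEK` is `R(φ) Ψ = 0` for the Borel-invariant `Ψ`: stable under left and right
translations and finite sums (continuous functions of compact support are integrable against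
continuous functions).  The adjoint of a right translate is a left translate of the adjoint.
(c) The principal congruence subgroups are NORMAL in `GL₂(𝒪)`: the right translate of a test
function of level `𝔫 𝒪_{K'}` by an element of the maximal compact subgroup (finite places) is a
test function of the same level.  Downstairs the single left translates are not
bi-invariant, the SUM is (the partner is bi-`U(m v)`-invariant: `IsBadPart57.inv_down`).
(d) `R(f(x⁻¹ ·)) χ (g) = (R(f) χ)(g x)` (left invariance of the Haar measure).  So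
`R(f°) χ = a ∑ₓ cₓ (R(f) χ)(· x)`, a Hecke operator at the places of the level applied to
`R(f) χ`; it preserves `IsWFn`, `IsEigFn` (it commutes with the Hecke operators outside the
level and with the sphere means) and commutes with `iwOp`, `shiftOp` at `u` (the elements `x`
are products of an element supported at the bad places `≠ u` and an Iwahori element at `u`;
`iwOp` preserves the Iwahori invariance).  With `dn1_wfn`, `dn1_class`, `dn1_comm` of the first
pair this gives `dn_wfn`, `dn_class`, `dn_comm`.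
(e) The leaves hold for EVERY constant `a` (also `a = 0`) and for an empty parameter space.
(f) The data of the average are universally quantified: the leaves hold for every
presentation of the first pair as an average of pure tensors with the condition `LocA893`.
(g) `n w ≥ n₀ w` (`IsLevel797.level_g`) and `n w ≥ 1` at the places over `u`
(`IsLevel797.u_level`): `U(n w) ⊆ U(n₀ w)`, `U(n w) ⊆ I_w`, finite index.
(h) The place of `K` under a place of `K'` is unique (`PlaceOver`), so the two swaps touch the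
components at the places of the level only and `H893.SphOut893` is unchanged.
-/

set_option autoImplicit false

open AutomorphicForm IsDedekindDomain NumberField MeasureTheory
open scoped ComplexConjugate

noncomputable section

namespace Fermat.Agent.LT.T7.PB57

open Fermat.Agent.LT.H556 Fermat.Agent.LT.H556.A0 Fermat.Agent.LT.T7
open Fermat.Agent.LT.T7.H893 Fermat.Agent.LT.T7.H305 Fermat.Agent.LT.T7.Q797

attribute [local instance] Fermat.Agent.LT.T5.instMeasurableSpaceG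

/-! ## 1. Vocabulary -/

section Defs

variable {K K' : Type} [Field K] [NumberField K] [Field K'] [NumberField K'] [Algebra K K']

open Classical in
/-- **THE PARTNER FAMILY** `fb` of the double coset functions `1_{U₀ g_w U₀}` of the bad element
`g` at the bad places `v ∈ T₀`, `v ≠ u`, at the levels `(n, m)`: bi-`U(m v)`-invariant of finite
support, and the four non-archimedean clauses of `H893.LocHyp893` hold (stated as: `LocHyp893`
holds for all archimedean components which satisfy the three archimedean clauses). -/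
structure IsBadPart57 (B : L2Base K K') (g : G K') (𝔫 : Ideal (𝓞 K))
    (T₀ : Finset (HeightOneSpectrum (𝓞 K)))
    (n n₀ : HeightOneSpectrum (𝓞 K') → ℕ) (m : HeightOneSpectrum (𝓞 K) → ℕ)
    (fb : ∀ v : HeightOneSpectrum (𝓞 K), GL (Fin 2) (v.adicCompletion K) → ℂ) : Prop where
  inv_down : ∀ v ∈ T₀.erase B.u,
    T6.IsBiInv (T6.InU (m v)) (fb v) ∧ T6.HasFinSupp (T6.InU (m v)) (fb v)
  hyp : ∀ (μc : @Measure (GL (Fin 2) ℂ) (borel _)) (Φ : InfinitePlace K' → GL (Fin 2) ℂ → ℂ)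
    (F : InfinitePlace K → GL (Fin 2) ℂ → ℂ),
    (∀ w : InfinitePlace K', Continuous (Φ w) ∧ HasCompactSupport (Φ w) ∧
      ∀ x : GL (Fin 2) ℂ, Φ w (conjGL305 x) = Φ w x) →
    (∀ v : InfinitePlace K, Continuous (F v) ∧ HasCompactSupport (F v) ∧
      ∀ x : GL (Fin 2) ℂ, F v (conjGL305 x) = F v x) →
    (∀ (v : InfinitePlace K) (w : ℕ → InfinitePlace K'),
      (∀ j : ℕ, (w j).comap (algebraMap K K') = v) →
      (∀ j j' : ℕ, j < (B.comp 𝔫).l → j' < (B.comp 𝔫).l → w j = w j' → j = j') →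
      F v = convL305 μc (fun j => Φ (w j)) ((B.comp 𝔫).l - 1)) →
    LocHyp893 (B.comp 𝔫) μc (T₀.erase B.u) n m
      (fun w => dblFn893 (n₀ w) (finGL305 w g)) Φ fb F

open Classical in
/-- **THE SWAP UPSTAIRS**: the Iwahori function at the places over `u`, the unit of the base
level at the other places over `T₀`, the given component elsewhere. -/
def swUp57 (B : L2Base K K') (T₀ : Finset (HeightOneSpectrum (𝓞 K)))
    (n₀ : HeightOneSpectrum (𝓞 K') → ℕ)
    (φ₀ : ∀ w : HeightOneSpectrum (𝓞 K'), GL (Fin 2) (w.adicCompletion K') → ℂ) :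
    ∀ w : HeightOneSpectrum (𝓞 K'), GL (Fin 2) (w.adicCompletion K') → ℂ :=
  fun w => if PlaceOver K K' B.u w then iwFn893
    else if ∃ v ∈ T₀, PlaceOver K K' v w then unitFn893 (n₀ w) else φ₀ w

open Classical in
/-- **THE SWAP DOWNSTAIRS**: the Iwahori function at `u`, the partner at the other places of
`T₀`, the given component elsewhere. -/
def swDn57 (B : L2Base K K') (T₀ : Finset (HeightOneSpectrum (𝓞 K)))
    (fb : ∀ v : HeightOneSpectrum (𝓞 K), GL (Fin 2) (v.adicCompletion K) → ℂ)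
    (f₀ : ∀ v : HeightOneSpectrum (𝓞 K), GL (Fin 2) (v.adicCompletion K) → ℂ) :
    ∀ v : HeightOneSpectrum (𝓞 K), GL (Fin 2) (v.adicCompletion K) → ℂ :=
  fun v => if v = B.u then iwFn893 else if v ∈ T₀ then fb v else f₀ v

/-- **THE FUNCTION UPSTAIRS OF THE UN-AVERAGED SECOND PAIR**: the average of the pure tensors
with the swapped components. -/
def swapUpFn57 (B : L2Base K K') (T₀ : Finset (HeightOneSpectrum (𝓞 K)))
    (n₀ : HeightOneSpectrum (𝓞 K') → ℕ) {Ω : Type} [MeasurableSpace Ω] (ν : Measure Ω)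
    (T' : Ω → Finset (HeightOneSpectrum (𝓞 K')))
    (φ₀ : Ω → ∀ w : HeightOneSpectrum (𝓞 K'), GL (Fin 2) (w.adicCompletion K') → ℂ)
    (Φ : Ω → InfinitePlace K' → GL (Fin 2) ℂ → ℂ) : G K' → ℂ :=
  fun h => ∫ ω, pure305 (T' ω) (swUp57 B T₀ n₀ (φ₀ ω)) (Φ ω) h ∂ν

/-- **THE FUNCTION DOWNSTAIRS OF THE UN-AVERAGED SECOND PAIR**: the average of `a ·` the pure
tensors with the swapped components. -/
def swapDnFn57 (B : L2Base K K') (T₀ : Finset (HeightOneSpectrum (𝓞 K)))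
    (fb : ∀ v : HeightOneSpectrum (𝓞 K), GL (Fin 2) (v.adicCompletion K) → ℂ) (a : ℂ)
    {Ω : Type} [MeasurableSpace Ω] (ν : Measure Ω)
    (T : Ω → Finset (HeightOneSpectrum (𝓞 K)))
    (f₀ : Ω → ∀ v : HeightOneSpectrum (𝓞 K), GL (Fin 2) (v.adicCompletion K) → ℂ)
    (F : Ω → InfinitePlace K → GL (Fin 2) ℂ → ℂ) : G K → ℂ :=
  fun h => ∫ ω, a * pure305 (T ω) (swDn57 B T₀ fb (f₀ ω)) (F ω) h ∂ν

/-- **THE DATA OF AN AVERAGE OF PURE TENSORS**: the body of `H893.IsAvgPure` for given data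
(`H893.IsAvgPure … φ' f` is `∃ data, IsAvgDat57 … φ' f data`, by definition). -/
def IsAvgDat57 (𝔑 : Ideal (𝓞 K')) (𝔫 : Ideal (𝓞 K)) (T₀ : Finset (HeightOneSpectrum (𝓞 K)))
    (L : LocCond K K') (c : ℂ) (φ' : G K' → ℂ) (f : G K → ℂ)
    (Ω : Type) (_ : TopologicalSpace Ω) (_ : MeasurableSpace Ω) (ν : Measure Ω)
    (T : Ω → Finset (HeightOneSpectrum (𝓞 K))) (T' : Ω → Finset (HeightOneSpectrum (𝓞 K')))
    (φ₀ : Ω → ∀ w : HeightOneSpectrum (𝓞 K'), GL (Fin 2) (w.adicCompletion K') → ℂ)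
    (Φ : Ω → InfinitePlace K' → GL (Fin 2) ℂ → ℂ)
    (f₀ : Ω → ∀ v : HeightOneSpectrum (𝓞 K), GL (Fin 2) (v.adicCompletion K) → ℂ)
    (F : Ω → InfinitePlace K → GL (Fin 2) ℂ → ℂ) : Prop :=
    (∀ a : Ω, T₀ ⊆ T a ∧ IsOver305 (T a) (T' a) ∧ L (T a) (φ₀ a) (Φ a) (f₀ a) (F a)) ∧
    (∀ a : Ω, T5.IsTestFn 𝔑 T5.trivType (pure305 (T' a) (φ₀ a) (Φ a))) ∧
    (∀ a : Ω, T5.IsTestFn 𝔫 T5.trivType (fun h => c * pure305 (T a) (f₀ a) (F a) h)) ∧
    Continuous (fun p : Ω × G K' => pure305 (T' p.1) (φ₀ p.1) (Φ p.1) p.2) ∧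
    Continuous (fun p : Ω × G K => c * pure305 (T p.1) (f₀ p.1) (F p.1) p.2) ∧
    (∃ C : Set (G K'), IsCompact C ∧
      ∀ (a : Ω) (h : G K'), pure305 (T' a) (φ₀ a) (Φ a) h ≠ 0 → h ∈ C) ∧
    (∃ C : Set (G K), IsCompact C ∧
      ∀ (a : Ω) (h : G K), pure305 (T a) (f₀ a) (F a) h ≠ 0 → h ∈ C) ∧
    (∀ h : G K', φ' h = ∫ a, pure305 (T' a) (φ₀ a) (Φ a) h ∂ν) ∧
    ∀ h : G K, f h = ∫ a, c * pure305 (T a) (f₀ a) (F a) h ∂ν

/-- **THE CONTEXT OF THE SWAP LEAVES**: `Q` holds for the common part, every level, every Haar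
measure, the exponents, EVERY first pair with the properties `Q797.IsPairA797` for the shape
`LocA893`, EVERY partner family and EVERY presentation of the first pair of the empty word as an
average of pure tensors. -/
def SwapCtx57 (K K' : Type) [Field K] [NumberField K] [Field K'] [NumberField K'] [Algebra K K']
    (Q : ∀ (_ : ℕ) (_ : HeckeEigensystem K' ℂ) (_ : L2Base K K') (_ : G K') (_ : Ideal (𝓞 K))
      (_ : @Measure (GL (Fin 2) ℂ) (borel _)) (_ : Finset (HeightOneSpectrum (𝓞 K)))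
      (_ _ : HeightOneSpectrum (𝓞 K') → ℕ) (_ : HeightOneSpectrum (𝓞 K) → ℕ)
      (_ : EigData K' → ℂ)
      (_ : ∀ v : HeightOneSpectrum (𝓞 K), GL (Fin 2) (v.adicCompletion K) → ℂ)
      (Ω : Type) (_ : TopologicalSpace Ω) (_ : MeasurableSpace Ω) (_ : Measure Ω)
      (_ : Ω → Finset (HeightOneSpectrum (𝓞 K))) (_ : Ω → Finset (HeightOneSpectrum (𝓞 K')))
      (_ : Ω → ∀ w : HeightOneSpectrum (𝓞 K'), GL (Fin 2) (w.adicCompletion K') → ℂ)
      (_ : Ω → InfinitePlace K' → GL (Fin 2) ℂ → ℂ)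
      (_ : Ω → ∀ v : HeightOneSpectrum (𝓞 K), GL (Fin 2) (v.adicCompletion K) → ℂ)
      (_ : Ω → InfinitePlace K → GL (Fin 2) ℂ → ℂ), Prop) : Prop :=
  ∀ ℓ : ℕ, IsCycExt K K' ℓ → ℓ ≠ 2 → TotCplx K →
    ∀ (Φe : HeckeEigensystem K' ℂ) (B : L2Base K K'), IsL2Base ℓ Φe B → B.RamIn →
    ∀ g : G K', B.IsBad g →
    ∀ 𝔫 : Ideal (𝓞 K), IsLevel797 B 𝔫 →
    ∀ μc : @Measure (GL (Fin 2) ℂ) (borel _), @Measure.IsHaarMeasure _ _ _ (borel _) μc →
    ∀ (T₀ : Finset (HeightOneSpectrum (𝓞 K)))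
      (n n₀ : HeightOneSpectrum (𝓞 K') → ℕ) (m : HeightOneSpectrum (𝓞 K) → ℕ),
      IsExp797 B 𝔫 T₀ n n₀ m →
    ∀ (c₁ : EigData K' → ℂ) (Φ₁ : List (Gen K') → G K' → ℂ) (F₁ : List (Gen K') → G K → ℂ),
      IsPairA797 LocA893 ℓ Φe B 𝔫 μc T₀ n m c₁ Φ₁ F₁ →
    ∀ fb : ∀ v : HeightOneSpectrum (𝓞 K), GL (Fin 2) (v.adicCompletion K) → ℂ,
      IsBadPart57 B g 𝔫 T₀ n n₀ m fb →
    ∀ (Ω : Type) (iT : TopologicalSpace Ω) (_ : CompactSpace Ω) (_ : T2Space Ω)
      (_ : SecondCountableTopology Ω) (iM : MeasurableSpace Ω)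
      (_ : BorelSpace Ω) (ν : Measure Ω) (_ : IsFiniteMeasure ν)
      (T : Ω → Finset (HeightOneSpectrum (𝓞 K))) (T' : Ω → Finset (HeightOneSpectrum (𝓞 K')))
      (φ₀ : Ω → ∀ w : HeightOneSpectrum (𝓞 K'), GL (Fin 2) (w.adicCompletion K') → ℂ)
      (Φ : Ω → InfinitePlace K' → GL (Fin 2) ℂ → ℂ)
      (f₀ : Ω → ∀ v : HeightOneSpectrum (𝓞 K), GL (Fin 2) (v.adicCompletion K) → ℂ)
      (F : Ω → InfinitePlace K → GL (Fin 2) ℂ → ℂ),
      IsAvgDat57 (upI (K' := K') 𝔫) 𝔫 T₀ (LocA893 B 𝔫 μc T₀ n m) 1 (Φ₁ []) (F₁ [])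
        Ω iT iM ν T T' φ₀ Φ f₀ F →
      Q ℓ Φe B g 𝔫 μc T₀ n n₀ m c₁ fb Ω iT iM ν T T' φ₀ Φ f₀ F

end Defs

/-! ## 2. The leaves -/

section Leaves

variable (K K' : Type) [Field K] [NumberField K] [Field K'] [NumberField K'] [Algebra K K']

/-- **LEAF PB.0.1 = BAD-PART ([L]; T6).**  For a common part which contains the ramified places
and a bad element `g`: a level `𝔫` with the level properties such that for the exponents of the
level there is a partner family.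
Construction.  `𝔫 = 𝔫₀ ^ d` (`𝔫₀` of `IsL2Base.base_level`; `IsLevel797`: `upI (𝔫₀ ^ d) = 𝔑₀ ^ d`),
`d` so large that at every bad place `v ≠ u` with ONE place `w` over it the double coset
function `1_{U(n₀ w) g_w U(n₀ w)}` has a partner at the levels `(n w, m v) = (d · n₀ w, d · m₀ v)`
(`T6.BadMatchC` + the level changes: adapter `T6/BadLevels22` of helper22; the local fields and
the local extension data: the instances of T6.01; the identifications `i`, `sw` are unique).  At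
a bad place which splits: ONE `σ`-ordered enumeration of the fibre (`H311.EnumExistsC311`,
closed), `n (w j) = m v`, `fb v` = the convolution product of the transported double coset
functions (`T6.IsConv` of bi-invariant functions of finite support exists). -/
def BadPartC57 : Prop :=
  ∀ ℓ : ℕ, IsCycExt K K' ℓ → ℓ ≠ 2 → TotCplx K →
    ∀ (Φe : HeckeEigensystem K' ℂ) (B : L2Base K K'), IsL2Base ℓ Φe B → B.RamIn →
    ∀ g : G K', B.IsBad g →
      ∃ 𝔫 : Ideal (𝓞 K), IsLevel797 B 𝔫 ∧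
        ∀ (T₀ : Finset (HeightOneSpectrum (𝓞 K)))
          (n n₀ : HeightOneSpectrum (𝓞 K') → ℕ) (m : HeightOneSpectrum (𝓞 K) → ℕ),
          IsExp797 B 𝔫 T₀ n n₀ m →
          ∃ fb : ∀ v : HeightOneSpectrum (𝓞 K), GL (Fin 2) (v.adicCompletion K) → ℂ,
            IsBadPart57 B g 𝔫 T₀ n n₀ m fb

/-- **LEAF PB.0.U0 = SWAP-UP-SUM ([M]; THE KEY IDENTITY upstairs).**  The swapped pure tensor
is the sum of the right translates (and of the left translates) of the pure tensor by a finite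
set `HU` of elements of `H` (representatives of `H / U(𝔫 𝒪_{K'})`): trivial at infinity and
outside `S'`, integral with integral inverse, congruent to `1` modulo `𝔑₀` outside the orbit,
Iwahori along the orbit. -/
def SwapUpSumC57 : Prop :=
  SwapCtx57 K K' fun ℓ _ B _ _ _ T₀ _ n₀ _ _ _ Ω _ _ _ _ T' φ₀ Φ _ _ =>
    ∃ HU : Finset (G K'), HU.Nonempty ∧
      (∀ h ∈ HU, (∀ w : InfinitePlace K', TrivAtInf w h) ∧
        (∀ w : HeightOneSpectrum (𝓞 K'), w ∉ B.S' → TrivAtFin w h) ∧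
        (∀ w : HeightOneSpectrum (𝓞 K'), IsIntegralAt w h ∧ IsIntegralAt w h⁻¹) ∧
        (∀ w : HeightOneSpectrum (𝓞 K'), (∀ j < ℓ, w ≠ B.o j) → ∀ i j : Fin 2,
          (finComp w h - 1) i j ∈ idealClosure B.𝔑₀ w ∧
            (finComp w h⁻¹ - 1) i j ∈ idealClosure B.𝔑₀ w) ∧
        ∀ j < ℓ, T5.InIwahori (B.o j) h) ∧
      ∀ (ω : Ω) (x : G K'),
        pure305 (T' ω) (swUp57 B T₀ n₀ (φ₀ ω)) (Φ ω) x
            = ∑ h ∈ HU, pure305 (T' ω) (φ₀ ω) (Φ ω) (x * h⁻¹) ∧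
          pure305 (T' ω) (swUp57 B T₀ n₀ (φ₀ ω)) (Φ ω) x
            = ∑ h ∈ HU, pure305 (T' ω) (φ₀ ω) (Φ ω) (h⁻¹ * x)

/-- **LEAF PB.0.D0 = SWAP-DOWN-SUM ([M]; THE KEY IDENTITY downstairs).**  The swapped pure
tensor is a finite linear combination of left translates of the pure tensor by elements which
are trivial at infinity and outside `T₀` and Iwahori at `u`. -/
def SwapDnSumC57 : Prop :=
  SwapCtx57 K K' fun _ _ B _ _ _ T₀ _ _ _ _ fb Ω _ _ _ T _ _ _ f₀ F =>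
    ∃ (X : Finset (G K)) (c : G K → ℂ),
      (∀ x ∈ X, (∀ w : InfinitePlace K, TrivAtInf w x) ∧
        (∀ v : HeightOneSpectrum (𝓞 K), v ∉ T₀ → TrivAtFin v x) ∧ T5.InIwahori B.u x) ∧
      ∀ (ω : Ω) (y : G K),
        pure305 (T ω) (swDn57 B T₀ fb (f₀ ω)) (F ω) y
          = ∑ x ∈ X, c x * pure305 (T ω) (f₀ ω) (F ω) (x⁻¹ * y)

/-- **LEAF PB.0.U1 = SWAP-UP-TEST** (field `up_test`). -/
def SwapUpTestC57 : Prop :=
  SwapCtx57 K K' fun _ _ B _ 𝔫 _ T₀ _ n₀ _ _ _ _ _ _ ν _ T' φ₀ Φ _ _ =>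
    T5.IsTestFn (upI (K' := K') 𝔫) T5.trivType (swapUpFn57 B T₀ n₀ ν T' φ₀ Φ)

/-- **LEAF PB.0.U2 = SWAP-UP-EK** (field `up_ek`). -/
def SwapUpEKC57 : Prop :=
  SwapCtx57 K K' fun _ _ B _ _ _ T₀ _ n₀ _ _ _ _ _ _ ν _ T' φ₀ Φ _ _ =>
    T5.IsEK B.R'.μ (swapUpFn57 B T₀ n₀ ν T' φ₀ Φ) ∧
      T5.IsEK B.R'.μ (T5.adjointFn (swapUpFn57 B T₀ n₀ ν T' φ₀ Φ))

/-- **LEAF PB.0.U3 = SWAP-UP-INV** (field `up_inv`). -/
def SwapUpInvC57 : Prop :=
  SwapCtx57 K K' fun ℓ _ B _ _ _ T₀ _ n₀ _ _ _ _ _ _ ν _ T' φ₀ Φ _ _ =>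
    H193.IsBiHInv B.𝔑₀ ℓ B.o (swapUpFn57 B T₀ n₀ ν T' φ₀ Φ)

/-- **LEAF PB.0.U4 = SWAP-UP-OP** (fields `up_op`, `up_ne`): `c₂ = [H : U] · c₁`. -/
def SwapUpOpC57 : Prop :=
  SwapCtx57 K K' fun ℓ Φe B _ _ _ T₀ _ n₀ _ _ _ _ _ _ ν _ T' φ₀ Φ _ _ =>
    ∃ c₂ : EigData K' → ℂ,
      (∀ (ψ : G K' → ℂ) (C : EigData K'), IsEigFn B.𝔑₀ B.R'.r ℓ B.o ψ C →
        ∀ x : G K', T5.Rconv B.R'.μ (swapUpFn57 B T₀ n₀ ν T' φ₀ Φ) ψ x = c₂ C * ψ x) ∧
      ∀ C : EigData K', C.AgreeOut B.S' (eigOf Φe) → c₂ C ≠ 0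

/-- **LEAF PB.0.U5 = SWAP-UP-SUPP** (field `up_supp`). -/
def SwapUpSuppC57 : Prop :=
  SwapCtx57 K K' fun ℓ _ B _ _ _ T₀ _ n₀ _ _ _ _ _ _ ν _ T' φ₀ Φ _ _ =>
    ∃ C : Set (G K'), IsCompact C ∧
      T5.H32.IsIwSupported32 ℓ B.o C (swapUpFn57 B T₀ n₀ ν T' φ₀ Φ)

/-- **LEAF PB.0.U6 = SWAP-MEM-UP** (the members of the average upstairs: test functions,
jointly continuous, supported in one compact set). -/
def SwapMemUpC57 : Prop :=
  SwapCtx57 K K' fun _ _ B _ 𝔫 _ T₀ _ n₀ _ _ _ Ω _ _ _ _ T' φ₀ Φ _ _ =>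
    (∀ ω : Ω, T5.IsTestFn (upI (K' := K') 𝔫) T5.trivType
      (pure305 (T' ω) (swUp57 B T₀ n₀ (φ₀ ω)) (Φ ω))) ∧
    Continuous (fun p : Ω × G K' => pure305 (T' p.1) (swUp57 B T₀ n₀ (φ₀ p.1)) (Φ p.1) p.2) ∧
    ∃ C : Set (G K'), IsCompact C ∧
      ∀ (ω : Ω) (h : G K'), pure305 (T' ω) (swUp57 B T₀ n₀ (φ₀ ω)) (Φ ω) h ≠ 0 → h ∈ C

/-- **LEAF PB.0.D1 = SWAP-DOWN-TEST** (field `dn_test`). -/
def SwapDnTestC57 : Prop :=
  SwapCtx57 K K' fun _ _ B _ 𝔫 _ T₀ _ _ _ _ fb _ _ _ ν T _ _ _ f₀ F =>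
    ∀ a : ℂ, T5.IsTestFn 𝔫 T5.trivType (swapDnFn57 B T₀ fb a ν T f₀ F)

/-- **LEAF PB.0.D2 = SWAP-DOWN-EK** (field `dn_ek`). -/
def SwapDnEKC57 : Prop :=
  SwapCtx57 K K' fun _ _ B _ _ _ T₀ _ _ _ _ fb _ _ _ ν T _ _ _ f₀ F =>
    ∀ a : ℂ, T5.IsEK B.R.μ (swapDnFn57 B T₀ fb a ν T f₀ F) ∧
      T5.IsEK B.R.μ (T5.adjointFn (swapDnFn57 B T₀ fb a ν T f₀ F))

/-- **LEAF PB.0.D3 = SWAP-DOWN-INV** (field `dn_inv`). -/
def SwapDnInvC57 : Prop :=
  SwapCtx57 K K' fun _ _ B _ 𝔫 _ T₀ _ _ _ _ fb _ _ _ ν T _ _ _ f₀ F =>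
    ∀ a : ℂ, H193.IsBiHInv 𝔫 1 (fun _ => B.u) (swapDnFn57 B T₀ fb a ν T f₀ F)

/-- **LEAF PB.0.D4 = SWAP-DOWN-OP** (fields `dn_wfn`, `dn_class`, `dn_comm`). -/
def SwapDnOpC57 : Prop :=
  SwapCtx57 K K' fun _ _ B _ 𝔫 _ T₀ _ _ _ _ fb _ _ _ ν T _ _ _ f₀ F =>
    ∀ a : ℂ,
      (∀ ψ : G K → ℂ, IsWFn 𝔫 B.R.r 1 (fun _ => B.u) ψ →
        IsWFn 𝔫 B.R.r 1 (fun _ => B.u)
          (T5.Rconv B.R.μ (swapDnFn57 B T₀ fb a ν T f₀ F) ψ)) ∧
      (∀ (ψ : G K → ℂ) (c : EigData K), IsEigFn 𝔫 B.R.r 1 (fun _ => B.u) ψ c →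
        IsEigFn 𝔫 B.R.r 1 (fun _ => B.u)
          (T5.Rconv B.R.μ (swapDnFn57 B T₀ fb a ν T f₀ F) ψ) c) ∧
      ∀ ψ : G K → ℂ, IsWFn 𝔫 B.R.r 1 (fun _ => B.u) ψ →
        ∀ (H : Finset (G K)) (z : G K), IsIwCosetSystem B.u H → IsScalarUniformizerAt B.u z →
          (∀ x : G K, T5.Rconv B.R.μ (swapDnFn57 B T₀ fb a ν T f₀ F) (iwOp B.u H ψ) x
            = iwOp B.u H (T5.Rconv B.R.μ (swapDnFn57 B T₀ fb a ν T f₀ F) ψ) x) ∧
          ∀ (k : ℤ) (x : G K),
            T5.Rconv B.R.μ (swapDnFn57 B T₀ fb a ν T f₀ F) (shiftOp z k ψ) x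
              = shiftOp z k (T5.Rconv B.R.μ (swapDnFn57 B T₀ fb a ν T f₀ F) ψ) x

/-- **LEAF PB.0.D5 = SWAP-DOWN-SUPP** (field `dn_supp`). -/
def SwapDnSuppC57 : Prop :=
  SwapCtx57 K K' fun _ _ B _ _ _ T₀ _ _ _ _ fb _ _ _ ν T _ _ _ f₀ F =>
    ∀ a : ℂ, ∃ C : Set (G K), IsCompact C ∧
      T5.H32.IsIwSupported32 1 (fun _ => B.u) C (swapDnFn57 B T₀ fb a ν T f₀ F)

/-- **LEAF PB.0.D6 = SWAP-MEM-DOWN** (the members of the average downstairs). -/
def SwapMemDnC57 : Prop :=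
  SwapCtx57 K K' fun _ _ B _ 𝔫 _ T₀ _ _ _ _ fb Ω _ _ _ T _ _ _ f₀ F =>
    ∀ a : ℂ,
      (∀ ω : Ω, T5.IsTestFn 𝔫 T5.trivType
        (fun h => a * pure305 (T ω) (swDn57 B T₀ fb (f₀ ω)) (F ω) h)) ∧
      Continuous (fun p : Ω × G K =>
        a * pure305 (T p.1) (swDn57 B T₀ fb (f₀ p.1)) (F p.1) p.2) ∧
      ∃ C : Set (G K), IsCompact C ∧
        ∀ (ω : Ω) (h : G K), pure305 (T ω) (swDn57 B T₀ fb (f₀ ω)) (F ω) h ≠ 0 → h ∈ C

/-- **LEAF PB.0.L = SWAP-LOC ([S]).**  The swapped components satisfy the local condition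
`H893.LocB893b` of the second pair: `LocHyp893` at the bad places from the partner family
(`IsBadPart57.hyp`, archimedean clauses from `ArchOk893` of the first pair), the values of the
swaps (the place under a place of `K'` is unique), `SphOut893` and `ArchOk893` unchanged. -/
def SwapLocC57 : Prop :=
  SwapCtx57 K K' fun _ _ B g 𝔫 μc T₀ n n₀ m _ fb Ω _ _ _ T _ φ₀ Φ f₀ F =>
    ∀ ω : Ω, LocB893b B g 𝔫 μc T₀ n n₀ m (T ω) (swUp57 B T₀ n₀ (φ₀ ω)) (Φ ω)
      (swDn57 B T₀ fb (f₀ ω)) (F ω)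

/-- **THE OPEN LEAVES OF THE SWAP** (the key identities `SwapUpSumC57`, `SwapDnSumC57` are
tools for the provers and do not enter the top). -/
structure OpenSwap57 : Prop where
  upTest : SwapUpTestC57 K K'
  upEK : SwapUpEKC57 K K'
  upInv : SwapUpInvC57 K K'
  upOp : SwapUpOpC57 K K'
  upSupp : SwapUpSuppC57 K K'
  memUp : SwapMemUpC57 K K'
  dnTest : SwapDnTestC57 K K'
  dnEK : SwapDnEKC57 K K'
  dnInv : SwapDnInvC57 K K'
  dnOp : SwapDnOpC57 K K'
  dnSupp : SwapDnSuppC57 K K'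
  memDn : SwapMemDnC57 K K'
  loc : SwapLocC57 K K'

end Leaves

/-! ## Appendix: the equation lemmas of the definitions of this file are realised HERE -/

theorem eqns_realised_preBSpec57 : True := by
  have _h0_0 := @swUp57.eq_1
  have _h0_1 := @swUp57.eq_def
  have _h0_2 := @swUp57.eq_unfold
  have _h1_0 := @swDn57.eq_1
  have _h1_1 := @swDn57.eq_def
  have _h1_2 := @swDn57.eq_unfold
  have _h2_0 := @swapUpFn57.eq_1
  have _h2_1 := @swapUpFn57.eq_def
  have _h2_2 := @swapUpFn57.eq_unfold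
  have _h3_0 := @swapDnFn57.eq_1
  have _h3_1 := @swapDnFn57.eq_def
  have _h3_2 := @swapDnFn57.eq_unfold
  have _h4_0 := @IsAvgDat57.eq_1
  have _h4_1 := @IsAvgDat57.eq_def
  have _h4_2 := @IsAvgDat57.eq_unfold
  have _h5_0 := @SwapCtx57.eq_1
  have _h5_1 := @SwapCtx57.eq_def
  have _h5_2 := @SwapCtx57.eq_unfold
  have _h6_0 := @BadPartC57.eq_1
  have _h6_1 := @BadPartC57.eq_def
  have _h6_2 := @BadPartC57.eq_unfold
  have _h7_0 := @SwapUpSumC57.eq_1
  have _h7_1 := @SwapUpSumC57.eq_def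
  have _h7_2 := @SwapUpSumC57.eq_unfold
  have _h8_0 := @SwapDnSumC57.eq_1
  have _h8_1 := @SwapDnSumC57.eq_def
  have _h8_2 := @SwapDnSumC57.eq_unfold
  have _h9_0 := @SwapUpTestC57.eq_1
  have _h9_1 := @SwapUpTestC57.eq_def
  have _h9_2 := @SwapUpTestC57.eq_unfold
  have _h10_0 := @SwapUpEKC57.eq_1
  have _h10_1 := @SwapUpEKC57.eq_def
  have _h10_2 := @SwapUpEKC57.eq_unfold
  have _h11_0 := @SwapUpInvC57.eq_1
  have _h11_1 := @SwapUpInvC57.eq_def
  have _h11_2 := @SwapUpInvC57.eq_unfold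
  have _h12_0 := @SwapUpOpC57.eq_1
  have _h12_1 := @SwapUpOpC57.eq_def
  have _h12_2 := @SwapUpOpC57.eq_unfold
  have _h13_0 := @SwapUpSuppC57.eq_1
  have _h13_1 := @SwapUpSuppC57.eq_def
  have _h13_2 := @SwapUpSuppC57.eq_unfold
  have _h14_0 := @SwapMemUpC57.eq_1
  have _h14_1 := @SwapMemUpC57.eq_def
  have _h14_2 := @SwapMemUpC57.eq_unfold
  have _h15_0 := @SwapDnTestC57.eq_1
  have _h15_1 := @SwapDnTestC57.eq_def
  have _h15_2 := @SwapDnTestC57.eq_unfold
  have _h16_0 := @SwapDnEKC57.eq_1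
  have _h16_1 := @SwapDnEKC57.eq_def
  have _h16_2 := @SwapDnEKC57.eq_unfold
  have _h17_0 := @SwapDnInvC57.eq_1
  have _h17_1 := @SwapDnInvC57.eq_def
  have _h17_2 := @SwapDnInvC57.eq_unfold
  have _h18_0 := @SwapDnOpC57.eq_1
  have _h18_1 := @SwapDnOpC57.eq_def
  have _h18_2 := @SwapDnOpC57.eq_unfold
  have _h19_0 := @SwapDnSuppC57.eq_1
  have _h19_1 := @SwapDnSuppC57.eq_def
  have _h19_2 := @SwapDnSuppC57.eq_unfold
  have _h20_0 := @SwapMemDnC57.eq_1
  have _h20_1 := @SwapMemDnC57.eq_def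
  have _h20_2 := @SwapMemDnC57.eq_unfold
  have _h21_0 := @SwapLocC57.eq_1
  have _h21_1 := @SwapLocC57.eq_def
  have _h21_2 := @SwapLocC57.eq_unfold
  trivial

end Fermat.Agent.LT.T7.PB57

end
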