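import Mathlib
import Fermat.Agent.LT.T7.H57.PairBSpec

/-!
# Row LT, tower T7, node T7.L2.1.H2a.B `Q797.PairBC797` (registry row 2729, owner helper57):
# THE SECOND PAIR OF THE CONSTRUCTION (cubic step) -- FIRST CUT, proved top

OFF-MAIN.  Complete proofs, nothing assumed.  ADDITIVE.

    pairBC_of57 : H193.RelTorusC K K' → PreBC57 P K K' LB → NatUpC57 K K' LB → NatDnC57 K K' LB
                    → NatShapeC57 K K' LB → Q797.PairBC797 P K K' LB        (for EVERY shape `LB`)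
-/

set_option autoImplicit false

open AutomorphicForm IsDedekindDomain NumberField MeasureTheory
open scoped ComplexConjugate

noncomputable section

namespace Fermat.Agent.LT.T7.PB57

open Fermat.Agent.LT.H556 Fermat.Agent.LT.H556.A0 Fermat.Agent.LT.T7
open Fermat.Agent.LT.T7.H893 Fermat.Agent.LT.T7.H305 Fermat.Agent.LT.T7.Q797

attribute [local instance] Fermat.Agent.LT.T5.instMeasurableSpaceG

section Top

variable {P : EKCond}
variable {K K' : Type} [Field K] [NumberField K] [Field K'] [NumberField K'] [Algebra K K']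

/-- The second pair from its two halves and the shape. -/
theorem isPairB_of_halves57 {LB : ShapeB797 K K'} {ℓ : ℕ} {Φ : HeckeEigensystem K' ℂ}
    {B : L2Base K K'} {g : G K'} {𝔫 : Ideal (𝓞 K)} {μc : @Measure (GL (Fin 2) ℂ) (borel _)}
    {T₀ : Finset (HeightOneSpectrum (𝓞 K))} {n n₀ : HeightOneSpectrum (𝓞 K') → ℕ}
    {m : HeightOneSpectrum (𝓞 K) → ℕ} {a : ℂ} {c₂ : EigData K' → ℂ} {φ₂ : G K' → ℂ}
    {f₂ : G K → ℂ} (hu : IsPairBUp57 ℓ Φ B 𝔫 c₂ φ₂) (hd : IsPairBDn57 B 𝔫 f₂)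
    (hs : IsAvgPure (upI (K' := K') 𝔫) 𝔫 T₀ (LB B g 𝔫 μc T₀ n n₀ m) a φ₂ f₂) :
    IsPairB797 LB ℓ Φ B g 𝔫 μc T₀ n n₀ m a c₂ φ₂ f₂ where
  up2_test := hu.up2_test
  up2_ek := hu.up2_ek
  up2_inv := hu.up2_inv
  up2_op := hu.up2_op
  up2_kill := hu.up2_kill
  up2_ne := hu.up2_ne
  dn2_test := hd.dn2_test
  dn2_ek := hd.dn2_ek
  dn2_inv := hd.dn2_inv
  dn2_wfn := hd.dn2_wfn
  dn2_class := hd.dn2_class
  dn2_comm := hd.dn2_comm
  dn2_kill := hd.dn2_kill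
  up2_supp := hu.up2_supp
  dn2_supp := hd.dn2_supp
  shape := hs

/-- **THE TOP OF THE FIRST CUT OF THE SECOND PAIR**, for every local shape `LB`: the second pair
is the pair of the torus means of the un-averaged pair for compatible torus data. -/
theorem pairBC_of57 {LB : ShapeB797 K K'} (hRel : H193.RelTorusC K K')
    (hPre : PreBC57 P K K' LB) (hUp : NatUpC57 K K' LB) (hDn : NatDnC57 K K' LB)
    (hSh : NatShapeC57 K K' LB) : PairBC797 P K K' LB := by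
  intro ℓ hcyc hℓ hcplx Φ hΦ hconst hPΦ B hB hRam g hg
  obtain ⟨𝔫, μc, hlev, hμc, hpre⟩ := hPre ℓ hcyc hℓ hcplx Φ hΦ hconst hPΦ B hB hRam g hg
  obtain ⟨aT, D, aT', D', hrel⟩ :=
    hRel ℓ hcyc hcplx 𝔫 hlev.level_ne B.R.r B.R'.r hB.frame.ray hB.frame'.ray
  refine ⟨𝔫, μc, hlev, hμc, fun T₀ n n₀ m hexp a ha => ?_⟩
  obtain ⟨c₂, φ₀, f₀, h0⟩ := hpre T₀ n n₀ m hexp a ha
  exact ⟨c₂, H193.nat193 aT' D' φ₀, H193.nat193 aT D f₀,
    isPairB_of_halves57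
      (hUp ℓ Φ B hcyc hB g 𝔫 hlev μc T₀ n n₀ m a c₂ φ₀ f₀ h0 aT D aT' D' hrel)
      (hDn ℓ Φ B hcyc hB g 𝔫 hlev μc T₀ n n₀ m a c₂ φ₀ f₀ h0 aT D aT' D' hrel)
      (hSh ℓ Φ B hcyc hcplx hB g 𝔫 hlev μc hμc T₀ n n₀ m hexp a c₂ φ₀ f₀ h0 aT D aT' D'
        hrel)⟩

/-- **THE SECOND PAIR FOR THE SHAPE OF RECORD** (`H893.LocB893b`, v2 of helper893). -/
theorem pairBC_record57 (hRel : H193.RelTorusC K K') (hPre : PreBC57 P K K' LocB893b)
    (hUp : NatUpC57 K K' LocB893b) (hDn : NatDnC57 K K' LocB893b)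
    (hSh : NatShapeC57 K K' LocB893b) : PairBC797 P K K' LocB893b :=
  pairBC_of57 hRel hPre hUp hDn hSh

end Top

end Fermat.Agent.LT.T7.PB57

end
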