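import Mathlib
import Fermat.Agent.LT.T7.H57.PreBSpec
import Fermat.Agent.LT.T7.H57.PairBTop

/-!
# Row LT, tower T7, node T7.L2.1.H2a.B.0 `PB57.PreBC57` (registry row 2791, owner helper57):
# THE UN-AVERAGED SECOND PAIR -- SECOND CUT, PROVED TOP

OFF-MAIN.  Complete proofs, nothing assumed.  ADDITIVE (new names only, suffix `57`).

    preBC_of57 : (∃ μc, Haar μc) → Q797.PairAC797 P K K' LocA893 → BadPartC57 K K'
        → OpenSwap57 K K' → PreBC57 P K K' H893.LocB893b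

The un-averaged second pair is `(swapUpFn57 …, swapDnFn57 … a …)` for the data of the average
of the first pair of the empty word; the fields of `IsPreB57` are the swap leaves.
-/

set_option autoImplicit false

open AutomorphicForm IsDedekindDomain NumberField MeasureTheory
open scoped ComplexConjugate

noncomputable section

namespace Fermat.Agent.LT.T7.PB57

open Fermat.Agent.LT.H556 Fermat.Agent.LT.H556.A0 Fermat.Agent.LT.T7
open Fermat.Agent.LT.T7.H893 Fermat.Agent.LT.T7.H305 Fermat.Agent.LT.T7.Q797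

attribute [local instance] Fermat.Agent.LT.T5.instMeasurableSpaceG

variable (P : EKCond)
variable (K K' : Type) [Field K] [NumberField K] [Field K'] [NumberField K'] [Algebra K K']

/-- **THE SECOND CUT OF THE NODE `PreBC57`, PROVED TOP.** -/
theorem preBC_of57
    (hH : ∃ μc : @Measure (GL (Fin 2) ℂ) (borel _), @Measure.IsHaarMeasure _ _ _ (borel _) μc)
    (hA : PairAC797 P K K' LocA893) (hBad : BadPartC57 K K') (hS : OpenSwap57 K K') :
    PreBC57 P K K' LocB893b := by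
  intro ℓ hcyc hℓ htc Φe hcusp hconst hP B hB hram g hg
  obtain ⟨𝔫, hlev, hbad⟩ := hBad ℓ hcyc hℓ htc Φe B hB hram g hg
  obtain ⟨μc, hμc⟩ := hH
  refine ⟨𝔫, μc, hlev, hμc, fun T₀ n n₀ m hexp a _ => ?_⟩
  obtain ⟨c₁, Φ₁, F₁, hpa⟩ :=
    hA ℓ hcyc hℓ htc Φe hcusp hconst hP B hB hram 𝔫 hlev μc hμc T₀ n n₀ m hexp
  obtain ⟨fb, hfb⟩ := hbad T₀ n n₀ m hexp
  obtain ⟨Ω, iT, iC, i2, iS, iM, iB, ν, iF, T, T', φ₀, Φ, f₀, F, hdat⟩ :=
    hpa.shape [] (fun x hx => absurd hx (List.not_mem_nil))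
  have hd : IsAvgDat57 (upI (K' := K') 𝔫) 𝔫 T₀ (LocA893 B 𝔫 μc T₀ n m) 1 (Φ₁ []) (F₁ [])
      Ω iT iM ν T T' φ₀ Φ f₀ F := hdat
  have ctx : ∀ Q, SwapCtx57 K K' Q →
      Q ℓ Φe B g 𝔫 μc T₀ n n₀ m c₁ fb Ω iT iM ν T T' φ₀ Φ f₀ F := fun Q hQ =>
    hQ ℓ hcyc hℓ htc Φe B hB hram g hg 𝔫 hlev μc hμc T₀ n n₀ m hexp c₁ Φ₁ F₁ hpa fb hfb
      Ω iT iC i2 iS iM iB ν iF T T' φ₀ Φ f₀ F hd
  obtain ⟨c₂, hop, hne⟩ := ctx _ hS.upOp
  have hmu := ctx _ hS.memUp
  have hmd := ctx _ hS.memDn a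
  have hdo := ctx _ hS.dnOp a
  refine ⟨c₂, swapUpFn57 B T₀ n₀ ν T' φ₀ Φ, swapDnFn57 B T₀ fb a ν T f₀ F, ?_⟩
  exact
    { up_test := ctx _ hS.upTest
      up_ek := ctx _ hS.upEK
      up_inv := ctx _ hS.upInv
      up_op := hop
      up_ne := hne
      dn_test := ctx _ hS.dnTest a
      dn_ek := ctx _ hS.dnEK a
      dn_inv := ctx _ hS.dnInv a
      dn_wfn := hdo.1
      dn_class := hdo.2.1
      dn_comm := hdo.2.2
      up_supp := ctx _ hS.upSupp
      dn_supp := ctx _ hS.dnSupp a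
      shape := ⟨Ω, iT, iC, i2, iS, iM, iB, ν, iF, T, T',
        fun ω => swUp57 B T₀ n₀ (φ₀ ω), Φ, fun ω => swDn57 B T₀ fb (f₀ ω), F,
        fun ω => ⟨(hd.1 ω).1, (hd.1 ω).2.1, ctx _ hS.loc ω⟩,
        hmu.1, hmd.1, hmu.2.1, hmd.2.1, hmu.2.2, hmd.2.2, fun _ => rfl, fun _ => rfl⟩ }

/-- **THE NODE `Q797.PairBC797` FOR THE SHAPE OF RECORD from the two cuts**: the first cut
(`pairBC_of57`: the natural average is split off) and the second cut (`preBC_of57`: the swap of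
the components of the first pair at the places of the level). -/
theorem pairBC_of_cuts57 (hRel : H193.RelTorusC K K')
    (hH : ∃ μc : @Measure (GL (Fin 2) ℂ) (borel _), @Measure.IsHaarMeasure _ _ _ (borel _) μc)
    (hA : PairAC797 P K K' LocA893) (hBad : BadPartC57 K K') (hS : OpenSwap57 K K')
    (hUp : NatUpC57 K K' LocB893b) (hDn : NatDnC57 K K' LocB893b)
    (hSh : NatShapeC57 K K' LocB893b) : PairBC797 P K K' LocB893b :=
  pairBC_of57 hRel (preBC_of57 P K K' hH hA hBad hS) hUp hDn hSh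

end Fermat.Agent.LT.T7.PB57

end

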